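/-
helper93 (P-SS2 / SS2-C6 REGSS, row 903), part I: the formal core.

Chart language of `Fermat.Agent.H11.SS2.Defs`.  At a triple point `𝔪` of the special fibre with
local equations `Y` (branch `V₁ = V02`), `Z` (branch `V₂ = V11`, multiplicity `q - 1`) and
`Y + Z` (branch `V₃ = V20`), the Kronecker relation `Z^(q-1) (Z + Y) - X + ϖ G = 0` and the node
relation `X Y = ϖ ψ` (`ψ` a local unit) give `ϖ · unit = Y Z^(q-1) (Y + Z)`; hence no horizontal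
place through `𝔪` contains `Y`, `Z` or `Y + Z`, and by local Hartogs the three centres are
locally principal.  Together with `𝔪 B_𝔪 = (Y, Z)` this gives the three `IsRegPoint`
statements consumed by `LPZThreeStatement`.
-/
import Fermat.Agent.H11.SS2.Defs

set_option autoImplicit false
set_option linter.style.haveILetI false

noncomputable section

namespace Fermat.Agent.H93.SS2

open Fermat.Agent.H22.KL Fermat.Agent.H11.SS2 Fermat.Agent.H45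

section Loc

variable {A : Type} [CommRing A] {E₀ : Type} [Field E₀] [Algebra A E₀] {y : E₀}
  {𝔪 : Ideal (chartClosure A E₀ y)}

/-- `z ∈ 𝔪 B_𝔪`. -/
def InLocMax (A : Type) [CommRing A] (E₀ : Type) [Field E₀] [Algebra A E₀] (y : E₀)
    (𝔪 : Ideal (chartClosure A E₀ y)) (z : E₀) : Prop :=
  ∃ b : chartClosure A E₀ y, b ∉ 𝔪 ∧ ∃ a : chartClosure A E₀ y, a ∈ 𝔪 ∧ (b : E₀) * z = (a : E₀)

theorem rs_inLoc_of_mem (h𝔪 : 𝔪 ≠ ⊤) {z : E₀} (hz : z ∈ chartClosure A E₀ y) :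
    InLoc A E₀ y 𝔪 z :=
  ⟨1, (Ideal.ne_top_iff_one 𝔪).mp h𝔪, by simpa using hz⟩

theorem rs_inLoc_mul [h𝔪 : 𝔪.IsPrime] {z w : E₀} (hz : InLoc A E₀ y 𝔪 z)
    (hw : InLoc A E₀ y 𝔪 w) : InLoc A E₀ y 𝔪 (z * w) := by
  obtain ⟨b₁, hb₁, h₁⟩ := hz
  obtain ⟨b₂, hb₂, h₂⟩ := hw
  refine ⟨b₁ * b₂, fun h => ?_, ?_⟩
  · rcases h𝔪.mem_or_mem h with h | h
    exacts [hb₁ h, hb₂ h]
  · have : ((b₁ * b₂ : chartClosure A E₀ y) : E₀) * (z * w)
        = ((b₁ : E₀) * z) * ((b₂ : E₀) * w) := by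
      push_cast
      ring
    rw [this]
    exact mul_mem h₁ h₂

theorem rs_inLoc_add [h𝔪 : 𝔪.IsPrime] {z w : E₀} (hz : InLoc A E₀ y 𝔪 z)
    (hw : InLoc A E₀ y 𝔪 w) : InLoc A E₀ y 𝔪 (z + w) := by
  obtain ⟨b₁, hb₁, h₁⟩ := hz
  obtain ⟨b₂, hb₂, h₂⟩ := hw
  refine ⟨b₁ * b₂, fun h => ?_, ?_⟩
  · rcases h𝔪.mem_or_mem h with h | h
    exacts [hb₁ h, hb₂ h]
  · have : ((b₁ * b₂ : chartClosure A E₀ y) : E₀) * (z + w)
        = (b₂ : E₀) * ((b₁ : E₀) * z) + (b₁ : E₀) * ((b₂ : E₀) * w) := by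
      push_cast
      ring
    rw [this]
    exact add_mem (mul_mem b₂.2 h₁) (mul_mem b₁.2 h₂)

theorem rs_inLoc_neg {z : E₀} (hz : InLoc A E₀ y 𝔪 z) : InLoc A E₀ y 𝔪 (-z) := by
  obtain ⟨b, hb, h⟩ := hz
  refine ⟨b, hb, ?_⟩
  rw [mul_neg]
  exact neg_mem h

theorem rs_inLoc_sub [h𝔪 : 𝔪.IsPrime] {z w : E₀} (hz : InLoc A E₀ y 𝔪 z)
    (hw : InLoc A E₀ y 𝔪 w) : InLoc A E₀ y 𝔪 (z - w) := by
  rw [sub_eq_add_neg]
  exact rs_inLoc_add hz (rs_inLoc_neg hw)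

theorem rs_inLoc_of_inLocMax {z : E₀} (hz : InLocMax A E₀ y 𝔪 z) : InLoc A E₀ y 𝔪 z := by
  obtain ⟨b, hb, a, -, h⟩ := hz
  exact ⟨b, hb, h ▸ a.2⟩

theorem rs_inLocMax_mul_mem {z w : E₀} (hz : InLoc A E₀ y 𝔪 z)
    (hw : w ∈ chartClosure A E₀ y) (hwm : (⟨w, hw⟩ : chartClosure A E₀ y) ∈ 𝔪) :
    InLocMax A E₀ y 𝔪 (z * w) := by
  obtain ⟨b, hb, h⟩ := hz
  refine ⟨b, hb, ⟨(b : E₀) * z, h⟩ * ⟨w, hw⟩, 𝔪.mul_mem_left _ hwm, ?_⟩
  push_cast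
  ring

theorem rs_inLocMax_mul_inLoc [h𝔪 : 𝔪.IsPrime] {z w : E₀} (hz : InLocMax A E₀ y 𝔪 z)
    (hw : InLoc A E₀ y 𝔪 w) : InLocMax A E₀ y 𝔪 (z * w) := by
  obtain ⟨b₁, hb₁, a, ha, h₁⟩ := hz
  obtain ⟨b₂, hb₂, h₂⟩ := hw
  refine ⟨b₁ * b₂, fun h => ?_, a * ⟨(b₂ : E₀) * w, h₂⟩, 𝔪.mul_mem_right _ ha, ?_⟩
  · rcases h𝔪.mem_or_mem h with h | h
    exacts [hb₁ h, hb₂ h]
  · push_cast
    rw [← h₁]
    ring

/-- `1 - e` is a unit of `B_𝔪` for `e ∈ 𝔪 B_𝔪`. -/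
theorem rs_isLocUnit_one_sub [h𝔪 : 𝔪.IsPrime] {e : E₀} (he : InLocMax A E₀ y 𝔪 e) :
    IsLocUnit A E₀ y 𝔪 (1 - e) := by
  have hne : 𝔪 ≠ ⊤ := h𝔪.ne_top
  obtain ⟨b, hb, a, ha, h⟩ := he
  have hba : b - a ∉ 𝔪 := fun hmem => hb (by
    have := 𝔪.add_mem hmem ha
    simpa using this)
  have hb0 : (b : E₀) ≠ 0 := by
    intro h0
    apply hb
    have : b = 0 := Subtype.ext h0
    rw [this]
    exact 𝔪.zero_mem
  have hba0 : ((b - a : chartClosure A E₀ y) : E₀) ≠ 0 := by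
    intro h0
    apply hba
    have : b - a = 0 := Subtype.ext h0
    rw [this]
    exact 𝔪.zero_mem
  have hkey : (b : E₀) * (1 - e) = ((b - a : chartClosure A E₀ y) : E₀) := by
    push_cast
    rw [← h]
    ring
  have h1e : (1 - e) ≠ 0 := by
    intro h0
    rw [h0, mul_zero] at hkey
    exact hba0 hkey.symm
  refine ⟨h1e, rs_inLoc_sub (rs_inLoc_of_mem hne (one_mem _))
    (rs_inLoc_of_inLocMax ⟨b, hb, a, ha, h⟩), ⟨b - a, hba, ?_⟩⟩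
  have : ((b - a : chartClosure A E₀ y) : E₀) * (1 - e)⁻¹ = (b : E₀) := by
    rw [← hkey]
    field_simp
  rw [this]
  exact b.2

theorem rs_isLocUnit_mul [h𝔪 : 𝔪.IsPrime] {z w : E₀} (hz : IsLocUnit A E₀ y 𝔪 z)
    (hw : IsLocUnit A E₀ y 𝔪 w) : IsLocUnit A E₀ y 𝔪 (z * w) := by
  refine ⟨mul_ne_zero hz.1 hw.1, rs_inLoc_mul hz.2.1 hw.2.1, ?_⟩
  rw [mul_inv]
  exact rs_inLoc_mul hz.2.2 hw.2.2

/-- `ψ - e` is a unit of `B_𝔪` for a unit `ψ` and `e ∈ 𝔪 B_𝔪`. -/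
theorem rs_isLocUnit_sub [h𝔪 : 𝔪.IsPrime] {ψ e : E₀} (hψ : IsLocUnit A E₀ y 𝔪 ψ)
    (he : InLocMax A E₀ y 𝔪 e) : IsLocUnit A E₀ y 𝔪 (ψ - e) := by
  have h1 : IsLocUnit A E₀ y 𝔪 (1 - e * ψ⁻¹) :=
    rs_isLocUnit_one_sub (rs_inLocMax_mul_inLoc he hψ.2.2)
  have h2 : ψ - e = ψ * (1 - e * ψ⁻¹) := by
    have := hψ.1
    field_simp
  rw [h2]
  exact rs_isLocUnit_mul hψ h1

/-- The valuation ring of a place which contains `A` and `y` contains `B(y)`. -/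
theorem rs_chartClosure_le {V : ValuationSubring E₀} (hA : ∀ a : A, algebraMap A E₀ a ∈ V)
    (hy : y ∈ V) {z : E₀} (hz : z ∈ chartClosure A E₀ y) : z ∈ V := by
  let VA : Subalgebra A E₀ := { V.toSubring with algebraMap_mem' := hA }
  have hle : chartRing A E₀ y ≤ VA := Algebra.adjoin_le (by
    intro w hw
    rw [Set.mem_singleton_iff] at hw
    subst hw
    exact hy)
  have hz' : IsIntegral (chartRing A E₀ y) z := hz
  let φ : chartRing A E₀ y →+* V :=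
    { toFun := fun a => ⟨(a : E₀), hle a.2⟩
      map_one' := rfl
      map_mul' := fun _ _ => rfl
      map_zero' := rfl
      map_add' := fun _ _ => rfl }
  have h1 : IsIntegral V z := by
    have := IsIntegral.map_of_comp_eq φ (RingHom.id E₀) (by ext; rfl) hz'
    simpa using this
  obtain ⟨w, hw⟩ := (IsIntegrallyClosed.isIntegral_iff (R := V) (K := E₀)).mp h1
  rw [← hw]
  exact w.2

theorem rs_inv_mem_of_notMem_nonunits {V : ValuationSubring E₀} {b : E₀}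
    (hb' : b ∉ V.nonunits) : b ≠ 0 ∧ b⁻¹ ∈ V := by
  rw [ValuationSubring.mem_nonunits_iff_or, not_or, not_not] at hb'
  exact hb'

/-- Elements of `B_𝔪` lie in every valuation ring containing `B` whose centre is in `𝔪`. -/
theorem rs_mem_of_inLoc {V : ValuationSubring E₀} (hB : ∀ z ∈ chartClosure A E₀ y, z ∈ V)
    (hT : Through A E₀ y 𝔪 V) {z : E₀} (hz : InLoc A E₀ y 𝔪 z) : z ∈ V := by
  obtain ⟨b, hb, h⟩ := hz
  have hbn : (b : E₀) ∉ V.nonunits := fun hmem => hb (hT b hmem)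
  obtain ⟨hb0, hbinv⟩ := rs_inv_mem_of_notMem_nonunits hbn
  have : z = (b : E₀)⁻¹ * ((b : E₀) * z) := by field_simp
  rw [this]
  exact V.mul_mem _ _ hbinv (hB _ h)

/-- A horizontal place centred at `𝔪` contains `B(y)`. -/
theorem rs_centred_le {V : ValuationSubring E₀}
    (hV : CentredAt A E₀ y 𝔪 V) {z : E₀} (hz : z ∈ chartClosure A E₀ y) : z ∈ V := by
  refine rs_chartClosure_le (fun a => ?_) hV.1.2 hz
  by_cases ha : a = 0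
  · rw [ha, map_zero]
    exact V.zero_mem
  · exact (hV.1.1.2.2 a ha).1

end Loc

section Core

variable (A : Type) [CommRing A] [IsDomain A] [IsDiscreteValuationRing A]
  (E₀ : Type) [Field E₀] [Algebra A E₀] [CharZero E₀]

/-- **Local principality of a branch** from local Hartogs: if `x₁` is a uniformiser of the
vertical valuation `V`, a unit of the other vertical valuations and of every horizontal place
centred at `𝔪`, then the centre of `V` is generated by `x₁` at `𝔪`. -/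
theorem rs_prin (hH : LocalHartogsStatement)
    (hinj : Function.Injective (algebraMap A E₀))
    (ϖ : A) (hϖ : Irreducible ϖ) (y : E₀) (hy : Transcendental A y)
    (hfd : ∃ n : ℕ, Nonempty (Module.Basis (Fin n) (chartField A E₀ y) E₀))
    (𝔪 : Ideal (chartClosure A E₀ y)) (h𝔪 : 𝔪.IsMaximal)
    (hϖ𝔪 : algebraMap A (chartClosure A E₀ y) ϖ ∈ 𝔪)
    (V : ValuationSubring E₀) (x₁ : E₀) (hu : IsUniformiser E₀ V x₁)
    (hother : ∀ z : E₀, z ∈ chartClosure A E₀ y → z / x₁ ∈ V →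
      z / x₁ ∈ gaussClosure A E₀ ϖ y)
    (hhor : ∀ V' : ValuationSubring E₀, CentredAt A E₀ y 𝔪 V' → x₁⁻¹ ∈ V')
    (s : chartClosure A E₀ y) (hs : (s : E₀) ∈ V.nonunits) :
    InLoc A E₀ y 𝔪 ((s : E₀) / x₁) := by
  have hz : (s : E₀) / x₁ ∈ V := hu.2.2 _ hs
  have hzC := hother _ s.2 hz
  refine hH A E₀ hinj ϖ hϖ y hy hfd 𝔪 h𝔪 hϖ𝔪 _ hzC (fun V' hV' => ?_)
  rw [div_eq_mul_inv]
  exact V'.mul_mem _ _ (rs_centred_le hV' s.2) (hhor V' hV')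

/-- **SS2-C6, formal core.** -/
theorem regss_core (hH : LocalHartogsStatement)
    (hinj : Function.Injective (algebraMap A E₀))
    (ϖ : A) (hϖ : Irreducible ϖ) (y : E₀) (hy : Transcendental A y)
    (hfd : ∃ n : ℕ, Nonempty (Module.Basis (Fin n) (chartField A E₀ y) E₀))
    (𝔪 : Ideal (chartClosure A E₀ y)) (h𝔪 : 𝔪.IsMaximal)
    (hϖ𝔪 : algebraMap A (chartClosure A E₀ y) ϖ ∈ 𝔪)
    (q : ℕ) (hq : 2 ≤ q)
    (V₁ V₂ V₃ : ValuationSubring E₀)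
    (hV₁ : IsVertical A E₀ ϖ y V₁) (hV₂ : IsVertical A E₀ ϖ y V₂)
    (hV₃ : IsVertical A E₀ ϖ y V₃)
    (hT₁ : Through A E₀ y 𝔪 V₁) (hT₂ : Through A E₀ y 𝔪 V₂) (hT₃ : Through A E₀ y 𝔪 V₃)
    (hgauss : ∀ z : E₀, z ∈ V₁ → z ∈ V₂ → z ∈ V₃ → z ∈ gaussClosure A E₀ ϖ y)
    (X Y Z G ψ : E₀)
    (hY : Y ∈ chartClosure A E₀ y) (hZ : Z ∈ chartClosure A E₀ y)
    (hYm : (⟨Y, hY⟩ : chartClosure A E₀ y) ∈ 𝔪) (hZm : (⟨Z, hZ⟩ : chartClosure A E₀ y) ∈ 𝔪)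
    (hG : InLoc A E₀ y 𝔪 G) (hψ : IsLocUnit A E₀ y 𝔪 ψ)
    (hrel : Z ^ (q - 1) * (Z + Y) - X + algebraMap A E₀ ϖ * G = 0)
    (hnode : X * Y = algebraMap A E₀ ϖ * ψ)
    (hu₁ : IsUniformiser E₀ V₁ Y) (hu₂ : IsUniformiser E₀ V₂ Z)
    (hu₃ : IsUniformiser E₀ V₃ (Y + Z))
    (hY₂ : Y⁻¹ ∈ V₂) (hY₃ : Y⁻¹ ∈ V₃) (hZ₁ : Z⁻¹ ∈ V₁) (hZ₃ : Z⁻¹ ∈ V₃)
    (hS₁ : (Y + Z)⁻¹ ∈ V₁) (hS₂ : (Y + Z)⁻¹ ∈ V₂)
    (hgen : ∀ s : chartClosure A E₀ y, s ∈ 𝔪 →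
      ∃ c₁ c₂ : E₀, InLoc A E₀ y 𝔪 c₁ ∧ InLoc A E₀ y 𝔪 c₂ ∧ (s : E₀) = c₁ * Y + c₂ * Z) :
    IsRegPoint A E₀ ϖ y 𝔪 V₁ Y Z ∧ IsRegPoint A E₀ ϖ y 𝔪 V₂ Z Y ∧
      IsRegPoint A E₀ ϖ y 𝔪 V₃ (Y + Z) Y := by
  haveI : 𝔪.IsPrime := h𝔪.isPrime
  have hϖ0 : algebraMap A E₀ ϖ ≠ 0 := by
    intro h0
    exact hϖ.ne_zero (hinj (by rw [h0, map_zero]))
  -- `B ⊆ V` for the vertical valuations
  have hBV : ∀ V : ValuationSubring E₀, IsVertical A E₀ ϖ y V →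
      ∀ z ∈ chartClosure A E₀ y, z ∈ V := fun V hV z hz =>
    hV.2.2.1 z (Fermat.Agent.H89.klg_chartClosure_le_gaussClosure hϖ hy hz)
  -- the unit `ψ - G Y` and the factorisation of `ϖ`
  have hunit : IsLocUnit A E₀ y 𝔪 (ψ - G * Y) :=
    rs_isLocUnit_sub hψ (rs_inLocMax_mul_mem hG hY hYm)
  have hfact : algebraMap A E₀ ϖ * (ψ - G * Y) = Y * Z ^ (q - 1) * (Y + Z) := by
    have hX : X = Z ^ (q - 1) * (Z + Y) + algebraMap A E₀ ϖ * G := by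
      linear_combination -hrel
    rw [hX] at hnode
    linear_combination -hnode
  have hP0 : Y * Z ^ (q - 1) * (Y + Z) ≠ 0 := by
    rw [← hfact]
    exact mul_ne_zero hϖ0 hunit.1
  have hY0 : Y ≠ 0 := fun h => hP0 (by rw [h]; ring)
  have hZ0 : Z ≠ 0 := by
    intro h
    apply hP0
    rw [h, zero_pow (by omega)]
    ring
  have hS0 : Y + Z ≠ 0 := fun h => hP0 (by rw [h]; ring)
  have hYZ : Y + Z ∈ chartClosure A E₀ y := add_mem hY hZ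
  -- horizontal places
  have hPinv : ∀ V' : ValuationSubring E₀, CentredAt A E₀ y 𝔪 V' →
      (Y * Z ^ (q - 1) * (Y + Z))⁻¹ ∈ V' := by
    intro V' hV'
    rw [← hfact, mul_inv]
    refine V'.mul_mem _ _ (hV'.1.1.2.2 ϖ hϖ.ne_zero).2 ?_
    exact rs_mem_of_inLoc (fun z hz => rs_centred_le hV' hz) hV'.2 hunit.2.2
  have hhorY : ∀ V' : ValuationSubring E₀, CentredAt A E₀ y 𝔪 V' → Y⁻¹ ∈ V' := by
    intro V' hV'
    have hB := fun z hz => rs_centred_le (z := z) hV' hz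
    have : Y⁻¹ = (Y * Z ^ (q - 1) * (Y + Z))⁻¹ * (Z ^ (q - 1) * (Y + Z)) := by
      field_simp
    rw [this]
    exact V'.mul_mem _ _ (hPinv V' hV')
      (V'.mul_mem _ _ (pow_mem (hB Z hZ) _) (hB _ hYZ))
  have hhorZ : ∀ V' : ValuationSubring E₀, CentredAt A E₀ y 𝔪 V' → Z⁻¹ ∈ V' := by
    intro V' hV'
    have hB := fun z hz => rs_centred_le (z := z) hV' hz
    have hq' : q - 1 = (q - 2) + 1 := by omega
    have : Z⁻¹ = (Y * Z ^ (q - 1) * (Y + Z))⁻¹ * (Y * Z ^ (q - 2) * (Y + Z)) := by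
      rw [hq', pow_succ]
      field_simp
    rw [this]
    exact V'.mul_mem _ _ (hPinv V' hV')
      (V'.mul_mem _ _ (V'.mul_mem _ _ (hB Y hY) (pow_mem (hB Z hZ) _)) (hB _ hYZ))
  have hhorS : ∀ V' : ValuationSubring E₀, CentredAt A E₀ y 𝔪 V' → (Y + Z)⁻¹ ∈ V' := by
    intro V' hV'
    have hB := fun z hz => rs_centred_le (z := z) hV' hz
    have : (Y + Z)⁻¹ = (Y * Z ^ (q - 1) * (Y + Z))⁻¹ * (Y * Z ^ (q - 1)) := by
      field_simp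
    rw [this]
    exact V'.mul_mem _ _ (hPinv V' hV')
      (V'.mul_mem _ _ (hB Y hY) (pow_mem (hB Z hZ) _))
  have hne : 𝔪 ≠ ⊤ := h𝔪.ne_top
  refine ⟨?_, ?_, ?_⟩
  · exact
      { vert := hV₁
        thru := hT₁
        mem₁ := hY
        mem₂ := hZ
        mem_max₂ := fun _ => hZm
        unif := hu₁
        prin := fun s hs => rs_prin A E₀ hH hinj ϖ hϖ y hy hfd 𝔪 h𝔪 hϖ𝔪 V₁ Y hu₁
          (fun z hz hzV => hgauss _ hzV
            (by rw [div_eq_mul_inv]; exact V₂.mul_mem _ _ (hBV V₂ hV₂ z hz) hY₂)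
            (by rw [div_eq_mul_inv]; exact V₃.mul_mem _ _ (hBV V₃ hV₃ z hz) hY₃))
          hhorY s hs
        gen := hgen }
  · exact
      { vert := hV₂
        thru := hT₂
        mem₁ := hZ
        mem₂ := hY
        mem_max₂ := fun _ => hYm
        unif := hu₂
        prin := fun s hs => rs_prin A E₀ hH hinj ϖ hϖ y hy hfd 𝔪 h𝔪 hϖ𝔪 V₂ Z hu₂
          (fun z hz hzV => hgauss _
            (by rw [div_eq_mul_inv]; exact V₁.mul_mem _ _ (hBV V₁ hV₁ z hz) hZ₁)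
            hzV
            (by rw [div_eq_mul_inv]; exact V₃.mul_mem _ _ (hBV V₃ hV₃ z hz) hZ₃))
          hhorZ s hs
        gen := fun s hs => by
          obtain ⟨c₁, c₂, h₁, h₂, h⟩ := hgen s hs
          exact ⟨c₂, c₁, h₂, h₁, by rw [h]; ring⟩ }
  · exact
      { vert := hV₃
        thru := hT₃
        mem₁ := hYZ
        mem₂ := hY
        mem_max₂ := fun _ => hYm
        unif := hu₃
        prin := fun s hs => rs_prin A E₀ hH hinj ϖ hϖ y hy hfd 𝔪 h𝔪 hϖ𝔪 V₃ (Y + Z) hu₃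
          (fun z hz hzV => hgauss _
            (by rw [div_eq_mul_inv]; exact V₁.mul_mem _ _ (hBV V₁ hV₁ z hz) hS₁)
            (by rw [div_eq_mul_inv]; exact V₂.mul_mem _ _ (hBV V₂ hV₂ z hz) hS₂)
            hzV)
          hhorS s hs
        gen := fun s hs => by
          obtain ⟨c₁, c₂, h₁, h₂, h⟩ := hgen s hs
          exact ⟨c₂, c₁ - c₂, h₂, rs_inLoc_sub h₁ h₂, by rw [h]; ring⟩ }

end Core

end Fermat.Agent.H93.SS2
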