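/-
helper93 (P-SS2 / SS2-C6 REGSS, row 903), parts II and III: generation of the maximal ideal
and uniqueness of the triple point.

Chart language of `Fermat.Agent.H11.SS2.Defs`.  `𝓜` is a set of maximal ideals of `B(y)`
containing `ϖ`, `X`, `Y` (the points above a node `𝔪' = (X, Y)` of the lower level), `R'` is a
set of functions (the image of the local ring of the lower level) whose residues on the branch
`V₁` (`Y = 0`) form a discrete valuation ring with uniformiser `X`: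
every `r ∈ R'` is `≡ 0` or `≡ u X ^ k` modulo `𝔪_{V₁}` with `u` a unit at all points of `𝓜`.

* `rg_eis` (Eisenstein by hand): if `X w = Z ^ (q - 1) (Z + Y)` with a unit `w`, then every
  `∑_{i < q} r i Z ^ i` is `≡ 0` or `≡ u Z ^ k` modulo `𝔪_{V₁}`.
* `rg_max_step` (a discrete valuation ring is a maximal subring).
* `rg_local` : at a point of `𝓜` : `Z ∈ 𝔪`, the three centres are locally principal and the
  three branches pass through `𝔪`.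
* `regss_points` : if moreover the residue field of `V₁` is generated by the residues of
  `R'[Z]`, then every point of `𝓜` is a regular triple point (the three `IsRegPoint` of
  `LPZThreeStatement`) and `𝓜` has at most one element.
-/
import Fermat.Agent.H93.SS2.RegSSCore

set_option autoImplicit false
set_option linter.style.haveILetI false

noncomputable section

namespace Fermat.Agent.H93.SS2

open Fermat.Agent.H22.KL Fermat.Agent.H11.SS2 Fermat.Agent.H45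

section Loc2

variable {A : Type} [CommRing A] {E₀ : Type} [Field E₀] [Algebra A E₀] {y : E₀}
  {𝔪 : Ideal (chartClosure A E₀ y)}

theorem rg_nu_mul_mem {V : ValuationSubring E₀} {a b : E₀} (ha : a ∈ V)
    (hb : b ∈ V.nonunits) : a * b ∈ V.nonunits := by
  rw [ValuationSubring.mem_nonunits_iff] at *
  rw [map_mul]
  have h1 := (V.valuation_le_one_iff a).2 ha
  calc V.valuation a * V.valuation b ≤ 1 * V.valuation b := mul_le_mul' h1 le_rfl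
    _ = V.valuation b := one_mul _
    _ < 1 := hb

theorem rg_nu_mem {V : ValuationSubring E₀} {a : E₀} (ha : a ∈ V.nonunits) : a ∈ V :=
  V.nonunits_subset ha

/-- A unit of `V` times a non-element of `𝔪_V` is not in `𝔪_V`. -/
theorem rg_notMem_nu_mul {V : ValuationSubring E₀} {a b : E₀}
    (ha' : a ∉ V.nonunits) (hb : b ∉ V.nonunits) : a * b ∉ V.nonunits := by
  intro h
  obtain ⟨ha0, hainv⟩ := rs_inv_mem_of_notMem_nonunits ha'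
  apply hb
  have : b = a⁻¹ * (a * b) := by field_simp
  rw [this]
  exact rg_nu_mul_mem hainv h

theorem rg_inLocMax_add [h𝔪 : 𝔪.IsPrime] {z w : E₀} (hz : InLocMax A E₀ y 𝔪 z)
    (hw : InLocMax A E₀ y 𝔪 w) : InLocMax A E₀ y 𝔪 (z + w) := by
  obtain ⟨b₁, hb₁, a₁, ha₁, h₁⟩ := hz
  obtain ⟨b₂, hb₂, a₂, ha₂, h₂⟩ := hw
  refine ⟨b₁ * b₂, fun h => ?_, b₂ * a₁ + b₁ * a₂,
    𝔪.add_mem (𝔪.mul_mem_left _ ha₁) (𝔪.mul_mem_left _ ha₂), ?_⟩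
  · rcases h𝔪.mem_or_mem h with h | h
    exacts [hb₁ h, hb₂ h]
  · push_cast
    rw [← h₁, ← h₂]
    ring

theorem rg_inLocMax_neg {z : E₀} (hz : InLocMax A E₀ y 𝔪 z) : InLocMax A E₀ y 𝔪 (-z) := by
  obtain ⟨b, hb, a, ha, h⟩ := hz
  refine ⟨b, hb, -a, 𝔪.neg_mem ha, ?_⟩
  push_cast
  rw [← h]
  ring

theorem rg_inLocMax_sub [h𝔪 : 𝔪.IsPrime] {z w : E₀} (hz : InLocMax A E₀ y 𝔪 z)
    (hw : InLocMax A E₀ y 𝔪 w) : InLocMax A E₀ y 𝔪 (z - w) := by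
  rw [sub_eq_add_neg]
  exact rg_inLocMax_add hz (rg_inLocMax_neg hw)

theorem rg_inLocMax_of_mem (h𝔪 : 𝔪 ≠ ⊤) {s : chartClosure A E₀ y} (hs : s ∈ 𝔪) :
    InLocMax A E₀ y 𝔪 (s : E₀) :=
  ⟨1, (Ideal.ne_top_iff_one 𝔪).mp h𝔪, s, hs, by simp⟩

theorem rg_mem_of_inLocMax [h𝔪 : 𝔪.IsPrime] {s : chartClosure A E₀ y}
    (h : InLocMax A E₀ y 𝔪 (s : E₀)) : s ∈ 𝔪 := by
  obtain ⟨b, hb, a, ha, hba⟩ := h
  have : b * s = a := Subtype.ext (by push_cast; exact hba)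
  have hmem : b * s ∈ 𝔪 := this ▸ ha
  rcases h𝔪.mem_or_mem hmem with h | h
  · exact absurd h hb
  · exact h

theorem rg_not_inLocMax_of_isLocUnit [h𝔪 : 𝔪.IsPrime] {u : E₀}
    (hu : IsLocUnit A E₀ y 𝔪 u) : ¬ InLocMax A E₀ y 𝔪 u := by
  rintro ⟨b, hb, a, ha, hba⟩
  obtain ⟨hu0, -, b', hb', hc⟩ := hu
  have : b * b' = a * ⟨(b' : E₀) * u⁻¹, hc⟩ := Subtype.ext (by
    push_cast
    rw [← hba]
    field_simp)
  have hmem : b * b' ∈ 𝔪 := this ▸ 𝔪.mul_mem_right _ ha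
  rcases h𝔪.mem_or_mem hmem with h | h
  exacts [hb h, hb' h]

theorem rg_isLocUnit_inv {u : E₀} (hu : IsLocUnit A E₀ y 𝔪 u) : IsLocUnit A E₀ y 𝔪 u⁻¹ :=
  ⟨inv_ne_zero hu.1, hu.2.2, by rw [inv_inv]; exact hu.2.1⟩

theorem rg_isLocUnit_add [h𝔪 : 𝔪.IsPrime] {u e : E₀} (hu : IsLocUnit A E₀ y 𝔪 u)
    (he : InLocMax A E₀ y 𝔪 e) : IsLocUnit A E₀ y 𝔪 (u + e) := by
  have := rs_isLocUnit_sub hu (rg_inLocMax_neg he)
  simpa using this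

theorem rg_isLocUnit_div [h𝔪 : 𝔪.IsPrime] {u v : E₀} (hu : IsLocUnit A E₀ y 𝔪 u)
    (hv : IsLocUnit A E₀ y 𝔪 v) : IsLocUnit A E₀ y 𝔪 (u / v) := by
  rw [div_eq_mul_inv]
  exact rs_isLocUnit_mul hu (rg_isLocUnit_inv hv)

theorem rg_inLoc_pow [h𝔪 : 𝔪.IsPrime] {z : E₀} (hz : InLoc A E₀ y 𝔪 z) (n : ℕ) :
    InLoc A E₀ y 𝔪 (z ^ n) := by
  induction n with
  | zero =>
    rw [pow_zero]
    exact rs_inLoc_of_mem h𝔪.ne_top (one_mem _)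
  | succ k ih =>
    rw [pow_succ]
    exact rs_inLoc_mul ih hz

theorem rg_isLocUnit_pow [h𝔪 : 𝔪.IsPrime] {z : E₀} (hz : IsLocUnit A E₀ y 𝔪 z) (n : ℕ) :
    IsLocUnit A E₀ y 𝔪 (z ^ n) := by
  refine ⟨pow_ne_zero _ hz.1, rg_inLoc_pow hz.2.1 n, ?_⟩
  rw [← inv_pow]
  exact rg_inLoc_pow hz.2.2 n

/-- `c Z ^ (n + 1) ∈ 𝔪 B_𝔪` for `c ∈ B_𝔪`, `Z ∈ 𝔪`. -/
theorem rg_inLocMax_mul_pow_succ [h𝔪 : 𝔪.IsPrime] {c Z : E₀} (hc : InLoc A E₀ y 𝔪 c)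
    (hZ : Z ∈ chartClosure A E₀ y) (hZm : (⟨Z, hZ⟩ : chartClosure A E₀ y) ∈ 𝔪) (n : ℕ) :
    InLocMax A E₀ y 𝔪 (c * Z ^ (n + 1)) := by
  have h1 : InLoc A E₀ y 𝔪 (c * Z ^ n) :=
    rs_inLoc_mul hc (rg_inLoc_pow (rs_inLoc_of_mem h𝔪.ne_top hZ) n)
  have h2 := rs_inLocMax_mul_mem h1 hZ hZm
  have : c * Z ^ (n + 1) = c * Z ^ n * Z := by ring
  rw [this]
  exact h2

/-- The centre of `V` is generated by `Y` in `B_𝔪` (not only on `B`). -/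
theorem rg_prin_loc [h𝔪 : 𝔪.IsPrime] {V : ValuationSubring E₀}
    (hB : ∀ z ∈ chartClosure A E₀ y, z ∈ V) (Y : E₀)
    (hprin : ∀ s : chartClosure A E₀ y, (s : E₀) ∈ V.nonunits →
      InLoc A E₀ y 𝔪 ((s : E₀) / Y))
    {t : E₀} (ht : InLoc A E₀ y 𝔪 t) (htV : t ∈ V.nonunits) :
    InLoc A E₀ y 𝔪 (t / Y) := by
  obtain ⟨b, hb, hbt⟩ := ht
  have h1 : (b : E₀) * t ∈ V.nonunits := rg_nu_mul_mem (hB _ b.2) htV
  obtain ⟨b₁, hb₁, h₂⟩ := hprin ⟨(b : E₀) * t, hbt⟩ h1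
  refine ⟨b₁ * b, fun h => ?_, ?_⟩
  · rcases h𝔪.mem_or_mem h with h | h
    exacts [hb₁ h, hb h]
  · have : ((b₁ * b : chartClosure A E₀ y) : E₀) * (t / Y)
        = (b₁ : E₀) * ((b : E₀) * t / Y) := by
      push_cast
      ring
    rw [this]
    exact h₂

end Loc2

section Eis

variable {E₀ : Type} [Field E₀] (V : ValuationSubring E₀)

theorem rg_pow_sub_pow_mem {a b : E₀} (ha : a ∈ V) (hb : b ∈ V) (hab : a - b ∈ V.nonunits)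
    (k : ℕ) : a ^ k - b ^ k ∈ V.nonunits := by
  induction k with
  | zero =>
    rw [pow_zero, pow_zero, sub_self]
    exact V.nonunits.zero_mem
  | succ n ih =>
    have : a ^ (n + 1) - b ^ (n + 1) = a * (a ^ n - b ^ n) + b ^ n * (a - b) := by ring
    rw [this]
    exact V.nonunits.add_mem (rg_nu_mul_mem ha ih) (rg_nu_mul_mem (pow_mem hb n) hab)

theorem rg_sum_mem_nu (Z : E₀) (hZ : Z ∈ V) (r : ℕ → E₀) (n : ℕ)
    (h : ∀ i < n, r i ∈ V.nonunits) :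
    ∑ i ∈ Finset.range n, r i * Z ^ i ∈ V.nonunits := by
  refine V.nonunits.sum_mem fun i hi => ?_
  rw [mul_comm]
  exact rg_nu_mul_mem (pow_mem hZ i) (h i (Finset.mem_range.mp hi))

/-- **Eisenstein by hand.**  `U` is a class of units of `V`, stable under products, inverses
and `u ↦ u + v Z ^ (n + 1)`.  If `X w = Z ^ (q - 1) (Z + Y)` with `w ∈ U`, `Y ∈ 𝔪_V`, and every
`r i` is `≡ 0` or `≡ u X ^ k` modulo `𝔪_V` (`u ∈ U`), then `∑_{i < q} r i Z ^ i` is `≡ 0` (when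
all `r i ≡ 0`) or `≡ u Z ^ k` modulo `𝔪_V` with `u ∈ U`. -/
theorem rg_eis (q : ℕ) (hq : 1 ≤ q) (X Y Z w : E₀) (U : E₀ → Prop)
    (hUV : ∀ u, U u → u ∈ V ∧ u⁻¹ ∈ V)
    (hUmul : ∀ u v, U u → U v → U (u * v))
    (hUinv : ∀ u, U u → U u⁻¹)
    (hUadd : ∀ u v, U u → U v → ∀ n : ℕ, U (u + v * Z ^ (n + 1)))
    (hw : U w) (hw0 : w ≠ 0) (hY : Y ∈ V.nonunits) (hZ : Z ∈ V)
    (hrel : X * w = Z ^ (q - 1) * (Z + Y))
    (r : ℕ → E₀)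
    (hr : ∀ i < q, r i ∈ V.nonunits ∨ ∃ (u : E₀) (k : ℕ), U u ∧ r i - u * X ^ k ∈ V.nonunits) :
    (∀ i < q, r i ∈ V.nonunits) ∨
      ∃ (u : E₀) (k : ℕ), U u ∧
        (∑ i ∈ Finset.range q, r i * Z ^ i) - u * Z ^ k ∈ V.nonunits := by
  have hYV : Y ∈ V := rg_nu_mem hY
  have hwV := hUV w hw
  -- `X ≡ w⁻¹ Z ^ q`
  have hXeq : X = w⁻¹ * (Z ^ (q - 1) * (Z + Y)) := by
    rw [← hrel]
    field_simp
  have hXV : X ∈ V := by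
    rw [hXeq]
    exact V.mul_mem _ _ hwV.2 (V.mul_mem _ _ (pow_mem hZ _) (V.add_mem _ _ hZ hYV))
  have hbV : w⁻¹ * Z ^ q ∈ V := V.mul_mem _ _ hwV.2 (pow_mem hZ _)
  have hXb : X - w⁻¹ * Z ^ q ∈ V.nonunits := by
    have hq' : q = (q - 1) + 1 := by omega
    have : X - w⁻¹ * Z ^ q = (w⁻¹ * Z ^ (q - 1)) * Y := by
      rw [hXeq]
      conv_lhs => rw [hq']
      rw [pow_succ]
      simp only [Nat.add_sub_cancel]
      ring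
    rw [this]
    exact rg_nu_mul_mem (V.mul_mem _ _ hwV.2 (pow_mem hZ _)) hY
  have hwpow : ∀ k : ℕ, U ((w⁻¹) ^ k) := by
    intro k
    induction k with
    | zero =>
      rw [pow_zero]
      have := hUmul _ _ hw (hUinv _ hw)
      rwa [mul_inv_cancel₀ hw0] at this
    | succ n ih =>
      rw [pow_succ]
      exact hUmul _ _ ih (hUinv _ hw)
  -- the terms
  have hterm : ∀ i < q, r i ∈ V.nonunits ∨ ∃ (u : E₀) (k : ℕ), U u ∧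
      r i * Z ^ i - u * Z ^ (q * k + i) ∈ V.nonunits := by
    intro i hi
    rcases hr i hi with h | ⟨u, k, hu, h⟩
    · exact Or.inl h
    · refine Or.inr ⟨u * (w⁻¹) ^ k, k, hUmul _ _ hu (hwpow k), ?_⟩
      have h1 := rg_pow_sub_pow_mem V hXV hbV hXb k
      have : r i * Z ^ i - u * (w⁻¹) ^ k * Z ^ (q * k + i)
          = Z ^ i * (r i - u * X ^ k) + (u * Z ^ i) * (X ^ k - (w⁻¹ * Z ^ q) ^ k) := by
        ring
      rw [this]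
      exact V.nonunits.add_mem (rg_nu_mul_mem (pow_mem hZ i) h)
        (rg_nu_mul_mem (V.mul_mem _ _ (hUV u hu).1 (pow_mem hZ i)) h1)
  -- induction over the partial sums
  have hind : ∀ n : ℕ, n ≤ q → ((∀ i < n, r i ∈ V.nonunits) ∨
      ∃ i₀ < n, ∃ (u : E₀) (k : ℕ), U u ∧
        (∑ i ∈ Finset.range n, r i * Z ^ i) - u * Z ^ (q * k + i₀) ∈ V.nonunits) := by
    intro n
    induction n with
    | zero =>
      intro _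
      exact Or.inl fun i hi => absurd hi (Nat.not_lt_zero i)
    | succ n ih =>
      intro hn
      have hnq : n < q := hn
      rw [Finset.sum_range_succ]
      rcases hterm n hnq with hrn | ⟨u', k', hu', hrn⟩
      · have hrnZ : r n * Z ^ n ∈ V.nonunits := by
          rw [mul_comm]
          exact rg_nu_mul_mem (pow_mem hZ n) hrn
        rcases ih hnq.le with hall | ⟨i₀, hi₀, u, k, hu, hsum⟩
        · left
          intro i hi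
          rcases Nat.lt_succ_iff_lt_or_eq.mp hi with h | h
          · exact hall i h
          · rw [h]
            exact hrn
        · right
          refine ⟨i₀, Nat.lt_succ_of_lt hi₀, u, k, hu, ?_⟩
          have : (∑ i ∈ Finset.range n, r i * Z ^ i) + r n * Z ^ n - u * Z ^ (q * k + i₀)
              = ((∑ i ∈ Finset.range n, r i * Z ^ i) - u * Z ^ (q * k + i₀))
                + r n * Z ^ n := by ring
          rw [this]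
          exact V.nonunits.add_mem hsum hrnZ
      · right
        rcases ih hnq.le with hall | ⟨i₀, hi₀, u, k, hu, hsum⟩
        · refine ⟨n, Nat.lt_succ_self n, u', k', hu', ?_⟩
          have h0 := rg_sum_mem_nu V Z hZ r n hall
          have : (∑ i ∈ Finset.range n, r i * Z ^ i) + r n * Z ^ n - u' * Z ^ (q * k' + n)
              = (∑ i ∈ Finset.range n, r i * Z ^ i)
                + (r n * Z ^ n - u' * Z ^ (q * k' + n)) := by ring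
          rw [this]
          exact V.nonunits.add_mem h0 hrn
        · have hne : q * k + i₀ ≠ q * k' + n := by
            intro h
            have h1 : (q * k + i₀) % q = i₀ := by
              rw [Nat.mul_add_mod]
              exact Nat.mod_eq_of_lt (lt_trans hi₀ hnq)
            have h2 : (q * k' + n) % q = n := by
              rw [Nat.mul_add_mod]
              exact Nat.mod_eq_of_lt hnq
            rw [h, h2] at h1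
            omega
          have hsplit : (∑ i ∈ Finset.range n, r i * Z ^ i) + r n * Z ^ n
              - (u * Z ^ (q * k + i₀) + u' * Z ^ (q * k' + n))
              = ((∑ i ∈ Finset.range n, r i * Z ^ i) - u * Z ^ (q * k + i₀))
                + (r n * Z ^ n - u' * Z ^ (q * k' + n)) := by ring
          have hmem := V.nonunits.add_mem hsum hrn
          rw [← hsplit] at hmem
          rcases lt_or_gt_of_ne hne with hlt | hgt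
          · obtain ⟨m, hm⟩ : ∃ m : ℕ, q * k' + n = (q * k + i₀) + (m + 1) :=
              ⟨q * k' + n - (q * k + i₀) - 1, by omega⟩
            refine ⟨i₀, Nat.lt_succ_of_lt hi₀, u + u' * Z ^ (m + 1), k, hUadd u u' hu hu' m, ?_⟩
            have : (u + u' * Z ^ (m + 1)) * Z ^ (q * k + i₀)
                = u * Z ^ (q * k + i₀) + u' * Z ^ (q * k' + n) := by
              rw [hm]
              ring
            rw [this]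
            exact hmem
          · obtain ⟨m, hm⟩ : ∃ m : ℕ, q * k + i₀ = (q * k' + n) + (m + 1) :=
              ⟨q * k + i₀ - (q * k' + n) - 1, by omega⟩
            refine ⟨n, Nat.lt_succ_self n, u' + u * Z ^ (m + 1), k', hUadd u' u hu' hu m, ?_⟩
            have : (u' + u * Z ^ (m + 1)) * Z ^ (q * k' + n)
                = u * Z ^ (q * k + i₀) + u' * Z ^ (q * k' + n) := by
              rw [hm]
              ring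
            rw [this]
            exact hmem
  rcases hind q le_rfl with h | ⟨i₀, -, u, k, hu, h⟩
  · exact Or.inl h
  · exact Or.inr ⟨u, q * k + i₀, hu, h⟩

end Eis

section Max

variable {A : Type} [CommRing A] {E₀ : Type} [Field E₀] [Algebra A E₀] {y : E₀}

/-- **A discrete valuation ring is a maximal subring** (by hand).  `𝔪₁`, `𝔪₂` two points on the
branch `V` with local equation `Y`; `s ∈ 𝔪₁` whose residue on `V` is a quotient `d / d'` of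
functions with `d ≡ u Z ^ j`, `d' ≡ u' Z ^ k` (`u`, `u'` units at both points).  Then
`s ∈ (Y, Z) B_{𝔪₂}`. -/
theorem rg_max_step (𝔪₁ 𝔪₂ : Ideal (chartClosure A E₀ y)) [h₁ : 𝔪₁.IsPrime] [h₂ : 𝔪₂.IsPrime]
    (V : ValuationSubring E₀) (hB : ∀ z ∈ chartClosure A E₀ y, z ∈ V)
    (hT₁ : Through A E₀ y 𝔪₁ V)
    (Y Z : E₀) (hY0 : Y ≠ 0) (hY : Y ∈ chartClosure A E₀ y) (hZ : Z ∈ chartClosure A E₀ y)
    (hYm₁ : (⟨Y, hY⟩ : chartClosure A E₀ y) ∈ 𝔪₁)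
    (hZ0 : Z ≠ 0) (hZV : Z⁻¹ ∈ V)
    (hprin₁ : ∀ s : chartClosure A E₀ y, (s : E₀) ∈ V.nonunits →
      InLoc A E₀ y 𝔪₁ ((s : E₀) / Y))
    (hprin₂ : ∀ s : chartClosure A E₀ y, (s : E₀) ∈ V.nonunits →
      InLoc A E₀ y 𝔪₂ ((s : E₀) / Y))
    (s : chartClosure A E₀ y) (hs : s ∈ 𝔪₁)
    (d d' u u' : E₀) (j k : ℕ)
    (hu₁ : IsLocUnit A E₀ y 𝔪₁ u) (hu₂ : IsLocUnit A E₀ y 𝔪₂ u)
    (hu'₁ : IsLocUnit A E₀ y 𝔪₁ u') (hu'₂ : IsLocUnit A E₀ y 𝔪₂ u')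
    (hd : d - u * Z ^ j ∈ V.nonunits) (hd' : d' - u' * Z ^ k ∈ V.nonunits)
    (hsd : (s : E₀) * d' - d ∈ V.nonunits) :
    ∃ c₁ c₂ : E₀, InLoc A E₀ y 𝔪₂ c₁ ∧ InLoc A E₀ y 𝔪₂ c₂ ∧ (s : E₀) = c₁ * Y + c₂ * Z := by
  have hsV : (s : E₀) ∈ V := hB _ s.2
  have hZVm : Z ∈ V := hB Z hZ
  have hu'0 : u' ≠ 0 := hu'₁.1
  have hu'inv : u'⁻¹ ∈ V := rs_mem_of_inLoc hB hT₁ hu'₁.2.2
  have hkey : (s : E₀) * u' * Z ^ k - u * Z ^ j ∈ V.nonunits := by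
    have : (s : E₀) * u' * Z ^ k - u * Z ^ j
        = ((s : E₀) * d' - d) - (s : E₀) * (d' - u' * Z ^ k) + (d - u * Z ^ j) := by ring
    rw [this]
    exact V.nonunits.add_mem (V.nonunits.sub_mem hsd (rg_nu_mul_mem hsV hd')) hd
  have hne₂ : 𝔪₂ ≠ ⊤ := h₂.ne_top
  have hne₁ : 𝔪₁ ≠ ⊤ := h₁.ne_top
  rcases Nat.lt_or_ge k j with hkj | hjk
  · obtain ⟨m, hm⟩ : ∃ m : ℕ, j = k + (m + 1) := ⟨j - k - 1, by omega⟩
    have htV : (s : E₀) - u / u' * Z ^ (m + 1) ∈ V.nonunits := by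
      have hinv : (u' * Z ^ k)⁻¹ ∈ V := by
        rw [mul_inv, ← inv_pow]
        exact V.mul_mem _ _ hu'inv (pow_mem hZV k)
      have : (s : E₀) - u / u' * Z ^ (m + 1)
          = (u' * Z ^ k)⁻¹ * ((s : E₀) * u' * Z ^ k - u * Z ^ j) := by
        rw [hm]
        field_simp
        ring
      rw [this]
      exact rg_nu_mul_mem hinv hkey
    have htL : InLoc A E₀ y 𝔪₂ ((s : E₀) - u / u' * Z ^ (m + 1)) :=
      rs_inLoc_sub (rs_inLoc_of_mem hne₂ s.2)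
        (rs_inLoc_mul (rg_isLocUnit_div hu₂ hu'₂).2.1
          (rs_inLoc_of_mem hne₂ (pow_mem hZ _)))
    refine ⟨((s : E₀) - u / u' * Z ^ (m + 1)) / Y, u / u' * Z ^ m,
      rg_prin_loc hB Y hprin₂ htL htV,
      rs_inLoc_mul (rg_isLocUnit_div hu₂ hu'₂).2.1 (rs_inLoc_of_mem hne₂ (pow_mem hZ _)), ?_⟩
    field_simp
    ring
  · exfalso
    obtain ⟨m, hm⟩ : ∃ m : ℕ, k = j + m := ⟨k - j, by omega⟩
    have htV : (s : E₀) * Z ^ m - u / u' ∈ V.nonunits := by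
      have hinv : (u' * Z ^ j)⁻¹ ∈ V := by
        rw [mul_inv, ← inv_pow]
        exact V.mul_mem _ _ hu'inv (pow_mem hZV j)
      have : (s : E₀) * Z ^ m - u / u'
          = (u' * Z ^ j)⁻¹ * ((s : E₀) * u' * Z ^ k - u * Z ^ j) := by
        rw [hm]
        field_simp
        ring
      rw [this]
      exact rg_nu_mul_mem hinv hkey
    have hsZ : InLocMax A E₀ y 𝔪₁ ((s : E₀) * Z ^ m) := by
      have h := rg_inLocMax_of_mem hne₁ (𝔪₁.mul_mem_right (⟨Z, hZ⟩ ^ m) hs)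
      simpa using h
    have htL : InLoc A E₀ y 𝔪₁ ((s : E₀) * Z ^ m - u / u') :=
      rs_inLoc_sub (rs_inLoc_of_inLocMax hsZ) (rg_isLocUnit_div hu₁ hu'₁).2.1
    have hdiv := rg_prin_loc hB Y hprin₁ htL htV
    have htM : InLocMax A E₀ y 𝔪₁ ((s : E₀) * Z ^ m - u / u') := by
      have h := rs_inLocMax_mul_mem hdiv hY hYm₁
      have e : ((s : E₀) * Z ^ m - u / u') / Y * Y = (s : E₀) * Z ^ m - u / u' := by
        field_simp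
      rwa [e] at h
    have hunit : InLocMax A E₀ y 𝔪₁ (u / u') := by
      have h := rg_inLocMax_sub hsZ htM
      have e : (s : E₀) * Z ^ m - ((s : E₀) * Z ^ m - u / u') = u / u' := by ring
      rwa [e] at h
    exact rg_not_inLocMax_of_isLocUnit (rg_isLocUnit_div hu₁ hu'₁) hunit

end Max

section Main

variable (A : Type) [CommRing A] [IsDomain A] [IsDiscreteValuationRing A]
  (E₀ : Type) [Field E₀] [Algebra A E₀] [CharZero E₀]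

/-- **Local facts at a point above the node.**  `𝔪 ∋ ϖ, X, Y`: then `Z ∈ 𝔪`, the three centres
are locally principal at `𝔪`, the three branches pass through `𝔪`, and
`X w = Z ^ (q - 1) (Z + Y)` with the local unit `w = (ψ - G Y) / ψ`. -/
theorem rg_local (hH : LocalHartogsStatement)
    (hinj : Function.Injective (algebraMap A E₀))
    (ϖ : A) (hϖ : Irreducible ϖ) (y : E₀) (hy : Transcendental A y)
    (hfd : ∃ n : ℕ, Nonempty (Module.Basis (Fin n) (chartField A E₀ y) E₀))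
    (𝔪 : Ideal (chartClosure A E₀ y)) (h𝔪 : 𝔪.IsMaximal)
    (hϖ𝔪 : algebraMap A (chartClosure A E₀ y) ϖ ∈ 𝔪)
    (q : ℕ) (hq : 2 ≤ q)
    (V₁ V₂ V₃ : ValuationSubring E₀)
    (hV₁ : IsVertical A E₀ ϖ y V₁) (hV₂ : IsVertical A E₀ ϖ y V₂)
    (hV₃ : IsVertical A E₀ ϖ y V₃)
    (hgauss : ∀ z : E₀, z ∈ V₁ → z ∈ V₂ → z ∈ V₃ → z ∈ gaussClosure A E₀ ϖ y)
    (X Y Z G ψ : E₀)
    (hX : X ∈ chartClosure A E₀ y)
    (hY : Y ∈ chartClosure A E₀ y) (hZ : Z ∈ chartClosure A E₀ y)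
    (hXm : (⟨X, hX⟩ : chartClosure A E₀ y) ∈ 𝔪)
    (hYm : (⟨Y, hY⟩ : chartClosure A E₀ y) ∈ 𝔪)
    (hG : InLoc A E₀ y 𝔪 G) (hψ : IsLocUnit A E₀ y 𝔪 ψ)
    (hrel : Z ^ (q - 1) * (Z + Y) - X + algebraMap A E₀ ϖ * G = 0)
    (hnode : X * Y = algebraMap A E₀ ϖ * ψ)
    (hu₁ : IsUniformiser E₀ V₁ Y) (hu₂ : IsUniformiser E₀ V₂ Z)
    (hu₃ : IsUniformiser E₀ V₃ (Y + Z))
    (hY₂ : Y⁻¹ ∈ V₂) (hY₃ : Y⁻¹ ∈ V₃) (hZ₁ : Z⁻¹ ∈ V₁) (hZ₃ : Z⁻¹ ∈ V₃)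
    (hS₁ : (Y + Z)⁻¹ ∈ V₁) (hS₂ : (Y + Z)⁻¹ ∈ V₂) :
    (⟨Z, hZ⟩ : chartClosure A E₀ y) ∈ 𝔪 ∧
    (∀ s : chartClosure A E₀ y, (s : E₀) ∈ V₁.nonunits → InLoc A E₀ y 𝔪 ((s : E₀) / Y)) ∧
    (∀ s : chartClosure A E₀ y, (s : E₀) ∈ V₂.nonunits → InLoc A E₀ y 𝔪 ((s : E₀) / Z)) ∧
    (∀ s : chartClosure A E₀ y, (s : E₀) ∈ V₃.nonunits →
      InLoc A E₀ y 𝔪 ((s : E₀) / (Y + Z))) ∧
    Through A E₀ y 𝔪 V₁ ∧ Through A E₀ y 𝔪 V₂ ∧ Through A E₀ y 𝔪 V₃ ∧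
    IsLocUnit A E₀ y 𝔪 ((ψ - G * Y) / ψ) ∧
    X * ((ψ - G * Y) / ψ) = Z ^ (q - 1) * (Z + Y) := by
  haveI : 𝔪.IsPrime := h𝔪.isPrime
  have hne : 𝔪 ≠ ⊤ := h𝔪.ne_top
  have hϖ0 : algebraMap A E₀ ϖ ≠ 0 := by
    intro h0
    exact hϖ.ne_zero (hinj (by rw [h0, map_zero]))
  have hBV : ∀ V : ValuationSubring E₀, IsVertical A E₀ ϖ y V →
      ∀ z ∈ chartClosure A E₀ y, z ∈ V := fun V hV z hz =>
    hV.2.2.1 z (Fermat.Agent.H89.klg_chartClosure_le_gaussClosure hϖ hy hz)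
  -- `Z ∈ 𝔪`
  have hZm : (⟨Z, hZ⟩ : chartClosure A E₀ y) ∈ 𝔪 := by
    obtain ⟨b, hb, hbG⟩ := hG
    have heq : b * ((⟨Z, hZ⟩ : chartClosure A E₀ y) ^ (q - 1) * (⟨Z, hZ⟩ + ⟨Y, hY⟩))
        = b * ⟨X, hX⟩ - algebraMap A (chartClosure A E₀ y) ϖ * ⟨(b : E₀) * G, hbG⟩ := by
      apply Subtype.ext
      push_cast
      linear_combination (b : E₀) * hrel
    have hmem : b * ((⟨Z, hZ⟩ : chartClosure A E₀ y) ^ (q - 1) * (⟨Z, hZ⟩ + ⟨Y, hY⟩)) ∈ 𝔪 := by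
      rw [heq]
      exact 𝔪.sub_mem (𝔪.mul_mem_left _ hXm) (𝔪.mul_mem_right _ hϖ𝔪)
    rcases (h𝔪.isPrime.mem_or_mem hmem) with h | h
    · exact absurd h hb
    · rcases (h𝔪.isPrime.mem_or_mem h) with h | h
      · exact h𝔪.isPrime.mem_of_pow_mem _ h
      · have h2 : (⟨Z, hZ⟩ : chartClosure A E₀ y) = (⟨Z, hZ⟩ + ⟨Y, hY⟩) - ⟨Y, hY⟩ := by
          ring
        rw [h2]
        exact 𝔪.sub_mem h hYm
  -- the unit `ψ - G Y` and the factorisation of `ϖ`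
  have hunit : IsLocUnit A E₀ y 𝔪 (ψ - G * Y) :=
    rs_isLocUnit_sub hψ (rs_inLocMax_mul_mem hG hY hYm)
  have hfact : algebraMap A E₀ ϖ * (ψ - G * Y) = Y * Z ^ (q - 1) * (Y + Z) := by
    have hX' : X = Z ^ (q - 1) * (Z + Y) + algebraMap A E₀ ϖ * G := by
      linear_combination -hrel
    have hnode' := hnode
    rw [hX'] at hnode'
    linear_combination -hnode'
  have hP0 : Y * Z ^ (q - 1) * (Y + Z) ≠ 0 := by
    rw [← hfact]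
    exact mul_ne_zero hϖ0 hunit.1
  have hY0 : Y ≠ 0 := fun h => hP0 (by rw [h]; ring)
  have hZ0 : Z ≠ 0 := by
    intro h
    apply hP0
    rw [h, zero_pow (by omega)]
    ring
  have hS0 : Y + Z ≠ 0 := fun h => hP0 (by rw [h]; ring)
  have hYZ : Y + Z ∈ chartClosure A E₀ y := add_mem hY hZ
  have hYZm : (⟨Y + Z, hYZ⟩ : chartClosure A E₀ y) ∈ 𝔪 := by
    have := 𝔪.add_mem hYm hZm
    exact this
  -- horizontal places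
  have hPinv : ∀ V' : ValuationSubring E₀, CentredAt A E₀ y 𝔪 V' →
      (Y * Z ^ (q - 1) * (Y + Z))⁻¹ ∈ V' := by
    intro V' hV'
    rw [← hfact, mul_inv]
    refine V'.mul_mem _ _ (hV'.1.1.2.2 ϖ hϖ.ne_zero).2 ?_
    exact rs_mem_of_inLoc (fun z hz => rs_centred_le hV' hz) hV'.2 hunit.2.2
  have hhorY : ∀ V' : ValuationSubring E₀, CentredAt A E₀ y 𝔪 V' → Y⁻¹ ∈ V' := by
    intro V' hV'
    have hB := fun z hz => rs_centred_le (z := z) hV' hz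
    have : Y⁻¹ = (Y * Z ^ (q - 1) * (Y + Z))⁻¹ * (Z ^ (q - 1) * (Y + Z)) := by
      field_simp
    rw [this]
    exact V'.mul_mem _ _ (hPinv V' hV')
      (V'.mul_mem _ _ (pow_mem (hB Z hZ) _) (hB _ hYZ))
  have hhorZ : ∀ V' : ValuationSubring E₀, CentredAt A E₀ y 𝔪 V' → Z⁻¹ ∈ V' := by
    intro V' hV'
    have hB := fun z hz => rs_centred_le (z := z) hV' hz
    have hq' : q - 1 = (q - 2) + 1 := by omega
    have : Z⁻¹ = (Y * Z ^ (q - 1) * (Y + Z))⁻¹ * (Y * Z ^ (q - 2) * (Y + Z)) := by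
      rw [hq', pow_succ]
      field_simp
    rw [this]
    exact V'.mul_mem _ _ (hPinv V' hV')
      (V'.mul_mem _ _ (V'.mul_mem _ _ (hB Y hY) (pow_mem (hB Z hZ) _)) (hB _ hYZ))
  have hhorS : ∀ V' : ValuationSubring E₀, CentredAt A E₀ y 𝔪 V' → (Y + Z)⁻¹ ∈ V' := by
    intro V' hV'
    have hB := fun z hz => rs_centred_le (z := z) hV' hz
    have : (Y + Z)⁻¹ = (Y * Z ^ (q - 1) * (Y + Z))⁻¹ * (Y * Z ^ (q - 1)) := by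
      field_simp
    rw [this]
    exact V'.mul_mem _ _ (hPinv V' hV')
      (V'.mul_mem _ _ (hB Y hY) (pow_mem (hB Z hZ) _))
  -- local principality
  have hp₁ : ∀ s : chartClosure A E₀ y, (s : E₀) ∈ V₁.nonunits →
      InLoc A E₀ y 𝔪 ((s : E₀) / Y) := fun s hs =>
    rs_prin A E₀ hH hinj ϖ hϖ y hy hfd 𝔪 h𝔪 hϖ𝔪 V₁ Y hu₁
      (fun z hz hzV => hgauss _ hzV
        (by rw [div_eq_mul_inv]; exact V₂.mul_mem _ _ (hBV V₂ hV₂ z hz) hY₂)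
        (by rw [div_eq_mul_inv]; exact V₃.mul_mem _ _ (hBV V₃ hV₃ z hz) hY₃))
      hhorY s hs
  have hp₂ : ∀ s : chartClosure A E₀ y, (s : E₀) ∈ V₂.nonunits →
      InLoc A E₀ y 𝔪 ((s : E₀) / Z) := fun s hs =>
    rs_prin A E₀ hH hinj ϖ hϖ y hy hfd 𝔪 h𝔪 hϖ𝔪 V₂ Z hu₂
      (fun z hz hzV => hgauss _
        (by rw [div_eq_mul_inv]; exact V₁.mul_mem _ _ (hBV V₁ hV₁ z hz) hZ₁)
        hzV
        (by rw [div_eq_mul_inv]; exact V₃.mul_mem _ _ (hBV V₃ hV₃ z hz) hZ₃))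
      hhorZ s hs
  have hp₃ : ∀ s : chartClosure A E₀ y, (s : E₀) ∈ V₃.nonunits →
      InLoc A E₀ y 𝔪 ((s : E₀) / (Y + Z)) := fun s hs =>
    rs_prin A E₀ hH hinj ϖ hϖ y hy hfd 𝔪 h𝔪 hϖ𝔪 V₃ (Y + Z) hu₃
      (fun z hz hzV => hgauss _
        (by rw [div_eq_mul_inv]; exact V₁.mul_mem _ _ (hBV V₁ hV₁ z hz) hS₁)
        (by rw [div_eq_mul_inv]; exact V₂.mul_mem _ _ (hBV V₂ hV₂ z hz) hS₂)
        hzV)
      hhorS s hs
  -- the branches pass through `𝔪`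
  have hthru : ∀ (V : ValuationSubring E₀) (x : E₀) (hx : x ∈ chartClosure A E₀ y),
      x ≠ 0 → (⟨x, hx⟩ : chartClosure A E₀ y) ∈ 𝔪 →
      (∀ s : chartClosure A E₀ y, (s : E₀) ∈ V.nonunits → InLoc A E₀ y 𝔪 ((s : E₀) / x)) →
      Through A E₀ y 𝔪 V := by
    intro V x hx hx0 hxm hp s hs
    have h1 := rs_inLocMax_mul_mem (hp s hs) hx hxm
    have e : (s : E₀) / x * x = (s : E₀) := by field_simp
    rw [e] at h1
    exact rg_mem_of_inLocMax h1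
  refine ⟨hZm, hp₁, hp₂, hp₃, hthru V₁ Y hY hY0 hYm hp₁, hthru V₂ Z hZ hZ0 hZm hp₂,
    hthru V₃ (Y + Z) hYZ hS0 hYZm hp₃, rg_isLocUnit_div hunit hψ, ?_⟩
  have hψ0 := hψ.1
  rw [mul_div_assoc', div_eq_iff hψ0]
  linear_combination (-ψ) * hrel + (-G) * hnode

/-- **SS2-C6, parts II and III.**  `𝓜` a set of maximal ideals of `B(y)` containing `ϖ`, `X`,
`Y`; `R'` a set of functions whose residues on `V₁` are `0` or `unit * X ^ k`; the residue of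
every function of a point of `𝓜` on `V₁` is a quotient of residues of `R'[Z]`.  Then every
point of `𝓜` is a regular triple point with parameters `(Y, Z)`, and `𝓜` has at most one
element. -/
theorem regss_points (hH : LocalHartogsStatement)
    (hinj : Function.Injective (algebraMap A E₀))
    (ϖ : A) (hϖ : Irreducible ϖ) (y : E₀) (hy : Transcendental A y)
    (hfd : ∃ n : ℕ, Nonempty (Module.Basis (Fin n) (chartField A E₀ y) E₀))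
    (𝓜 : Set (Ideal (chartClosure A E₀ y)))
    (h𝓜 : ∀ 𝔪 ∈ 𝓜, 𝔪.IsMaximal)
    (hϖ𝓜 : ∀ 𝔪 ∈ 𝓜, algebraMap A (chartClosure A E₀ y) ϖ ∈ 𝔪)
    (q : ℕ) (hq : 2 ≤ q)
    (V₁ V₂ V₃ : ValuationSubring E₀)
    (hV₁ : IsVertical A E₀ ϖ y V₁) (hV₂ : IsVertical A E₀ ϖ y V₂)
    (hV₃ : IsVertical A E₀ ϖ y V₃)
    (hgauss : ∀ z : E₀, z ∈ V₁ → z ∈ V₂ → z ∈ V₃ → z ∈ gaussClosure A E₀ ϖ y)
    (X Y Z G ψ : E₀)
    (hX : X ∈ chartClosure A E₀ y)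
    (hY : Y ∈ chartClosure A E₀ y) (hZ : Z ∈ chartClosure A E₀ y)
    (hXm : ∀ 𝔪 ∈ 𝓜, (⟨X, hX⟩ : chartClosure A E₀ y) ∈ 𝔪)
    (hYm : ∀ 𝔪 ∈ 𝓜, (⟨Y, hY⟩ : chartClosure A E₀ y) ∈ 𝔪)
    (hG : ∀ 𝔪 ∈ 𝓜, InLoc A E₀ y 𝔪 G) (hψ : ∀ 𝔪 ∈ 𝓜, IsLocUnit A E₀ y 𝔪 ψ)
    (hrel : Z ^ (q - 1) * (Z + Y) - X + algebraMap A E₀ ϖ * G = 0)
    (hnode : X * Y = algebraMap A E₀ ϖ * ψ)
    (hu₁ : IsUniformiser E₀ V₁ Y) (hu₂ : IsUniformiser E₀ V₂ Z)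
    (hu₃ : IsUniformiser E₀ V₃ (Y + Z))
    (hY₂ : Y⁻¹ ∈ V₂) (hY₃ : Y⁻¹ ∈ V₃) (hZ₁ : Z⁻¹ ∈ V₁) (hZ₃ : Z⁻¹ ∈ V₃)
    (hS₁ : (Y + Z)⁻¹ ∈ V₁) (hS₂ : (Y + Z)⁻¹ ∈ V₂)
    (R' : Set E₀)
    (hR' : ∀ r ∈ R', r ∈ V₁.nonunits ∨ ∃ (u : E₀) (k : ℕ),
      (∀ 𝔪 ∈ 𝓜, IsLocUnit A E₀ y 𝔪 u) ∧ r - u * X ^ k ∈ V₁.nonunits)
    (hres : ∀ 𝔪 ∈ 𝓜, ∀ s : chartClosure A E₀ y, s ∈ 𝔪 → (s : E₀) ∉ V₁.nonunits →
      ∃ r r' : ℕ → E₀, (∀ i < q, r i ∈ R') ∧ (∀ i < q, r' i ∈ R') ∧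
        (∑ i ∈ Finset.range q, r' i * Z ^ i) ∉ V₁.nonunits ∧
        (s : E₀) * (∑ i ∈ Finset.range q, r' i * Z ^ i)
          - ∑ i ∈ Finset.range q, r i * Z ^ i ∈ V₁.nonunits) :
    (∀ 𝔪 ∈ 𝓜, IsRegPoint A E₀ ϖ y 𝔪 V₁ Y Z ∧ IsRegPoint A E₀ ϖ y 𝔪 V₂ Z Y ∧
      IsRegPoint A E₀ ϖ y 𝔪 V₃ (Y + Z) Y) ∧
    (∀ 𝔪₁ ∈ 𝓜, ∀ 𝔪₂ ∈ 𝓜, 𝔪₁ = 𝔪₂) := by
  have hloc := fun (𝔪 : Ideal (chartClosure A E₀ y)) (h : 𝔪 ∈ 𝓜) =>
    rg_local A E₀ hH hinj ϖ hϖ y hy hfd 𝔪 (h𝓜 𝔪 h) (hϖ𝓜 𝔪 h) q hq V₁ V₂ V₃ hV₁ hV₂ hV₃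
      hgauss X Y Z G ψ hX hY hZ (hXm 𝔪 h) (hYm 𝔪 h) (hG 𝔪 h) (hψ 𝔪 h) hrel hnode hu₁ hu₂ hu₃
      hY₂ hY₃ hZ₁ hZ₃ hS₁ hS₂
  have hBV₁ : ∀ z ∈ chartClosure A E₀ y, z ∈ V₁ := fun z hz =>
    hV₁.2.2.1 z (Fermat.Agent.H89.klg_chartClosure_le_gaussClosure hϖ hy hz)
  have hY0 : Y ≠ 0 := hu₁.1
  have hZ0 : Z ≠ 0 := hu₂.1
  have hkey : ∀ 𝔪₁ ∈ 𝓜, ∀ 𝔪₂ ∈ 𝓜, ∀ s : chartClosure A E₀ y, s ∈ 𝔪₁ →
      ∃ c₁ c₂ : E₀, InLoc A E₀ y 𝔪₂ c₁ ∧ InLoc A E₀ y 𝔪₂ c₂ ∧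
        (s : E₀) = c₁ * Y + c₂ * Z := by
    intro 𝔪₁ h₁ 𝔪₂ h₂ s hs
    haveI := (h𝓜 𝔪₁ h₁).isPrime
    haveI := (h𝓜 𝔪₂ h₂).isPrime
    obtain ⟨-, hp₁, -, -, hT₁, -, -, -, hXw⟩ := hloc 𝔪₁ h₁
    obtain ⟨-, hp₂, -, -, -, -, -, -, -⟩ := hloc 𝔪₂ h₂
    by_cases hsV : (s : E₀) ∈ V₁.nonunits
    · refine ⟨(s : E₀) / Y, 0, hp₂ s hsV,
        rs_inLoc_of_mem (h𝓜 𝔪₂ h₂).ne_top (zero_mem _), ?_⟩
      field_simp
      ring
    · obtain ⟨r, r', hr, hr', hd'nu, hsd⟩ := hres 𝔪₁ h₁ s hs hsV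
      have hUV : ∀ u : E₀, (∀ 𝔪 ∈ 𝓜, IsLocUnit A E₀ y 𝔪 u) → u ∈ V₁ ∧ u⁻¹ ∈ V₁ :=
        fun u hu => ⟨rs_mem_of_inLoc hBV₁ hT₁ (hu 𝔪₁ h₁).2.1,
          rs_mem_of_inLoc hBV₁ hT₁ (hu 𝔪₁ h₁).2.2⟩
      have hUmul : ∀ u v : E₀, (∀ 𝔪 ∈ 𝓜, IsLocUnit A E₀ y 𝔪 u) →
          (∀ 𝔪 ∈ 𝓜, IsLocUnit A E₀ y 𝔪 v) → ∀ 𝔪 ∈ 𝓜, IsLocUnit A E₀ y 𝔪 (u * v) :=
        fun u v hu hv 𝔪 h => by
          haveI := (h𝓜 𝔪 h).isPrime
          exact rs_isLocUnit_mul (hu 𝔪 h) (hv 𝔪 h)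
      have hUinv : ∀ u : E₀, (∀ 𝔪 ∈ 𝓜, IsLocUnit A E₀ y 𝔪 u) →
          ∀ 𝔪 ∈ 𝓜, IsLocUnit A E₀ y 𝔪 u⁻¹ :=
        fun u hu 𝔪 h => rg_isLocUnit_inv (hu 𝔪 h)
      have hUadd : ∀ u v : E₀, (∀ 𝔪 ∈ 𝓜, IsLocUnit A E₀ y 𝔪 u) →
          (∀ 𝔪 ∈ 𝓜, IsLocUnit A E₀ y 𝔪 v) → ∀ n : ℕ,
          ∀ 𝔪 ∈ 𝓜, IsLocUnit A E₀ y 𝔪 (u + v * Z ^ (n + 1)) :=
        fun u v hu hv n 𝔪 h => by
          haveI := (h𝓜 𝔪 h).isPrime
          exact rg_isLocUnit_add (hu 𝔪 h)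
            (rg_inLocMax_mul_pow_succ (hv 𝔪 h).2.1 hZ (hloc 𝔪 h).1 n)
      have hw : ∀ 𝔪 ∈ 𝓜, IsLocUnit A E₀ y 𝔪 ((ψ - G * Y) / ψ) :=
        fun 𝔪 h => (hloc 𝔪 h).2.2.2.2.2.2.2.1
      have hE := fun (ρ : ℕ → E₀) (hρ : ∀ i < q, ρ i ∈ R') =>
        rg_eis V₁ q (by omega) X Y Z ((ψ - G * Y) / ψ)
          (fun u => ∀ 𝔪 ∈ 𝓜, IsLocUnit A E₀ y 𝔪 u) hUV hUmul hUinv hUadd hw (hw 𝔪₁ h₁).1
          hu₁.2.1 (hBV₁ Z hZ) hXw ρ (fun i hi => hR' _ (hρ i hi))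
      rcases hE r' hr' with hall | ⟨u', k, hu', hd'⟩
      · exact absurd (rg_sum_mem_nu V₁ Z (hBV₁ Z hZ) r' q hall) hd'nu
      rcases hE r hr with hall | ⟨u, j, hu, hd⟩
      · exfalso
        have hd0 := rg_sum_mem_nu V₁ Z (hBV₁ Z hZ) r q hall
        have h1 := V₁.nonunits.add_mem hsd hd0
        rw [sub_add_cancel] at h1
        exact rg_notMem_nu_mul hsV hd'nu h1
      · exact rg_max_step 𝔪₁ 𝔪₂ V₁ hBV₁ hT₁ Y Z hY0 hY hZ (hYm 𝔪₁ h₁) hZ0 hZ₁ hp₁ hp₂ s hs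
          _ _ u u' j k (hu 𝔪₁ h₁) (hu 𝔪₂ h₂) (hu' 𝔪₁ h₁) (hu' 𝔪₂ h₂) hd hd' hsd
  refine ⟨fun 𝔪 h => ?_, fun 𝔪₁ h₁ 𝔪₂ h₂ => ?_⟩
  · obtain ⟨hZm, -, -, -, hT₁, hT₂, hT₃, -, -⟩ := hloc 𝔪 h
    exact regss_core A E₀ hH hinj ϖ hϖ y hy hfd 𝔪 (h𝓜 𝔪 h) (hϖ𝓜 𝔪 h) q hq V₁ V₂ V₃
      hV₁ hV₂ hV₃ hT₁ hT₂ hT₃ hgauss X Y Z G ψ hY hZ (hYm 𝔪 h) hZm (hG 𝔪 h) (hψ 𝔪 h)
      hrel hnode hu₁ hu₂ hu₃ hY₂ hY₃ hZ₁ hZ₃ hS₁ hS₂ (hkey 𝔪 h 𝔪 h)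
  · haveI := (h𝓜 𝔪₂ h₂).isPrime
    refine (h𝓜 𝔪₁ h₁).eq_of_le (h𝓜 𝔪₂ h₂).ne_top fun s hs => ?_
    obtain ⟨c₁, c₂, hc₁, hc₂, hsc⟩ := hkey 𝔪₁ h₁ 𝔪₂ h₂ s hs
    have hM : InLocMax A E₀ y 𝔪₂ (c₁ * Y + c₂ * Z) :=
      rg_inLocMax_add (rs_inLocMax_mul_mem hc₁ hY (hYm 𝔪₂ h₂))
        (rs_inLocMax_mul_mem hc₂ hZ (hloc 𝔪₂ h₂).1)
    rw [← hsc] at hM
    exact rg_mem_of_inLocMax hM

end Main

end Fermat.Agent.H93.SS2
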