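/-
helper93 (P-SS2 / SS2-C6 REGSS, row 903), part IV: the bridges from the lower level.

* `rb_dvr` : at a regular point `𝔪 = (Y, X)` of a chart, with `Y` the local equation of the
  branch `V`, every `r ∈ B_𝔪` is `≡ 0` or `≡ u X ^ k` modulo `𝔪_V` with `u ∈ B_𝔪ˣ`
  (the local ring of the branch at the point is a discrete valuation ring with uniformiser `X`;
  Krull's intersection theorem in the noetherian domain `B / 𝔭_V`).
* `rb_frac` : every `a ≠ 0` of the field is `Y ^ n ρ / ρ'` with `ρ, ρ' ∈ B_𝔪` units of `V`.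
-/
import Fermat.Agent.H93.SS2.RegSSGen
import Fermat.Agent.H41.SS.TubeChart
import Fermat.Agent.H88.KL.ValBasic

set_option autoImplicit false
set_option linter.style.haveILetI false
set_option linter.unusedSectionVars false

noncomputable section

namespace Fermat.Agent.H93.SS2

open Fermat.Agent.H22.KL Fermat.Agent.H11.SS2 Fermat.Agent.H45

section Centre

variable (A : Type) [CommRing A] (E : Type) [Field E] [Algebra A E]

/-- The centre of `V` on `B(y)`. -/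
def rbCentre (y : E) (V : ValuationSubring E) (hB : ∀ z ∈ chartClosure A E y, z ∈ V) :
    Ideal (chartClosure A E y) where
  carrier := {s | (s : E) ∈ V.nonunits}
  add_mem' := fun ha hb => V.nonunits.add_mem ha hb
  zero_mem' := V.nonunits.zero_mem
  smul_mem' := fun c x hx => by
    show ((c : E) * (x : E)) ∈ V.nonunits
    exact rg_nu_mul_mem (hB _ c.2) hx

theorem rb_mem_centre {y : E} {V : ValuationSubring E}
    (hB : ∀ z ∈ chartClosure A E y, z ∈ V) (s : chartClosure A E y) :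
    s ∈ rbCentre A E y V hB ↔ (s : E) ∈ V.nonunits := Iff.rfl

theorem rb_centre_isPrime {y : E} {V : ValuationSubring E}
    (hB : ∀ z ∈ chartClosure A E y, z ∈ V) : (rbCentre A E y V hB).IsPrime := by
  refine ⟨fun h => ?_, fun {a b} hab => ?_⟩
  · have h1 : (1 : chartClosure A E y) ∈ rbCentre A E y V hB := by
      rw [h]
      exact Submodule.mem_top
    rw [rb_mem_centre] at h1
    have h2 : ((1 : chartClosure A E y) : E) = 1 := rfl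
    rw [h2, ValuationSubring.mem_nonunits_iff, map_one] at h1
    exact lt_irrefl _ h1
  · by_contra hcon
    push Not at hcon
    rw [rb_mem_centre] at hab
    exact rg_notMem_nu_mul hcon.1 hcon.2 (by simpa using hab)

/-- An element of `B ∖ 𝔪` is a unit of `B_𝔪`. -/
theorem rb_isLocUnit_of_notMem {y : E} {𝔪 : Ideal (chartClosure A E y)} (h𝔪 : 𝔪 ≠ ⊤)
    {b : chartClosure A E y} (hb : b ∉ 𝔪) : IsLocUnit A E y 𝔪 (b : E) := by
  have hb0 : (b : E) ≠ 0 := by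
    intro h0
    apply hb
    have : b = 0 := Subtype.ext h0
    rw [this]
    exact 𝔪.zero_mem
  refine ⟨hb0, rs_inLoc_of_mem h𝔪 b.2, b, hb, ?_⟩
  rw [mul_inv_cancel₀ hb0]
  exact one_mem _

/-- An element of `B_𝔪` is a unit or lies in `𝔪 B_𝔪`. -/
theorem rb_unit_or_max {y : E} {𝔪 : Ideal (chartClosure A E y)} [h𝔪 : 𝔪.IsPrime]
    {c : E} (hc : InLoc A E y 𝔪 c) : IsLocUnit A E y 𝔪 c ∨ InLocMax A E y 𝔪 c := by
  obtain ⟨b, hb, hbc⟩ := hc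
  by_cases ht : (⟨(b : E) * c, hbc⟩ : chartClosure A E y) ∈ 𝔪
  · exact Or.inr ⟨b, hb, ⟨(b : E) * c, hbc⟩, ht, rfl⟩
  · left
    have h1 := rb_isLocUnit_of_notMem A E h𝔪.ne_top ht
    have h2 := rb_isLocUnit_of_notMem A E h𝔪.ne_top hb
    have h3 := rg_isLocUnit_div h1 h2
    have hb0 := h2.1
    have e : ((⟨(b : E) * c, hbc⟩ : chartClosure A E y) : E) / (b : E) = c := by
      show (b : E) * c / (b : E) = c
      field_simp
    rwa [e] at h3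

/-- `Y` is a uniformiser of the discrete valuation `V.valuation`. -/
theorem rb_discAt {V : ValuationSubring E} {Y : E} (htop : V ≠ ⊤)
    (hpir : IsPrincipalIdealRing V) (hu : IsUniformiser E V Y) :
    Fermat.Agent.H88.KLB.DiscAt V.valuation Y := by
  obtain ⟨t, ht⟩ := Fermat.Agent.H88.KLB.exists_discAt
    (Fermat.Agent.H88.KLB.presents_valuation V) htop hpir
  exact ht.of_isUniformiser (Fermat.Agent.H88.KLB.presents_valuation V) hu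

end Centre

section Krull

variable (A : Type) [CommRing A] [IsDomain A] [IsDiscreteValuationRing A]
  (E : Type) [Field E] [Algebra A E] [CharZero E]

/-- Krull's intersection theorem on the branch. -/
theorem rb_krull (hinj : Function.Injective (algebraMap A E))
    (ϖ : A) (hϖ : Irreducible ϖ) (y : E) (hy : Transcendental A y)
    (hfd : ∃ n : ℕ, Nonempty (Module.Basis (Fin n) (chartField A E y) E))
    (𝔪 : Ideal (chartClosure A E y)) (h𝔪 : 𝔪.IsMaximal)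
    (V : ValuationSubring E) (hB : ∀ z ∈ chartClosure A E y, z ∈ V)
    (hT : Through A E y 𝔪 V) (s : chartClosure A E y) (hs : (s : E) ∉ V.nonunits) :
    ∃ k : ℕ, s ∉ 𝔪 ^ k ⊔ rbCentre A E y V hB := by
  haveI := Fermat.Agent.H41.SS.chartClosure_isNoetherianRing A E hinj ϖ hϖ y hy hfd
  haveI hP : (rbCentre A E y V hB).IsPrime := rb_centre_isPrime A E hB
  have hle : rbCentre A E y V hB ≤ 𝔪 := fun s hs => hT s hs
  have hne : 𝔪.map (Ideal.Quotient.mk (rbCentre A E y V hB)) ≠ ⊤ := by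
    intro h
    have h1 := Ideal.comap_map_of_surjective (Ideal.Quotient.mk (rbCentre A E y V hB))
      Ideal.Quotient.mk_surjective 𝔪
    rw [h, Ideal.comap_top, ← RingHom.ker_eq_comap_bot, Ideal.mk_ker] at h1
    have : 𝔪 ⊔ rbCentre A E y V hB = 𝔪 := sup_eq_left.mpr hle
    rw [this] at h1
    exact h𝔪.ne_top h1.symm
  have hK := Ideal.iInf_pow_eq_bot_of_isDomain
    (𝔪.map (Ideal.Quotient.mk (rbCentre A E y V hB))) hne
  have hs0 : Ideal.Quotient.mk (rbCentre A E y V hB) s ≠ 0 := by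
    rw [Ne, Ideal.Quotient.eq_zero_iff_mem]
    exact hs
  by_contra hcon
  push Not at hcon
  apply hs0
  have hmem : Ideal.Quotient.mk (rbCentre A E y V hB) s ∈
      ⨅ i : ℕ, (𝔪.map (Ideal.Quotient.mk (rbCentre A E y V hB))) ^ i := by
    rw [Ideal.mem_iInf]
    intro k
    have h1 := Ideal.mem_map_of_mem (Ideal.Quotient.mk (rbCentre A E y V hB)) (hcon k)
    rw [Ideal.map_sup, Ideal.map_pow, Ideal.map_quotient_self, sup_bot_eq] at h1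
    exact h1
  rw [hK] at hmem
  exact hmem

/-- The inductive step: modulo `𝔪_V`, an element of `B_𝔪` is `unit * X ^ k` or a multiple of
`X ^ j`. -/
theorem rb_step (ϖ : A) (hϖ : Irreducible ϖ) (y : E) (hy : Transcendental A y)
    (𝔪 : Ideal (chartClosure A E y)) (h𝔪 : 𝔪.IsMaximal)
    (V : ValuationSubring E) (Y X : E)
    (hreg : IsRegPoint A E ϖ y 𝔪 V Y X) (r : E) (j : ℕ) :
    InLoc A E y 𝔪 r →
    (∃ (u : E) (k : ℕ), IsLocUnit A E y 𝔪 u ∧ r - u * X ^ k ∈ V.nonunits) ∨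
    (∃ c : E, InLoc A E y 𝔪 c ∧ r - c * X ^ j ∈ V.nonunits) := by
  haveI : 𝔪.IsPrime := h𝔪.isPrime
  have hB : ∀ z ∈ chartClosure A E y, z ∈ V := fun z hz =>
    hreg.vert.2.2.1 z (Fermat.Agent.H89.klg_chartClosure_le_gaussClosure hϖ hy hz)
  intro hr
  induction j with
  | zero =>
    right
    refine ⟨r, hr, ?_⟩
    rw [pow_zero, mul_one, sub_self]
    exact V.nonunits.zero_mem
  | succ j ih =>
    rcases ih with h | ⟨c, hc, hrc⟩
    · exact Or.inl h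
    · rcases rb_unit_or_max A E hc with hu | hmax
      · exact Or.inl ⟨c, j, hu, hrc⟩
      · right
        obtain ⟨b, hb, a, ha, hba⟩ := hmax
        obtain ⟨c₁, c₂, hc₁, hc₂, hsum⟩ := hreg.gen a ha
        have hbu := rb_isLocUnit_of_notMem A E h𝔪.ne_top hb
        have hb0 := hbu.1
        refine ⟨(b : E)⁻¹ * c₂, rs_inLoc_mul hbu.2.2 hc₂, ?_⟩
        have hceq : c = (b : E)⁻¹ * (c₁ * Y + c₂ * X) := by
          rw [← hsum, ← hba]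
          field_simp
        have : r - (b : E)⁻¹ * c₂ * X ^ (j + 1)
            = (r - c * X ^ j) + ((b : E)⁻¹ * c₁ * X ^ j) * Y := by
          rw [hceq]
          ring
        rw [this]
        refine V.nonunits.add_mem hrc (rg_nu_mul_mem ?_ hreg.unif.2.1)
        exact rs_mem_of_inLoc hB hreg.thru
          (rs_inLoc_mul (rs_inLoc_mul hbu.2.2 hc₁)
            (rg_inLoc_pow (rs_inLoc_of_mem h𝔪.ne_top hreg.mem₂) j))

/-- **The local ring of the branch `V` at a regular point `𝔪 = (Y, X)` is a discrete valuation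
ring with uniformiser `X`**: every `r ∈ B_𝔪` is `≡ 0` or `≡ u X ^ k` modulo `𝔪_V`. -/
theorem rb_dvr (hinj : Function.Injective (algebraMap A E))
    (ϖ : A) (hϖ : Irreducible ϖ) (y : E) (hy : Transcendental A y)
    (hfd : ∃ n : ℕ, Nonempty (Module.Basis (Fin n) (chartField A E y) E))
    (𝔪 : Ideal (chartClosure A E y)) (h𝔪 : 𝔪.IsMaximal)
    (V : ValuationSubring E) (Y X : E)
    (hreg : IsRegPoint A E ϖ y 𝔪 V Y X) (r : E) (hr : InLoc A E y 𝔪 r) :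
    r ∈ V.nonunits ∨
      ∃ (u : E) (k : ℕ), IsLocUnit A E y 𝔪 u ∧ r - u * X ^ k ∈ V.nonunits := by
  haveI : 𝔪.IsPrime := h𝔪.isPrime
  have hB : ∀ z ∈ chartClosure A E y, z ∈ V := fun z hz =>
    hreg.vert.2.2.1 z (Fermat.Agent.H89.klg_chartClosure_le_gaussClosure hϖ hy hz)
  by_cases hrV : r ∈ V.nonunits
  · exact Or.inl hrV
  right
  obtain ⟨b, hb, hbr⟩ := hr
  have hbu := rb_isLocUnit_of_notMem A E h𝔪.ne_top hb
  have hbV : (b : E) ∉ V.nonunits := fun h => hb (hreg.thru b h)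
  have hsV : ((⟨(b : E) * r, hbr⟩ : chartClosure A E y) : E) ∉ V.nonunits :=
    rg_notMem_nu_mul hbV hrV
  obtain ⟨k, hk⟩ := rb_krull A E hinj ϖ hϖ y hy hfd 𝔪 h𝔪 V hB hreg.thru _ hsV
  rcases rb_step A E ϖ hϖ y hy 𝔪 h𝔪 V Y X hreg r k ⟨b, hb, hbr⟩ with h | ⟨c, hc, hrc⟩
  · exact h
  exfalso
  apply hk
  obtain ⟨b₂, hb₂, hb₂c⟩ := hc
  have hXm : (⟨X, hreg.mem₂⟩ : chartClosure A E y) ∈ 𝔪 := hreg.mem_max₂ hreg.mem₂
  -- `b₂ s - b t X ^ k ∈ P`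
  have hP : b₂ * ⟨(b : E) * r, hbr⟩ - b * (⟨(b₂ : E) * c, hb₂c⟩ * ⟨X, hreg.mem₂⟩ ^ k)
      ∈ rbCentre A E y V hB := by
    rw [rb_mem_centre]
    have : ((b₂ * ⟨(b : E) * r, hbr⟩ - b * (⟨(b₂ : E) * c, hb₂c⟩ * ⟨X, hreg.mem₂⟩ ^ k) :
        chartClosure A E y) : E) = ((b₂ : E) * (b : E)) * (r - c * X ^ k) := by
      push_cast
      ring
    rw [this]
    exact rg_nu_mul_mem (V.mul_mem _ _ (hB _ b₂.2) (hB _ b.2)) hrc
  have hJ : b₂ * ⟨(b : E) * r, hbr⟩ ∈ 𝔪 ^ k ⊔ rbCentre A E y V hB := by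
    have h1 : b * (⟨(b₂ : E) * c, hb₂c⟩ * ⟨X, hreg.mem₂⟩ ^ k) ∈ 𝔪 ^ k :=
      Ideal.mul_mem_left _ _ (Ideal.mul_mem_left _ _ (Ideal.pow_mem_pow hXm k))
    have h2 := Ideal.add_mem _ (Ideal.mem_sup_left h1) (Ideal.mem_sup_right hP)
    rwa [add_sub_cancel] at h2
  -- `J = 𝔪 ^ k + P` is `𝔪`-primary
  rcases Nat.eq_zero_or_pos k with hk0 | hkpos
  · rw [hk0, pow_zero, Ideal.one_eq_top, top_sup_eq]
    exact Submodule.mem_top
  have hle : rbCentre A E y V hB ≤ 𝔪 := fun s hs => hreg.thru s hs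
  have hrad : (𝔪 ^ k ⊔ rbCentre A E y V hB).radical = 𝔪 := by
    apply le_antisymm
    · calc (𝔪 ^ k ⊔ rbCentre A E y V hB).radical ≤ 𝔪.radical :=
          Ideal.radical_mono (sup_le (Ideal.pow_le_self hkpos.ne') hle)
        _ = 𝔪 := h𝔪.isPrime.radical
    · intro x hx
      exact ⟨k, Ideal.mem_sup_left (Ideal.pow_mem_pow hx k)⟩
  have hprim : (𝔪 ^ k ⊔ rbCentre A E y V hB).IsPrimary :=
    Ideal.isPrimary_of_isMaximal_radical (by rw [hrad]; exact h𝔪)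
  rw [mul_comm] at hJ
  rcases (Ideal.isPrimary_iff.mp hprim).2 hJ with h | h
  · exact h
  · rw [hrad] at h
    exact absurd h hb₂

/-- Division by the exact power of the local equation stays in `B_𝔪`. -/
theorem rb_div_pow (ϖ : A) (hϖ : Irreducible ϖ) (y : E) (hy : Transcendental A y)
    (𝔪 : Ideal (chartClosure A E y)) (h𝔪 : 𝔪.IsMaximal)
    (V : ValuationSubring E) (Y X : E)
    (hreg : IsRegPoint A E ϖ y 𝔪 V Y X) (m : ℕ) :
    ∀ t : E, InLoc A E y 𝔪 t → V.valuation t = V.valuation Y ^ m →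
      InLoc A E y 𝔪 (t / Y ^ m) := by
  haveI : 𝔪.IsPrime := h𝔪.isPrime
  have hB : ∀ z ∈ chartClosure A E y, z ∈ V := fun z hz =>
    hreg.vert.2.2.1 z (Fermat.Agent.H89.klg_chartClosure_le_gaussClosure hϖ hy hz)
  have hY0 : Y ≠ 0 := hreg.unif.1
  have hY1 : V.valuation Y < 1 := V.mem_nonunits_iff.mp hreg.unif.2.1
  have hYpos : 0 < V.valuation Y := zero_lt_iff.mpr ((Valuation.ne_zero_iff _).mpr hY0)
  induction m with
  | zero =>
    intro t ht _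
    rwa [pow_zero, div_one]
  | succ m ih =>
    intro t ht hval
    have htV : t ∈ V.nonunits := by
      rw [ValuationSubring.mem_nonunits_iff, hval]
      exact pow_lt_one₀ hYpos.le hY1 (Nat.succ_ne_zero m)
    have h1 := rg_prin_loc hB Y hreg.prin ht htV
    have h2 : V.valuation (t / Y) = V.valuation Y ^ m := by
      rw [map_div₀, hval, pow_succ]
      field_simp
    have h3 := ih (t / Y) h1 h2
    have e : t / Y / Y ^ m = t / Y ^ (m + 1) := by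
      rw [pow_succ]
      field_simp
    rwa [e] at h3

/-- Every nonzero function is `Y ^ n ρ / ρ'` with `ρ, ρ' ∈ B_𝔪` units of `V`. -/
theorem rb_frac (ϖ : A) (hϖ : Irreducible ϖ) (y : E) (hy : Transcendental A y)
    (hfd : ∃ n : ℕ, Nonempty (Module.Basis (Fin n) (chartField A E y) E))
    (𝔪 : Ideal (chartClosure A E y)) (h𝔪 : 𝔪.IsMaximal)
    (V : ValuationSubring E) (Y X : E)
    (hreg : IsRegPoint A E ϖ y 𝔪 V Y X) (a : E) (ha : a ≠ 0) :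
    ∃ (n : ℤ) (ρ ρ' : E), InLoc A E y 𝔪 ρ ∧ InLoc A E y 𝔪 ρ' ∧ ρ ∉ V.nonunits ∧
      ρ' ∉ V.nonunits ∧ a * ρ' = Y ^ n * ρ := by
  haveI : 𝔪.IsPrime := h𝔪.isPrime
  have hB : ∀ z ∈ chartClosure A E y, z ∈ V := fun z hz =>
    hreg.vert.2.2.1 z (Fermat.Agent.H89.klg_chartClosure_le_gaussClosure hϖ hy hz)
  have hD := rb_discAt E hreg.vert.1 hreg.vert.2.1 hreg.unif
  have hY0 : Y ≠ 0 := hreg.unif.1
  have hYpos : 0 < V.valuation Y := hD.pos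
  -- elements of `B`
  have key : ∀ s : chartClosure A E y, (s : E) ≠ 0 →
      ∃ (m : ℕ) (ρ : E), InLoc A E y 𝔪 ρ ∧ ρ ∉ V.nonunits ∧ (s : E) = Y ^ m * ρ := by
    intro s hs
    obtain ⟨k, hk⟩ := hD.2.2 (s : E) hs
    have hk0 : 0 ≤ k := by
      rw [← hD.zpow_le_one_iff, ← hk, ValuationSubring.valuation_le_one_iff]
      exact hB _ s.2
    obtain ⟨m, rfl⟩ := Int.eq_ofNat_of_zero_le hk0
    rw [zpow_natCast] at hk
    refine ⟨m, (s : E) / Y ^ m,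
      rb_div_pow A E ϖ hϖ y hy 𝔪 h𝔪 V Y X hreg m _ (rs_inLoc_of_mem h𝔪.ne_top s.2) hk, ?_, ?_⟩
    · rw [ValuationSubring.mem_nonunits_iff, map_div₀, hk, map_pow,
        div_self (pow_ne_zero _ hYpos.ne')]
      exact lt_irrefl _
    · field_simp
  haveI := Fermat.Agent.H41.SS.chartClosure_isFractionRing A E y hy hfd
  obtain ⟨s, s', hs', hdiv⟩ := IsFractionRing.div_surjective (A := chartClosure A E y) a
  have hs'0 : (s' : E) ≠ 0 := by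
    intro h0
    have : s' = 0 := Subtype.ext h0
    exact nonZeroDivisors.ne_zero hs' this
  have hdiv' : (s : E) / (s' : E) = a := hdiv
  have hs0 : (s : E) ≠ 0 := by
    intro h0
    rw [h0, zero_div] at hdiv'
    exact ha hdiv'.symm
  obtain ⟨m, ρ, hρ, hρV, hsρ⟩ := key s hs0
  obtain ⟨m', ρ', hρ', hρ'V, hsρ'⟩ := key s' hs'0
  refine ⟨(m : ℤ) - (m' : ℤ), ρ, ρ', hρ, hρ', hρV, hρ'V, ?_⟩
  have hρ'0 : ρ' ≠ 0 := fun h => hρ'V (h ▸ V.nonunits.zero_mem)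
  rw [← hdiv', hsρ, hsρ', zpow_sub₀ hY0, zpow_natCast, zpow_natCast]
  field_simp

end Krull

section Res

variable {E₀ : Type} [Field E₀] (V : ValuationSubring E₀)

theorem rb_val_one {x : E₀} (hx : x ∈ V) (hx' : x ∉ V.nonunits) : V.valuation x = 1 := by
  apply le_antisymm ((V.valuation_le_one_iff x).mpr hx)
  rw [V.mem_nonunits_iff, not_lt] at hx'
  exact hx'

theorem rb_notMem_of_val_one {x : E₀} (hx : V.valuation x = 1) : x ∉ V.nonunits := by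
  rw [V.mem_nonunits_iff, hx]
  exact lt_irrefl _

theorem rb_mem_of_val_one {x : E₀} (hx : V.valuation x = 1) : x ∈ V := by
  rw [← V.valuation_le_one_iff, hx]

/-- **The residue field of `V` is generated by the residues of `R'[Z]`**, from
`E₀ = ∑_{i < q} F' Z ^ i` where every nonzero element of `F'` is `Y ^ n ρ / ρ'` with
`ρ, ρ' ∈ R'` units of `V`. -/
theorem rb_res (q : ℕ) (hq : 1 ≤ q) (X Y Z w : E₀) (U : E₀ → Prop)
    (hUV : ∀ u, U u → u ∈ V ∧ u⁻¹ ∈ V)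
    (hUmul : ∀ u v, U u → U v → U (u * v))
    (hUinv : ∀ u, U u → U u⁻¹)
    (hUadd : ∀ u v, U u → U v → ∀ n : ℕ, U (u + v * Z ^ (n + 1)))
    (hU0 : ∀ u, U u → u ≠ 0)
    (hw : U w) (hY : Y ∈ V.nonunits) (hY0 : Y ≠ 0) (hZ : Z ∈ V) (hZinv : Z⁻¹ ∈ V)
    (hZ0 : Z ≠ 0)
    (hrel : X * w = Z ^ (q - 1) * (Z + Y))
    (R' : Subring E₀) (hYR : Y ∈ R') (hR'V : ∀ r ∈ R', r ∈ V)
    (hR' : ∀ r ∈ R', r ∈ V.nonunits ∨
      ∃ (u : E₀) (k : ℕ), U u ∧ r - u * X ^ k ∈ V.nonunits)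
    (a : ℕ → E₀)
    (ha : ∀ i < q, a i ≠ 0 → ∃ (n : ℤ) (ρ ρ' : E₀), ρ ∈ R' ∧ ρ' ∈ R' ∧ ρ ∉ V.nonunits ∧
      ρ' ∉ V.nonunits ∧ a i * ρ' = Y ^ n * ρ)
    (s : E₀) (hs : s ∈ V) (hsV : s ∉ V.nonunits)
    (hsum : s = ∑ i ∈ Finset.range q, a i * Z ^ i) :
    ∃ r r' : ℕ → E₀, (∀ i < q, r i ∈ R') ∧ (∀ i < q, r' i ∈ R') ∧
      (∑ i ∈ Finset.range q, r' i * Z ^ i) ∉ V.nonunits ∧
      s * (∑ i ∈ Finset.range q, r' i * Z ^ i)
        - ∑ i ∈ Finset.range q, r i * Z ^ i ∈ V.nonunits := by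
  classical
  have hdata : ∀ i : ℕ, ∃ (n : ℤ) (ρ ρ' : E₀), ρ ∈ R' ∧ ρ' ∈ R' ∧ ρ' ∉ V.nonunits ∧
      (i < q → a i * ρ' = Y ^ n * ρ) ∧ (i < q → a i ≠ 0 → ρ ∉ V.nonunits) ∧
      (i < q → a i = 0 → ρ = 0) := by
    intro i
    by_cases hi : i < q ∧ a i ≠ 0
    · obtain ⟨n, ρ, ρ', h1, h2, h3, h4, h5⟩ := ha i hi.1 hi.2
      exact ⟨n, ρ, ρ', h1, h2, h4, fun _ => h5, fun _ _ => h3, fun _ h0 => absurd h0 hi.2⟩
    · refine ⟨0, 0, 1, R'.zero_mem, R'.one_mem, ?_, fun hiq => ?_, fun hiq h0 => ?_,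
        fun _ _ => rfl⟩
      · exact rb_notMem_of_val_one V (map_one _)
      · have : a i = 0 := by
          by_contra h0
          exact hi ⟨hiq, h0⟩
        rw [this]
        simp
      · exact absurd ⟨hiq, h0⟩ hi
  choose n ρ ρ' hρ hρ' hρ'V heq hρV hρ0 using hdata
  have hs0 : s ≠ 0 := fun h => hsV (h ▸ V.nonunits.zero_mem)
  -- the index set
  have hI : ((Finset.range q).filter fun i => a i ≠ 0).Nonempty := by
    by_contra hcon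
    rw [Finset.not_nonempty_iff_eq_empty] at hcon
    apply hs0
    rw [hsum]
    refine Finset.sum_eq_zero fun i hi => ?_
    have : a i = 0 := by
      by_contra h0
      have : i ∈ (Finset.range q).filter fun i => a i ≠ 0 :=
        Finset.mem_filter.mpr ⟨hi, h0⟩
      rw [hcon] at this
      simp at this
    rw [this, zero_mul]
  obtain ⟨i₀, hi₀, hmin⟩ := Finset.exists_min_image _ n hI
  obtain ⟨hi₀q, hai₀⟩ := Finset.mem_filter.mp hi₀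
  rw [Finset.mem_range] at hi₀q
  -- the common denominator
  have hvalρ' : ∀ i, V.valuation (ρ' i) = 1 := fun i =>
    rb_val_one V (hR'V _ (hρ' i)) (hρ'V i)
  have hvalprod : ∀ T : Finset ℕ, V.valuation (∏ j ∈ T, ρ' j) = 1 := by
    intro T
    rw [map_prod]
    exact Finset.prod_eq_one fun j _ => hvalρ' j
  have hprodR : ∀ T : Finset ℕ, (∏ j ∈ T, ρ' j) ∈ R' := fun T =>
    R'.prod_mem fun j _ => hρ' j
  have hsplit : ∀ i < q, (∏ j ∈ Finset.range q, ρ' j)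
      = ρ' i * ∏ j ∈ (Finset.range q).erase i, ρ' j := fun i hi =>
    (Finset.mul_prod_erase _ _ (Finset.mem_range.mpr hi)).symm
  -- the numerators
  have hrR : ∀ i, Y ^ ((n i - n i₀).toNat) * ρ i * ∏ j ∈ (Finset.range q).erase i, ρ' j ∈ R' :=
    fun i => R'.mul_mem (R'.mul_mem (R'.pow_mem hYR _) (hρ i)) (hprodR _)
  have hscale : ∀ i < q, a i * (∏ j ∈ Finset.range q, ρ' j)
      = Y ^ (n i₀) * (Y ^ ((n i - n i₀).toNat) * ρ i
        * ∏ j ∈ (Finset.range q).erase i, ρ' j) := by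
    intro i hi
    by_cases h0 : a i = 0
    · rw [h0, hρ0 i hi h0]
      simp
    · have hmem : i ∈ (Finset.range q).filter fun i => a i ≠ 0 :=
        Finset.mem_filter.mpr ⟨Finset.mem_range.mpr hi, h0⟩
      have hle : n i₀ ≤ n i := hmin i hmem
      have hpow : Y ^ (n i₀) * Y ^ ((n i - n i₀).toNat) = Y ^ (n i) := by
        rw [← zpow_natCast, Int.toNat_of_nonneg (by omega), ← zpow_add₀ hY0]
        congr 1
        omega
      rw [hsplit i hi, ← mul_assoc, heq i hi, ← hpow]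
      ring
  have hsP : s * (∏ j ∈ Finset.range q, ρ' j)
      = Y ^ (n i₀) * ∑ i ∈ Finset.range q,
        (Y ^ ((n i - n i₀).toNat) * ρ i * ∏ j ∈ (Finset.range q).erase i, ρ' j) * Z ^ i := by
    rw [hsum, Finset.sum_mul, Finset.mul_sum]
    refine Finset.sum_congr rfl fun i hi => ?_
    have := hscale i (Finset.mem_range.mp hi)
    calc a i * Z ^ i * ∏ j ∈ Finset.range q, ρ' j
        = (a i * ∏ j ∈ Finset.range q, ρ' j) * Z ^ i := by ring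
      _ = _ := by rw [this]; ring
  -- Eisenstein
  have hE := rg_eis V q hq X Y Z w U hUV hUmul hUinv hUadd hw (hU0 w hw) hY hZ hrel
    (fun i => Y ^ ((n i - n i₀).toNat) * ρ i * ∏ j ∈ (Finset.range q).erase i, ρ' j)
    (fun i _ => hR' _ (hrR i))
  have hvalZ : V.valuation Z = 1 := by
    apply le_antisymm ((V.valuation_le_one_iff Z).mpr hZ)
    have h1 := (V.valuation_le_one_iff Z⁻¹).mpr hZinv
    rw [map_inv₀] at h1
    have hpos : 0 < V.valuation Z := zero_lt_iff.mpr ((Valuation.ne_zero_iff _).mpr hZ0)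
    exact (inv_le_one₀ hpos).mp h1
  rcases hE with hall | ⟨u, k, hu, hd⟩
  · exfalso
    have h1 := hall i₀ hi₀q
    simp only [sub_self, Int.toNat_zero, pow_zero, one_mul] at h1
    have h2 : V.valuation (ρ i₀ * ∏ j ∈ (Finset.range q).erase i₀, ρ' j) = 1 := by
      rw [map_mul, hvalprod, mul_one]
      exact rb_val_one V (hR'V _ (hρ i₀)) (hρV i₀ hi₀q hai₀)
    exact rb_notMem_of_val_one V h2 h1
  · have hvalu : V.valuation u = 1 := by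
      have h1 := hUV u hu
      apply le_antisymm ((V.valuation_le_one_iff u).mpr h1.1)
      have h2 := (V.valuation_le_one_iff u⁻¹).mpr h1.2
      rw [map_inv₀] at h2
      have hpos : 0 < V.valuation u :=
        zero_lt_iff.mpr ((Valuation.ne_zero_iff _).mpr (hU0 u hu))
      exact (inv_le_one₀ hpos).mp h2
    have hvaluZ : V.valuation (u * Z ^ k) = 1 := by
      rw [map_mul, map_pow, hvalu, hvalZ, one_pow, one_mul]
    set d := ∑ i ∈ Finset.range q,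
      (Y ^ ((n i - n i₀).toNat) * ρ i * ∏ j ∈ (Finset.range q).erase i, ρ' j) * Z ^ i with hd_def
    have hvald : V.valuation d = 1 := by
      have h1 : V.valuation (d - u * Z ^ k) < 1 := (V.mem_nonunits_iff).mp hd
      have h2 : d = (d - u * Z ^ k) + u * Z ^ k := by ring
      rw [h2]
      rw [Valuation.map_add_eq_of_lt_right _ (by rw [hvaluZ]; exact h1)]
      exact hvaluZ
    have hvals : V.valuation s = 1 := rb_val_one V hs hsV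
    have hn0 : n i₀ = 0 := by
      have h1 := congrArg V.valuation hsP
      rw [map_mul, map_mul, hvals, hvalprod, hvald, mul_one, mul_one, map_zpow₀] at h1
      have hYpos : 0 < V.valuation Y := zero_lt_iff.mpr ((Valuation.ne_zero_iff _).mpr hY0)
      have hY1 : V.valuation Y < 1 := (V.mem_nonunits_iff).mp hY
      exact (zpow_eq_one_iff_right₀ hYpos.le hY1.ne).mp h1.symm
    rw [hn0, zpow_zero, one_mul] at hsP
    refine ⟨fun i => Y ^ ((n i - n i₀).toNat) * ρ i * ∏ j ∈ (Finset.range q).erase i, ρ' j,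
      fun i => if i = 0 then ∏ j ∈ Finset.range q, ρ' j else 0,
      fun i _ => hrR i, fun i _ => ?_, ?_, ?_⟩
    · show (if i = 0 then ∏ j ∈ Finset.range q, ρ' j else 0) ∈ R'
      by_cases h0 : i = 0
      · rw [if_pos h0]
        exact hprodR _
      · rw [if_neg h0]
        exact R'.zero_mem
    · have hsingle : (∑ i ∈ Finset.range q,
          (if i = 0 then ∏ j ∈ Finset.range q, ρ' j else 0) * Z ^ i)
          = ∏ j ∈ Finset.range q, ρ' j := by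
        rw [Finset.sum_eq_single 0]
        · simp
        · intro i _ hi
          rw [if_neg hi, zero_mul]
        · intro h
          exact absurd (Finset.mem_range.mpr (by omega)) h
      rw [hsingle]
      exact rb_notMem_of_val_one V (hvalprod _)
    · have hsingle : (∑ i ∈ Finset.range q,
          (if i = 0 then ∏ j ∈ Finset.range q, ρ' j else 0) * Z ^ i)
          = ∏ j ∈ Finset.range q, ρ' j := by
        rw [Finset.sum_eq_single 0]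
        · simp
        · intro i _ hi
          rw [if_neg hi, zero_mul]
        · intro h
          exact absurd (Finset.mem_range.mpr (by omega)) h
      rw [hsingle, hsP, sub_self]
      exact V.nonunits.zero_mem

end Res

section Lower

variable (A : Type) [CommRing A] (E' : Type) [Field E'] [Algebra A E']
  (E₀ : Type) [Field E₀] [Algebra A E₀]

/-- The local ring `B_𝔪` as a subring of the function field. -/
def rbLoc (y : E') (𝔪 : Ideal (chartClosure A E' y)) [h𝔪 : 𝔪.IsPrime] : Subring E' where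
  carrier := {z | InLoc A E' y 𝔪 z}
  mul_mem' := fun ha hb => rs_inLoc_mul ha hb
  one_mem' := rs_inLoc_of_mem h𝔪.ne_top (one_mem _)
  add_mem' := fun ha hb => rs_inLoc_add ha hb
  zero_mem' := rs_inLoc_of_mem h𝔪.ne_top (zero_mem _)
  neg_mem' := fun ha => rs_inLoc_neg ha

/-- The restriction of `α` to the chart closures. -/
def rbRes {y' : E'} {y : E₀} (α : E' →+* E₀)
    (hαB : ∀ z ∈ chartClosure A E' y', α z ∈ chartClosure A E₀ y) :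
    chartClosure A E' y' →+* chartClosure A E₀ y where
  toFun s := ⟨α s, hαB s s.2⟩
  map_one' := Subtype.ext (map_one α)
  map_mul' _ _ := Subtype.ext (map_mul α _ _)
  map_zero' := Subtype.ext (map_zero α)
  map_add' _ _ := Subtype.ext (map_add α _ _)

variable {A E' E₀}

/-- A maximal ideal above `𝔪'` contracts to `𝔪'`. -/
theorem rb_notMem_above {y' : E'} {y : E₀} (α : E' →+* E₀)
    (hαB : ∀ z ∈ chartClosure A E' y', α z ∈ chartClosure A E₀ y)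
    {𝔪' : Ideal (chartClosure A E' y')} (h𝔪' : 𝔪'.IsMaximal)
    {𝔪 : Ideal (chartClosure A E₀ y)} (h𝔪 : 𝔪.IsPrime)
    (habove : ∀ s : chartClosure A E' y', s ∈ 𝔪' →
      (⟨α s, hαB s s.2⟩ : chartClosure A E₀ y) ∈ 𝔪)
    {s : chartClosure A E' y'} (hs : s ∉ 𝔪') :
    (⟨α s, hαB s s.2⟩ : chartClosure A E₀ y) ∉ 𝔪 := by
  intro hmem
  apply hs
  have hle : 𝔪' ≤ 𝔪.comap (rbRes A E' E₀ α hαB) := fun t ht => habove t ht
  have hne : 𝔪.comap (rbRes A E' E₀ α hαB) ≠ ⊤ := by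
    haveI := h𝔪
    exact (Ideal.IsPrime.comap (rbRes A E' E₀ α hαB)).ne_top
  rw [h𝔪'.eq_of_le hne hle]
  exact hmem

theorem rb_inLoc_above {y' : E'} {y : E₀} (α : E' →+* E₀)
    (hαB : ∀ z ∈ chartClosure A E' y', α z ∈ chartClosure A E₀ y)
    {𝔪' : Ideal (chartClosure A E' y')} (h𝔪' : 𝔪'.IsMaximal)
    {𝔪 : Ideal (chartClosure A E₀ y)} (h𝔪 : 𝔪.IsPrime)
    (habove : ∀ s : chartClosure A E' y', s ∈ 𝔪' →
      (⟨α s, hαB s s.2⟩ : chartClosure A E₀ y) ∈ 𝔪)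
    {z : E'} (hz : InLoc A E' y' 𝔪' z) : InLoc A E₀ y 𝔪 (α z) := by
  obtain ⟨b, hb, hbz⟩ := hz
  refine ⟨⟨α b, hαB b b.2⟩, rb_notMem_above α hαB h𝔪' h𝔪 habove hb, ?_⟩
  show α (b : E') * α z ∈ chartClosure A E₀ y
  rw [← map_mul]
  exact hαB _ hbz

theorem rb_isLocUnit_above {y' : E'} {y : E₀} (α : E' →+* E₀)
    (hαB : ∀ z ∈ chartClosure A E' y', α z ∈ chartClosure A E₀ y)
    {𝔪' : Ideal (chartClosure A E' y')} (h𝔪' : 𝔪'.IsMaximal)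
    {𝔪 : Ideal (chartClosure A E₀ y)} (h𝔪 : 𝔪.IsPrime)
    (habove : ∀ s : chartClosure A E' y', s ∈ 𝔪' →
      (⟨α s, hαB s s.2⟩ : chartClosure A E₀ y) ∈ 𝔪)
    {z : E'} (hz : IsLocUnit A E' y' 𝔪' z) : IsLocUnit A E₀ y 𝔪 (α z) := by
  refine ⟨(map_ne_zero α).mpr hz.1, rb_inLoc_above α hαB h𝔪' h𝔪 habove hz.2.1, ?_⟩
  rw [← map_inv₀]
  exact rb_inLoc_above α hαB h𝔪' h𝔪 habove hz.2.2

end Lower

section Final

variable (A : Type) [CommRing A] [IsDomain A] [IsDiscreteValuationRing A]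
  (E' : Type) [Field E'] [Algebra A E'] [CharZero E']
  (E₀ : Type) [Field E₀] [Algebra A E₀] [CharZero E₀]

/-- **SS2-C6 REGSS from the lower level.**  Lower level: a node `𝔪' = (Y', X')` of the chart
`y'` of `E'`, regular, with `Y'` the local equation of the branch `V'` and `X' Y' = ϖ ψ'`.
Upper level: `α : E' → E₀` with `α(B') ⊆ B`, three vertical valuations `V₁, V₂, V₃` with
`C = V₁ ∩ V₂ ∩ V₃`, `V₁` above `V'` unramified (`α Y'` a uniformiser), the Kronecker relation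
`Z ^ (q - 1) (Z + α Y') - α X' + ϖ G = 0`, the value table of `α Y'`, `Z`, `α Y' + Z`, and
`E₀ = ∑_{i < q} α(E') Z ^ i`.  Then every maximal ideal of `B` above `𝔪'` is a regular triple
point with parameters `(α Y', Z)`, and there is at most one such maximal ideal. -/
theorem regss_of_lower (hH : LocalHartogsStatement)
    (ϖ : A) (hϖ : Irreducible ϖ)
    (hinj' : Function.Injective (algebraMap A E'))
    (y' : E') (hy' : Transcendental A y')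
    (hfd' : ∃ n : ℕ, Nonempty (Module.Basis (Fin n) (chartField A E' y') E'))
    (𝔪' : Ideal (chartClosure A E' y')) (h𝔪' : 𝔪'.IsMaximal)
    (hϖ𝔪' : algebraMap A (chartClosure A E' y') ϖ ∈ 𝔪')
    (V' : ValuationSubring E') (X' Y' ψ' : E')
    (hreg' : IsRegPoint A E' ϖ y' 𝔪' V' Y' X')
    (hψ' : IsLocUnit A E' y' 𝔪' ψ')
    (hnode' : X' * Y' = algebraMap A E' ϖ * ψ')
    (hinj : Function.Injective (algebraMap A E₀))
    (y : E₀) (hy : Transcendental A y)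
    (hfd : ∃ n : ℕ, Nonempty (Module.Basis (Fin n) (chartField A E₀ y) E₀))
    (α : E' →+* E₀) (hαA : ∀ a : A, α (algebraMap A E' a) = algebraMap A E₀ a)
    (hαB : ∀ z ∈ chartClosure A E' y', α z ∈ chartClosure A E₀ y)
    (q : ℕ) (hq : 2 ≤ q)
    (V₁ V₂ V₃ : ValuationSubring E₀)
    (hV₁ : IsVertical A E₀ ϖ y V₁) (hV₂ : IsVertical A E₀ ϖ y V₂)
    (hV₃ : IsVertical A E₀ ϖ y V₃)
    (hgauss : ∀ z : E₀, z ∈ V₁ → z ∈ V₂ → z ∈ V₃ → z ∈ gaussClosure A E₀ ϖ y)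
    (hαV : ∀ z : E', α z ∈ V₁.nonunits ↔ z ∈ V'.nonunits)
    (Z G : E₀) (hZ : Z ∈ chartClosure A E₀ y) (hG : G ∈ chartClosure A E₀ y)
    (hrel : Z ^ (q - 1) * (Z + α Y') - α X' + algebraMap A E₀ ϖ * G = 0)
    (hu₁ : IsUniformiser E₀ V₁ (α Y')) (hu₂ : IsUniformiser E₀ V₂ Z)
    (hu₃ : IsUniformiser E₀ V₃ (α Y' + Z))
    (hY₂ : (α Y')⁻¹ ∈ V₂) (hY₃ : (α Y')⁻¹ ∈ V₃) (hZ₁ : Z⁻¹ ∈ V₁) (hZ₃ : Z⁻¹ ∈ V₃)
    (hS₁ : (α Y' + Z)⁻¹ ∈ V₁) (hS₂ : (α Y' + Z)⁻¹ ∈ V₂)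
    (hspan : ∀ s : E₀, ∃ a : ℕ → E', s = ∑ i ∈ Finset.range q, α (a i) * Z ^ i) :
    (∀ 𝔪 : Ideal (chartClosure A E₀ y), 𝔪.IsMaximal →
      (∀ s : chartClosure A E' y', s ∈ 𝔪' →
        (⟨α s, hαB s s.2⟩ : chartClosure A E₀ y) ∈ 𝔪) →
      IsRegPoint A E₀ ϖ y 𝔪 V₁ (α Y') Z ∧ IsRegPoint A E₀ ϖ y 𝔪 V₂ Z (α Y') ∧
        IsRegPoint A E₀ ϖ y 𝔪 V₃ (α Y' + Z) (α Y')) ∧
    (∀ 𝔪₁ 𝔪₂ : Ideal (chartClosure A E₀ y), 𝔪₁.IsMaximal → 𝔪₂.IsMaximal →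
      (∀ s : chartClosure A E' y', s ∈ 𝔪' →
        (⟨α s, hαB s s.2⟩ : chartClosure A E₀ y) ∈ 𝔪₁) →
      (∀ s : chartClosure A E' y', s ∈ 𝔪' →
        (⟨α s, hαB s s.2⟩ : chartClosure A E₀ y) ∈ 𝔪₂) → 𝔪₁ = 𝔪₂) := by
  haveI hp' : 𝔪'.IsPrime := h𝔪'.isPrime
  -- the set of points above `𝔪'`
  set 𝓜 : Set (Ideal (chartClosure A E₀ y)) := {𝔪 | 𝔪.IsMaximal ∧
    ∀ s : chartClosure A E' y', s ∈ 𝔪' →
      (⟨α s, hαB s s.2⟩ : chartClosure A E₀ y) ∈ 𝔪} with h𝓜def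
  have h𝓜 : ∀ 𝔪 ∈ 𝓜, 𝔪.IsMaximal := fun 𝔪 h => h.1
  have hBV' : ∀ z ∈ chartClosure A E' y', z ∈ V' := fun z hz =>
    hreg'.vert.2.2.1 z (Fermat.Agent.H89.klg_chartClosure_le_gaussClosure hϖ hy' hz)
  have hBV₁ : ∀ z ∈ chartClosure A E₀ y, z ∈ V₁ := fun z hz =>
    hV₁.2.2.1 z (Fermat.Agent.H89.klg_chartClosure_le_gaussClosure hϖ hy hz)
  have hϖ𝓜 : ∀ 𝔪 ∈ 𝓜, algebraMap A (chartClosure A E₀ y) ϖ ∈ 𝔪 := by
    intro 𝔪 h
    have h1 := h.2 _ hϖ𝔪'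
    have e : (⟨α ((algebraMap A (chartClosure A E' y') ϖ : chartClosure A E' y') : E'),
        hαB _ (algebraMap A (chartClosure A E' y') ϖ).2⟩ : chartClosure A E₀ y)
        = algebraMap A (chartClosure A E₀ y) ϖ := Subtype.ext (hαA ϖ)
    rwa [e] at h1
  have hX : α X' ∈ chartClosure A E₀ y := hαB X' hreg'.mem₂
  have hY : α Y' ∈ chartClosure A E₀ y := hαB Y' hreg'.mem₁
  have hXm : ∀ 𝔪 ∈ 𝓜, (⟨α X', hX⟩ : chartClosure A E₀ y) ∈ 𝔪 := fun 𝔪 h =>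
    h.2 ⟨X', hreg'.mem₂⟩ (hreg'.mem_max₂ hreg'.mem₂)
  have hYm : ∀ 𝔪 ∈ 𝓜, (⟨α Y', hY⟩ : chartClosure A E₀ y) ∈ 𝔪 := fun 𝔪 h =>
    h.2 ⟨Y', hreg'.mem₁⟩ (hreg'.thru ⟨Y', hreg'.mem₁⟩ hreg'.unif.2.1)
  have hGl : ∀ 𝔪 ∈ 𝓜, InLoc A E₀ y 𝔪 G := fun 𝔪 h => rs_inLoc_of_mem h.1.ne_top hG
  have hloc : ∀ 𝔪 ∈ 𝓜, ∀ z : E', InLoc A E' y' 𝔪' z → InLoc A E₀ y 𝔪 (α z) :=
    fun 𝔪 h z hz => rb_inLoc_above α hαB h𝔪' h.1.isPrime h.2 hz
  have hunitT : ∀ 𝔪 ∈ 𝓜, ∀ z : E', IsLocUnit A E' y' 𝔪' z → IsLocUnit A E₀ y 𝔪 (α z) :=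
    fun 𝔪 h z hz => rb_isLocUnit_above α hαB h𝔪' h.1.isPrime h.2 hz
  have hψ : ∀ 𝔪 ∈ 𝓜, IsLocUnit A E₀ y 𝔪 (α ψ') := fun 𝔪 h => hunitT 𝔪 h ψ' hψ'
  have hnode : α X' * α Y' = algebraMap A E₀ ϖ * α ψ' := by
    rw [← map_mul, hnode', map_mul, hαA]
  have hlocal := fun (𝔪 : Ideal (chartClosure A E₀ y)) (h : 𝔪 ∈ 𝓜) =>
    rg_local A E₀ hH hinj ϖ hϖ y hy hfd 𝔪 (h𝓜 𝔪 h) (hϖ𝓜 𝔪 h) q hq V₁ V₂ V₃ hV₁ hV₂ hV₃
      hgauss (α X') (α Y') Z G (α ψ') hX hY hZ (hXm 𝔪 h) (hYm 𝔪 h) (hGl 𝔪 h) (hψ 𝔪 h)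
      hrel hnode hu₁ hu₂ hu₃ hY₂ hY₃ hZ₁ hZ₃ hS₁ hS₂
  -- the image of the lower local ring
  have hR' : ∀ r ∈ ((rbLoc A E' y' 𝔪').map α : Set E₀), r ∈ V₁.nonunits ∨
      ∃ (u : E₀) (k : ℕ), (∀ 𝔪 ∈ 𝓜, IsLocUnit A E₀ y 𝔪 u) ∧
        r - u * (α X') ^ k ∈ V₁.nonunits := by
    rintro r ⟨z, hz, rfl⟩
    rcases rb_dvr A E' hinj' ϖ hϖ y' hy' hfd' 𝔪' h𝔪' V' Y' X' hreg' z hz with h | ⟨u, k, hu, h⟩
    · exact Or.inl ((hαV z).mpr h)
    · refine Or.inr ⟨α u, k, fun 𝔪 h𝔪 => hunitT 𝔪 h𝔪 u hu, ?_⟩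
      have := (hαV _).mpr h
      rwa [map_sub, map_mul, map_pow] at this
  have hres : ∀ 𝔪 ∈ 𝓜, ∀ s : chartClosure A E₀ y, s ∈ 𝔪 → (s : E₀) ∉ V₁.nonunits →
      ∃ r r' : ℕ → E₀, (∀ i < q, r i ∈ ((rbLoc A E' y' 𝔪').map α : Set E₀)) ∧
        (∀ i < q, r' i ∈ ((rbLoc A E' y' 𝔪').map α : Set E₀)) ∧
        (∑ i ∈ Finset.range q, r' i * Z ^ i) ∉ V₁.nonunits ∧
        (s : E₀) * (∑ i ∈ Finset.range q, r' i * Z ^ i)
          - ∑ i ∈ Finset.range q, r i * Z ^ i ∈ V₁.nonunits := by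
    intro 𝔪₁ h₁ s _ hsV
    obtain ⟨-, -, -, -, hT₁, -, -, -, hXw⟩ := hlocal 𝔪₁ h₁
    have hUV : ∀ u : E₀, (∀ 𝔪 ∈ 𝓜, IsLocUnit A E₀ y 𝔪 u) → u ∈ V₁ ∧ u⁻¹ ∈ V₁ :=
      fun u hu => ⟨rs_mem_of_inLoc hBV₁ hT₁ (hu 𝔪₁ h₁).2.1,
        rs_mem_of_inLoc hBV₁ hT₁ (hu 𝔪₁ h₁).2.2⟩
    have hUmul : ∀ u v : E₀, (∀ 𝔪 ∈ 𝓜, IsLocUnit A E₀ y 𝔪 u) →
        (∀ 𝔪 ∈ 𝓜, IsLocUnit A E₀ y 𝔪 v) → ∀ 𝔪 ∈ 𝓜, IsLocUnit A E₀ y 𝔪 (u * v) :=
      fun u v hu hv 𝔪 h => by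
        haveI := (h𝓜 𝔪 h).isPrime
        exact rs_isLocUnit_mul (hu 𝔪 h) (hv 𝔪 h)
    have hUinv : ∀ u : E₀, (∀ 𝔪 ∈ 𝓜, IsLocUnit A E₀ y 𝔪 u) →
        ∀ 𝔪 ∈ 𝓜, IsLocUnit A E₀ y 𝔪 u⁻¹ :=
      fun u hu 𝔪 h => rg_isLocUnit_inv (hu 𝔪 h)
    have hUadd : ∀ u v : E₀, (∀ 𝔪 ∈ 𝓜, IsLocUnit A E₀ y 𝔪 u) →
        (∀ 𝔪 ∈ 𝓜, IsLocUnit A E₀ y 𝔪 v) → ∀ n : ℕ,
        ∀ 𝔪 ∈ 𝓜, IsLocUnit A E₀ y 𝔪 (u + v * Z ^ (n + 1)) :=
      fun u v hu hv n 𝔪 h => by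
        haveI := (h𝓜 𝔪 h).isPrime
        exact rg_isLocUnit_add (hu 𝔪 h)
          (rg_inLocMax_mul_pow_succ (hv 𝔪 h).2.1 hZ (hlocal 𝔪 h).1 n)
    have hU0 : ∀ u : E₀, (∀ 𝔪 ∈ 𝓜, IsLocUnit A E₀ y 𝔪 u) → u ≠ 0 :=
      fun u hu => (hu 𝔪₁ h₁).1
    have hw : ∀ 𝔪 ∈ 𝓜, IsLocUnit A E₀ y 𝔪 ((α ψ' - G * α Y') / α ψ') :=
      fun 𝔪 h => (hlocal 𝔪 h).2.2.2.2.2.2.2.1
    obtain ⟨a, ha⟩ := hspan (s : E₀)
    have hR'V : ∀ r ∈ (rbLoc A E' y' 𝔪').map α, r ∈ V₁ := by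
      rintro r ⟨z, hz, rfl⟩
      exact rs_mem_of_inLoc hBV₁ hT₁ (hloc 𝔪₁ h₁ z hz)
    have hYR : α Y' ∈ (rbLoc A E' y' 𝔪').map α :=
      ⟨Y', rs_inLoc_of_mem h𝔪'.ne_top hreg'.mem₁, rfl⟩
    refine rb_res V₁ q (by omega) (α X') (α Y') Z ((α ψ' - G * α Y') / α ψ')
      (fun u => ∀ 𝔪 ∈ 𝓜, IsLocUnit A E₀ y 𝔪 u) hUV hUmul hUinv hUadd hU0 hw hu₁.2.1 hu₁.1
      (hBV₁ Z hZ) hZ₁ hu₂.1 hXw ((rbLoc A E' y' 𝔪').map α) hYR hR'V
      (fun r hr => hR' r hr) (fun i => α (a i)) (fun i _ hai => ?_) (s : E₀) (hBV₁ _ s.2) hsV ha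
    have hai' : a i ≠ 0 := fun h0 => hai (by rw [h0, map_zero])
    obtain ⟨n, ρ, ρ', hρ, hρ', hρV, hρ'V, heq⟩ :=
      rb_frac A E' ϖ hϖ y' hy' hfd' 𝔪' h𝔪' V' Y' X' hreg' (a i) hai'
    refine ⟨n, α ρ, α ρ', ⟨ρ, hρ, rfl⟩, ⟨ρ', hρ', rfl⟩, fun h => hρV ((hαV ρ).mp h),
      fun h => hρ'V ((hαV ρ').mp h), ?_⟩
    rw [← map_mul, heq, map_mul, map_zpow₀]
  have hmain := regss_points A E₀ hH hinj ϖ hϖ y hy hfd 𝓜 h𝓜 hϖ𝓜 q hq V₁ V₂ V₃ hV₁ hV₂ hV₃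
    hgauss (α X') (α Y') Z G (α ψ') hX hY hZ hXm hYm hGl hψ hrel hnode hu₁ hu₂ hu₃
    hY₂ hY₃ hZ₁ hZ₃ hS₁ hS₂ ((rbLoc A E' y' 𝔪').map α : Set E₀) hR' hres
  exact ⟨fun 𝔪 h𝔪 hab => hmain.1 𝔪 ⟨h𝔪, hab⟩,
    fun 𝔪₁ 𝔪₂ h₁ h₂ hab₁ hab₂ => hmain.2 𝔪₁ ⟨h₁, hab₁⟩ 𝔪₂ ⟨h₂, hab₂⟩⟩

end Final

end Fermat.Agent.H93.SS2
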