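/-
helper93 (P-SS2 / SS2-C6 REGSS, row 903), part V: REGSS from the keystone interface
`Fermat.Agent.H11.SS2.Val3Data`.

* `regss_of_insep` : the theorem `regss_of_lower` with the spanning hypothesis replaced by the
  generation of the residue field of `V₁` by the residues of `1, Z, …, Z ^ (q - 1)` over the
  lower valuation ring (clause 2 of `InsepAlong`), and with `G` only locally integral.
* `regss_val3_alpha`, `regss_val3_beta` : the two applications to `Val3Data`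
  (`V₁ = V₀₂` over `O₂` along `α`; `V₁ = V₂₀` over `O₁` along `β` with `Z` replaced by `-Z`).
-/
import Fermat.Agent.H93.SS2.RegSSBridge
import Fermat.Agent.H11.SS2.Val3Defs

set_option autoImplicit false
set_option linter.style.haveILetI false
set_option linter.unusedSectionVars false

noncomputable section

namespace Fermat.Agent.H93.SS2

open Fermat.Agent.H22.KL Fermat.Agent.H11.SS2 Fermat.Agent.H45

section Comap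

variable {F E : Type} [Field F] [Field E]

theorem rv_nonunits_comap {α : F →+* E} {V : ValuationSubring E} {O : ValuationSubring F}
    (h : V.comap α = O) (z : F) : α z ∈ V.nonunits ↔ z ∈ O.nonunits := by
  rw [ValuationSubring.mem_nonunits_iff_or, ValuationSubring.mem_nonunits_iff_or, ← h,
    ValuationSubring.mem_comap, map_inv₀, map_eq_zero]

end Comap

section FracInt

variable (A : Type) [CommRing A] [IsDomain A] [IsDiscreteValuationRing A]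
  (E : Type) [Field E] [Algebra A E] [CharZero E]

/-- Every element of the valuation ring of a branch through a regular point is a quotient
`ν / ρ'` of elements of `B_𝔪` with `ρ'` a unit of `V`. -/
theorem rv_frac_int (ϖ : A) (hϖ : Irreducible ϖ) (y : E) (hy : Transcendental A y)
    (hfd : ∃ n : ℕ, Nonempty (Module.Basis (Fin n) (chartField A E y) E))
    (𝔪 : Ideal (chartClosure A E y)) (h𝔪 : 𝔪.IsMaximal)
    (V : ValuationSubring E) (Y X : E)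
    (hreg : IsRegPoint A E ϖ y 𝔪 V Y X) (a : E) (ha : a ∈ V) :
    ∃ ρ' ν : E, InLoc A E y 𝔪 ρ' ∧ ρ' ∉ V.nonunits ∧ InLoc A E y 𝔪 ν ∧ a * ρ' = ν := by
  haveI : 𝔪.IsPrime := h𝔪.isPrime
  have hB : ∀ z ∈ chartClosure A E y, z ∈ V := fun z hz =>
    hreg.vert.2.2.1 z (Fermat.Agent.H89.klg_chartClosure_le_gaussClosure hϖ hy hz)
  by_cases ha0 : a = 0
  · refine ⟨1, 0, rs_inLoc_of_mem h𝔪.ne_top (one_mem _), rb_notMem_of_val_one V (map_one _),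
      rs_inLoc_of_mem h𝔪.ne_top (zero_mem _), ?_⟩
    rw [ha0, zero_mul]
  obtain ⟨n, ρ, ρ', hρ, hρ', hρV, hρ'V, heq⟩ :=
    rb_frac A E ϖ hϖ y hy hfd 𝔪 h𝔪 V Y X hreg a ha0
  have hD := rb_discAt E hreg.vert.1 hreg.vert.2.1 hreg.unif
  have hvρ : V.valuation ρ = 1 := rb_val_one V (rs_mem_of_inLoc hB hreg.thru hρ) hρV
  have hvρ' : V.valuation ρ' = 1 := rb_val_one V (rs_mem_of_inLoc hB hreg.thru hρ') hρ'V
  have hn : 0 ≤ n := by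
    rw [← hD.zpow_le_one_iff, ← map_zpow₀]
    have h1 := congrArg V.valuation heq
    rw [map_mul, map_mul, hvρ, hvρ', mul_one, mul_one] at h1
    rw [← h1]
    exact (V.valuation_le_one_iff a).mpr ha
  obtain ⟨m, rfl⟩ := Int.eq_ofNat_of_zero_le hn
  refine ⟨ρ', Y ^ m * ρ, hρ', hρ'V,
    rs_inLoc_mul (rg_inLoc_pow (rs_inLoc_of_mem h𝔪.ne_top hreg.mem₁) m) hρ, ?_⟩
  rw [heq, zpow_natCast]

end FracInt

section Insep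

variable (A : Type) [CommRing A] [IsDomain A] [IsDiscreteValuationRing A]
  (E' : Type) [Field E'] [Algebra A E'] [CharZero E']
  (E₀ : Type) [Field E₀] [Algebra A E₀] [CharZero E₀]

/-- **SS2-C6 REGSS from the lower level, residue form.**  As `regss_of_lower`, with the
hypothesis `E₀ = ∑ α(E') Z ^ i` replaced by: the residue of every `w ∈ V₁` is
`∑_{j < q} c_j Z ^ j` with `c_j` in the lower valuation ring `V'` (clause 2 of `InsepAlong`);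
`G` is only required to be locally integral at the points above `𝔪'`. -/
theorem regss_of_insep (hH : LocalHartogsStatement)
    (ϖ : A) (hϖ : Irreducible ϖ)
    (hinj' : Function.Injective (algebraMap A E'))
    (y' : E') (hy' : Transcendental A y')
    (hfd' : ∃ n : ℕ, Nonempty (Module.Basis (Fin n) (chartField A E' y') E'))
    (𝔪' : Ideal (chartClosure A E' y')) (h𝔪' : 𝔪'.IsMaximal)
    (hϖ𝔪' : algebraMap A (chartClosure A E' y') ϖ ∈ 𝔪')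
    (V' : ValuationSubring E') (X' Y' ψ' : E')
    (hreg' : IsRegPoint A E' ϖ y' 𝔪' V' Y' X')
    (hψ' : IsLocUnit A E' y' 𝔪' ψ')
    (hnode' : X' * Y' = algebraMap A E' ϖ * ψ')
    (hinj : Function.Injective (algebraMap A E₀))
    (y : E₀) (hy : Transcendental A y)
    (hfd : ∃ n : ℕ, Nonempty (Module.Basis (Fin n) (chartField A E₀ y) E₀))
    (α : E' →+* E₀) (hαA : ∀ a : A, α (algebraMap A E' a) = algebraMap A E₀ a)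
    (hαB : ∀ z ∈ chartClosure A E' y', α z ∈ chartClosure A E₀ y)
    (q : ℕ) (hq : 2 ≤ q)
    (V₁ V₂ V₃ : ValuationSubring E₀)
    (hV₁ : IsVertical A E₀ ϖ y V₁) (hV₂ : IsVertical A E₀ ϖ y V₂)
    (hV₃ : IsVertical A E₀ ϖ y V₃)
    (hgauss : ∀ z : E₀, z ∈ V₁ → z ∈ V₂ → z ∈ V₃ → z ∈ gaussClosure A E₀ ϖ y)
    (hαV : ∀ z : E', α z ∈ V₁.nonunits ↔ z ∈ V'.nonunits)
    (Z G : E₀) (hZ : Z ∈ chartClosure A E₀ y)
    (hG : ∀ 𝔪 : Ideal (chartClosure A E₀ y), 𝔪.IsMaximal →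
      (∀ s : chartClosure A E' y', s ∈ 𝔪' →
        (⟨α s, hαB s s.2⟩ : chartClosure A E₀ y) ∈ 𝔪) → InLoc A E₀ y 𝔪 G)
    (hrel : Z ^ (q - 1) * (Z + α Y') - α X' + algebraMap A E₀ ϖ * G = 0)
    (hu₁ : IsUniformiser E₀ V₁ (α Y')) (hu₂ : IsUniformiser E₀ V₂ Z)
    (hu₃ : IsUniformiser E₀ V₃ (α Y' + Z))
    (hY₂ : (α Y')⁻¹ ∈ V₂) (hY₃ : (α Y')⁻¹ ∈ V₃) (hZ₁ : Z⁻¹ ∈ V₁) (hZ₃ : Z⁻¹ ∈ V₃)
    (hS₁ : (α Y' + Z)⁻¹ ∈ V₁) (hS₂ : (α Y' + Z)⁻¹ ∈ V₂)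
    (hins : ∀ w ∈ V₁, ∃ c : Fin q → E', (∀ j, c j ∈ V') ∧
      w - ∑ j, α (c j) * Z ^ (j : ℕ) ∈ V₁.nonunits) :
    (∀ 𝔪 : Ideal (chartClosure A E₀ y), 𝔪.IsMaximal →
      (∀ s : chartClosure A E' y', s ∈ 𝔪' →
        (⟨α s, hαB s s.2⟩ : chartClosure A E₀ y) ∈ 𝔪) →
      IsRegPoint A E₀ ϖ y 𝔪 V₁ (α Y') Z ∧ IsRegPoint A E₀ ϖ y 𝔪 V₂ Z (α Y') ∧
        IsRegPoint A E₀ ϖ y 𝔪 V₃ (α Y' + Z) (α Y')) ∧
    (∀ 𝔪₁ 𝔪₂ : Ideal (chartClosure A E₀ y), 𝔪₁.IsMaximal → 𝔪₂.IsMaximal →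
      (∀ s : chartClosure A E' y', s ∈ 𝔪' →
        (⟨α s, hαB s s.2⟩ : chartClosure A E₀ y) ∈ 𝔪₁) →
      (∀ s : chartClosure A E' y', s ∈ 𝔪' →
        (⟨α s, hαB s s.2⟩ : chartClosure A E₀ y) ∈ 𝔪₂) → 𝔪₁ = 𝔪₂) := by
  classical
  haveI hp' : 𝔪'.IsPrime := h𝔪'.isPrime
  set 𝓜 : Set (Ideal (chartClosure A E₀ y)) := {𝔪 | 𝔪.IsMaximal ∧
    ∀ s : chartClosure A E' y', s ∈ 𝔪' →
      (⟨α s, hαB s s.2⟩ : chartClosure A E₀ y) ∈ 𝔪} with h𝓜def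
  have h𝓜 : ∀ 𝔪 ∈ 𝓜, 𝔪.IsMaximal := fun 𝔪 h => h.1
  have hBV' : ∀ z ∈ chartClosure A E' y', z ∈ V' := fun z hz =>
    hreg'.vert.2.2.1 z (Fermat.Agent.H89.klg_chartClosure_le_gaussClosure hϖ hy' hz)
  have hBV₁ : ∀ z ∈ chartClosure A E₀ y, z ∈ V₁ := fun z hz =>
    hV₁.2.2.1 z (Fermat.Agent.H89.klg_chartClosure_le_gaussClosure hϖ hy hz)
  have hϖ𝓜 : ∀ 𝔪 ∈ 𝓜, algebraMap A (chartClosure A E₀ y) ϖ ∈ 𝔪 := by
    intro 𝔪 h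
    have h1 := h.2 _ hϖ𝔪'
    have e : (⟨α ((algebraMap A (chartClosure A E' y') ϖ : chartClosure A E' y') : E'),
        hαB _ (algebraMap A (chartClosure A E' y') ϖ).2⟩ : chartClosure A E₀ y)
        = algebraMap A (chartClosure A E₀ y) ϖ := Subtype.ext (hαA ϖ)
    rwa [e] at h1
  have hX : α X' ∈ chartClosure A E₀ y := hαB X' hreg'.mem₂
  have hY : α Y' ∈ chartClosure A E₀ y := hαB Y' hreg'.mem₁
  have hXm : ∀ 𝔪 ∈ 𝓜, (⟨α X', hX⟩ : chartClosure A E₀ y) ∈ 𝔪 := fun 𝔪 h =>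
    h.2 ⟨X', hreg'.mem₂⟩ (hreg'.mem_max₂ hreg'.mem₂)
  have hYm : ∀ 𝔪 ∈ 𝓜, (⟨α Y', hY⟩ : chartClosure A E₀ y) ∈ 𝔪 := fun 𝔪 h =>
    h.2 ⟨Y', hreg'.mem₁⟩ (hreg'.thru ⟨Y', hreg'.mem₁⟩ hreg'.unif.2.1)
  have hGl : ∀ 𝔪 ∈ 𝓜, InLoc A E₀ y 𝔪 G := fun 𝔪 h => hG 𝔪 h.1 h.2
  have hloc : ∀ 𝔪 ∈ 𝓜, ∀ z : E', InLoc A E' y' 𝔪' z → InLoc A E₀ y 𝔪 (α z) :=
    fun 𝔪 h z hz => rb_inLoc_above α hαB h𝔪' h.1.isPrime h.2 hz
  have hunitT : ∀ 𝔪 ∈ 𝓜, ∀ z : E', IsLocUnit A E' y' 𝔪' z → IsLocUnit A E₀ y 𝔪 (α z) :=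
    fun 𝔪 h z hz => rb_isLocUnit_above α hαB h𝔪' h.1.isPrime h.2 hz
  have hψ : ∀ 𝔪 ∈ 𝓜, IsLocUnit A E₀ y 𝔪 (α ψ') := fun 𝔪 h => hunitT 𝔪 h ψ' hψ'
  have hnode : α X' * α Y' = algebraMap A E₀ ϖ * α ψ' := by
    rw [← map_mul, hnode', map_mul, hαA]
  have hR' : ∀ r ∈ ((rbLoc A E' y' 𝔪').map α : Set E₀), r ∈ V₁.nonunits ∨
      ∃ (u : E₀) (k : ℕ), (∀ 𝔪 ∈ 𝓜, IsLocUnit A E₀ y 𝔪 u) ∧
        r - u * (α X') ^ k ∈ V₁.nonunits := by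
    rintro r ⟨z, hz, rfl⟩
    rcases rb_dvr A E' hinj' ϖ hϖ y' hy' hfd' 𝔪' h𝔪' V' Y' X' hreg' z hz with h | ⟨u, k, hu, h⟩
    · exact Or.inl ((hαV z).mpr h)
    · refine Or.inr ⟨α u, k, fun 𝔪 h𝔪 => hunitT 𝔪 h𝔪 u hu, ?_⟩
      have := (hαV _).mpr h
      rwa [map_sub, map_mul, map_pow] at this
  have hres : ∀ 𝔪 ∈ 𝓜, ∀ s : chartClosure A E₀ y, s ∈ 𝔪 → (s : E₀) ∉ V₁.nonunits →
      ∃ r r' : ℕ → E₀, (∀ i < q, r i ∈ ((rbLoc A E' y' 𝔪').map α : Set E₀)) ∧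
        (∀ i < q, r' i ∈ ((rbLoc A E' y' 𝔪').map α : Set E₀)) ∧
        (∑ i ∈ Finset.range q, r' i * Z ^ i) ∉ V₁.nonunits ∧
        (s : E₀) * (∑ i ∈ Finset.range q, r' i * Z ^ i)
          - ∑ i ∈ Finset.range q, r i * Z ^ i ∈ V₁.nonunits := by
    intro 𝔪₁ h₁ s _ _
    obtain ⟨c, hcV, hc⟩ := hins (s : E₀) (hBV₁ _ s.2)
    have hdata : ∀ j : Fin q, ∃ ρ' ν : E', InLoc A E' y' 𝔪' ρ' ∧ ρ' ∉ V'.nonunits ∧
        InLoc A E' y' 𝔪' ν ∧ c j * ρ' = ν := fun j =>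
      rv_frac_int A E' ϖ hϖ y' hy' hfd' 𝔪' h𝔪' V' Y' X' hreg' (c j) (hcV j)
    choose ρ' ν hρ' hρ'V hν hcν using hdata
    have hvalρ' : ∀ j, V'.valuation (ρ' j) = 1 := fun j =>
      rb_val_one V' (rs_mem_of_inLoc hBV' hreg'.thru (hρ' j)) (hρ'V j)
    have hprodL : ∀ T : Finset (Fin q), InLoc A E' y' 𝔪' (∏ j ∈ T, ρ' j) := fun T =>
      (rbLoc A E' y' 𝔪').prod_mem fun j _ => hρ' j
    have hvalP : V'.valuation (∏ j, ρ' j) = 1 := by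
      rw [map_prod]
      exact Finset.prod_eq_one fun j _ => hvalρ' j
    have hPV : α (∏ j, ρ' j) ∉ V₁.nonunits := fun h =>
      rb_notMem_of_val_one V' hvalP ((hαV _).mp h)
    have hPV₁ : α (∏ j, ρ' j) ∈ V₁ :=
      rs_mem_of_inLoc hBV₁
        (rg_local A E₀ hH hinj ϖ hϖ y hy hfd 𝔪₁ (h𝓜 𝔪₁ h₁) (hϖ𝓜 𝔪₁ h₁) q hq V₁ V₂ V₃
          hV₁ hV₂ hV₃ hgauss (α X') (α Y') Z G (α ψ') hX hY hZ (hXm 𝔪₁ h₁) (hYm 𝔪₁ h₁)
          (hGl 𝔪₁ h₁) (hψ 𝔪₁ h₁) hrel hnode hu₁ hu₂ hu₃ hY₂ hY₃ hZ₁ hZ₃ hS₁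
          hS₂).2.2.2.2.1
        (hloc 𝔪₁ h₁ _ (hprodL _))
    have hq0 : 0 < q := by omega
    have hsingle : (∑ i ∈ Finset.range q,
        (if i = 0 then α (∏ j, ρ' j) else 0) * Z ^ i) = α (∏ j, ρ' j) := by
      rw [Finset.sum_eq_single 0]
      · simp
      · intro i _ hi
        rw [if_neg hi, zero_mul]
      · intro h
        exact absurd (Finset.mem_range.mpr hq0) h
    have hsumr : (∑ i ∈ Finset.range q,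
        (if h : i < q then α (ν ⟨i, h⟩ * ∏ j ∈ Finset.univ.erase ⟨i, h⟩, ρ' j) else 0) * Z ^ i)
        = α (∏ j, ρ' j) * ∑ j, α (c j) * Z ^ (j : ℕ) := by
      rw [Finset.sum_range, Finset.mul_sum]
      refine Finset.sum_congr rfl fun j _ => ?_
      rw [dif_pos j.2]
      have e1 : (⟨(j : ℕ), j.2⟩ : Fin q) = j := Fin.eta j j.2
      rw [e1, ← hcν j, ← Finset.mul_prod_erase Finset.univ ρ' (Finset.mem_univ j)]
      rw [map_mul, map_mul, map_mul]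
      ring
    refine ⟨fun i => if h : i < q then
        α (ν ⟨i, h⟩ * ∏ j ∈ Finset.univ.erase ⟨i, h⟩, ρ' j) else 0,
      fun i => if i = 0 then α (∏ j, ρ' j) else 0, fun i hi => ?_, fun i _ => ?_, ?_, ?_⟩
    · show (if h : i < q then
        α (ν ⟨i, h⟩ * ∏ j ∈ Finset.univ.erase ⟨i, h⟩, ρ' j) else 0) ∈ _
      rw [dif_pos hi]
      exact ⟨_, rs_inLoc_mul (hν _) (hprodL _), rfl⟩
    · show (if i = 0 then α (∏ j, ρ' j) else 0) ∈ _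
      by_cases h0 : i = 0
      · rw [if_pos h0]
        exact ⟨_, hprodL _, rfl⟩
      · rw [if_neg h0]
        exact ((rbLoc A E' y' 𝔪').map α).zero_mem
    · rw [hsingle]
      exact hPV
    · rw [hsingle, hsumr]
      have : (s : E₀) * α (∏ j, ρ' j) - α (∏ j, ρ' j) * ∑ j, α (c j) * Z ^ (j : ℕ)
          = α (∏ j, ρ' j) * ((s : E₀) - ∑ j, α (c j) * Z ^ (j : ℕ)) := by ring
      rw [this]
      exact rg_nu_mul_mem hPV₁ hc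
  have hmain := regss_points A E₀ hH hinj ϖ hϖ y hy hfd 𝓜 h𝓜 hϖ𝓜 q hq V₁ V₂ V₃ hV₁ hV₂ hV₃
    hgauss (α X') (α Y') Z G (α ψ') hX hY hZ hXm hYm hGl hψ hrel hnode hu₁ hu₂ hu₃
    hY₂ hY₃ hZ₁ hZ₃ hS₁ hS₂ ((rbLoc A E' y' 𝔪').map α : Set E₀) hR' hres
  exact ⟨fun 𝔪 h𝔪 hab => hmain.1 𝔪 ⟨h𝔪, hab⟩,
    fun 𝔪₁ 𝔪₂ h₁ h₂ hab₁ hab₂ => hmain.2 𝔪₁ ⟨h₁, hab₁⟩ 𝔪₂ ⟨h₂, hab₂⟩⟩

end Insep

section Val3

variable (A : Type) [CommRing A] [IsDomain A] [IsDiscreteValuationRing A]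
  (E' : Type) [Field E'] [Algebra A E'] [CharZero E']
  (E₀ : Type) [Field E₀] [Algebra A E₀] [CharZero E₀]

theorem rv_unif_neg {V : ValuationSubring E₀} {t : E₀} (h : DKUnif V t) :
    IsUniformiser E₀ V (-t) := by
  refine ⟨neg_ne_zero.mpr h.1, V.nonunits.neg_mem h.2.1, fun y hy => ?_⟩
  rw [div_neg]
  exact V.neg_mem _ (h.2.2 y hy)

/-- **REGSS along `α`** from `Val3Data`: every maximal ideal of `B` above the node `𝔪'` of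
level `L` (along `α`) is a regular triple point with parameters `(α Y₁, Z)`, the branches being
`V₀₂` (`α Y₁ = 0`), `V₁₁` (`Z = 0`), `V₂₀` (`α Y₁ + Z = 0`), and there is only one such
maximal ideal. -/
theorem regss_val3_alpha (hH : LocalHartogsStatement)
    (ϖ : A) (hϖ : Irreducible ϖ)
    (hinj' : Function.Injective (algebraMap A E'))
    (y' : E') (hy' : Transcendental A y')
    (hfd' : ∃ n : ℕ, Nonempty (Module.Basis (Fin n) (chartField A E' y') E'))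
    (𝔪' : Ideal (chartClosure A E' y')) (h𝔪' : 𝔪'.IsMaximal)
    (hϖ𝔪' : algebraMap A (chartClosure A E' y') ϖ ∈ 𝔪')
    (O₁ O₂ : ValuationSubring E') (X₁ Y₁ ψ' : E')
    (hreg' : IsRegPoint A E' ϖ y' 𝔪' O₂ Y₁ X₁)
    (hψ' : IsLocUnit A E' y' 𝔪' ψ')
    (hnode' : X₁ * Y₁ = algebraMap A E' ϖ * ψ')
    (hinj : Function.Injective (algebraMap A E₀))
    (y : E₀) (hy : Transcendental A y)
    (hfd : ∃ n : ℕ, Nonempty (Module.Basis (Fin n) (chartField A E₀ y) E₀))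
    (α β : E' →+* E₀) (hαA : ∀ a : A, α (algebraMap A E' a) = algebraMap A E₀ a)
    (hαB : ∀ z ∈ chartClosure A E' y', α z ∈ chartClosure A E₀ y)
    (q : ℕ) (hq : 2 ≤ q)
    (V₂₀ V₁₁ V₀₂ : ValuationSubring E₀) (Z : E₀)
    (hval : Val3Data α β O₁ O₂ V₂₀ V₁₁ V₀₂ q Y₁ Z)
    (hV₂₀ : IsVertical A E₀ ϖ y V₂₀) (hV₁₁ : IsVertical A E₀ ϖ y V₁₁)
    (hV₀₂ : IsVertical A E₀ ϖ y V₀₂)
    (hgauss : ∀ z : E₀, z ∈ V₂₀ → z ∈ V₁₁ → z ∈ V₀₂ → z ∈ gaussClosure A E₀ ϖ y)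
    (G : E₀) (hZ : Z ∈ chartClosure A E₀ y)
    (hG : ∀ 𝔪 : Ideal (chartClosure A E₀ y), 𝔪.IsMaximal →
      (∀ s : chartClosure A E' y', s ∈ 𝔪' →
        (⟨α s, hαB s s.2⟩ : chartClosure A E₀ y) ∈ 𝔪) → InLoc A E₀ y 𝔪 G)
    (hrel : Z ^ (q - 1) * (Z + α Y₁) - α X₁ + algebraMap A E₀ ϖ * G = 0) :
    (∀ 𝔪 : Ideal (chartClosure A E₀ y), 𝔪.IsMaximal →
      (∀ s : chartClosure A E' y', s ∈ 𝔪' →
        (⟨α s, hαB s s.2⟩ : chartClosure A E₀ y) ∈ 𝔪) →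
      IsRegPoint A E₀ ϖ y 𝔪 V₀₂ (α Y₁) Z ∧ IsRegPoint A E₀ ϖ y 𝔪 V₁₁ Z (α Y₁) ∧
        IsRegPoint A E₀ ϖ y 𝔪 V₂₀ (α Y₁ + Z) (α Y₁)) ∧
    (∀ 𝔪₁ 𝔪₂ : Ideal (chartClosure A E₀ y), 𝔪₁.IsMaximal → 𝔪₂.IsMaximal →
      (∀ s : chartClosure A E' y', s ∈ 𝔪' →
        (⟨α s, hαB s s.2⟩ : chartClosure A E₀ y) ∈ 𝔪₁) →
      (∀ s : chartClosure A E' y', s ∈ 𝔪' →
        (⟨α s, hαB s s.2⟩ : chartClosure A E₀ y) ∈ 𝔪₂) → 𝔪₁ = 𝔪₂) := by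
  have hu₃ : IsUniformiser E₀ V₂₀ (α Y₁ + Z) := by
    rw [add_comm]
    exact hval.X₂₀
  have hS₁ : (α Y₁ + Z)⁻¹ ∈ V₀₂ := by
    rw [add_comm]
    exact hval.X₀₂.2
  have hS₂ : (α Y₁ + Z)⁻¹ ∈ V₁₁ := by
    rw [add_comm]
    exact hval.X₁₁.2
  exact regss_of_insep A E' E₀ hH ϖ hϖ hinj' y' hy' hfd' 𝔪' h𝔪' hϖ𝔪' O₂ X₁ Y₁ ψ' hreg' hψ'
    hnode' hinj y hy hfd α hαA hαB q hq V₀₂ V₁₁ V₂₀ hV₀₂ hV₁₁ hV₂₀
    (fun z h1 h2 h3 => hgauss z h3 h2 h1) (rv_nonunits_comap hval.comap₀₂α) Z G hZ hG hrel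
    hval.Y₀₂ hval.unif₁₁ hu₃ hval.Y₁₁.2 hval.Y₂₀.2 hval.Z₀₂.2 hval.Z₂₀.2 hS₁ hS₂
    hval.insep₀₂α.2.1

/-- **REGSS along `β`** from `Val3Data`: the same with the roles of `V₂₀` and `V₀₂` exchanged:
the node `𝔪'` is read with `X₁` as the local equation of `O₁`, the parameters above are
`(β X₁, -Z)` (`β X₁ = Z + α Y₁`), and the Kronecker relation is the one of `-Z` over `β(F)`. -/
theorem regss_val3_beta (hH : LocalHartogsStatement)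
    (ϖ : A) (hϖ : Irreducible ϖ)
    (hinj' : Function.Injective (algebraMap A E'))
    (y' : E') (hy' : Transcendental A y')
    (hfd' : ∃ n : ℕ, Nonempty (Module.Basis (Fin n) (chartField A E' y') E'))
    (𝔪' : Ideal (chartClosure A E' y')) (h𝔪' : 𝔪'.IsMaximal)
    (hϖ𝔪' : algebraMap A (chartClosure A E' y') ϖ ∈ 𝔪')
    (O₁ O₂ : ValuationSubring E') (X₁ Y₁ ψ' : E')
    (hreg' : IsRegPoint A E' ϖ y' 𝔪' O₁ X₁ Y₁)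
    (hψ' : IsLocUnit A E' y' 𝔪' ψ')
    (hnode' : X₁ * Y₁ = algebraMap A E' ϖ * ψ')
    (hinj : Function.Injective (algebraMap A E₀))
    (y : E₀) (hy : Transcendental A y)
    (hfd : ∃ n : ℕ, Nonempty (Module.Basis (Fin n) (chartField A E₀ y) E₀))
    (α β : E' →+* E₀) (hβA : ∀ a : A, β (algebraMap A E' a) = algebraMap A E₀ a)
    (hβB : ∀ z ∈ chartClosure A E' y', β z ∈ chartClosure A E₀ y)
    (q : ℕ) (hq : 2 ≤ q)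
    (V₂₀ V₁₁ V₀₂ : ValuationSubring E₀) (Z : E₀)
    (hval : Val3Data α β O₁ O₂ V₂₀ V₁₁ V₀₂ q Y₁ Z)
    (hX₂ : β X₁ = Z + α Y₁)
    (hV₂₀ : IsVertical A E₀ ϖ y V₂₀) (hV₁₁ : IsVertical A E₀ ϖ y V₁₁)
    (hV₀₂ : IsVertical A E₀ ϖ y V₀₂)
    (hgauss : ∀ z : E₀, z ∈ V₂₀ → z ∈ V₁₁ → z ∈ V₀₂ → z ∈ gaussClosure A E₀ ϖ y)
    (G : E₀) (hZ : Z ∈ chartClosure A E₀ y)
    (hG : ∀ 𝔪 : Ideal (chartClosure A E₀ y), 𝔪.IsMaximal →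
      (∀ s : chartClosure A E' y', s ∈ 𝔪' →
        (⟨β s, hβB s s.2⟩ : chartClosure A E₀ y) ∈ 𝔪) → InLoc A E₀ y 𝔪 G)
    (hrel : (-Z) ^ (q - 1) * (-Z + β X₁) - β Y₁ + algebraMap A E₀ ϖ * G = 0) :
    (∀ 𝔪 : Ideal (chartClosure A E₀ y), 𝔪.IsMaximal →
      (∀ s : chartClosure A E' y', s ∈ 𝔪' →
        (⟨β s, hβB s s.2⟩ : chartClosure A E₀ y) ∈ 𝔪) →
      IsRegPoint A E₀ ϖ y 𝔪 V₂₀ (β X₁) (-Z) ∧ IsRegPoint A E₀ ϖ y 𝔪 V₁₁ (-Z) (β X₁) ∧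
        IsRegPoint A E₀ ϖ y 𝔪 V₀₂ (β X₁ + -Z) (β X₁)) ∧
    (∀ 𝔪₁ 𝔪₂ : Ideal (chartClosure A E₀ y), 𝔪₁.IsMaximal → 𝔪₂.IsMaximal →
      (∀ s : chartClosure A E' y', s ∈ 𝔪' →
        (⟨β s, hβB s s.2⟩ : chartClosure A E₀ y) ∈ 𝔪₁) →
      (∀ s : chartClosure A E' y', s ∈ 𝔪' →
        (⟨β s, hβB s s.2⟩ : chartClosure A E₀ y) ∈ 𝔪₂) → 𝔪₁ = 𝔪₂) := by
  have hsum : β X₁ + -Z = α Y₁ := by
    rw [hX₂]
    ring
  have hu₁ : IsUniformiser E₀ V₂₀ (β X₁) := by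
    rw [hX₂]
    exact hval.X₂₀
  have hu₃ : IsUniformiser E₀ V₀₂ (β X₁ + -Z) := by
    rw [hsum]
    exact hval.Y₀₂
  have hY₂ : (β X₁)⁻¹ ∈ V₁₁ := by
    rw [hX₂]
    exact hval.X₁₁.2
  have hY₃ : (β X₁)⁻¹ ∈ V₀₂ := by
    rw [hX₂]
    exact hval.X₀₂.2
  have hZ₁ : (-Z)⁻¹ ∈ V₂₀ := by
    rw [inv_neg]
    exact V₂₀.neg_mem _ hval.Z₂₀.2
  have hZ₃ : (-Z)⁻¹ ∈ V₀₂ := by
    rw [inv_neg]
    exact V₀₂.neg_mem _ hval.Z₀₂.2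
  have hS₁ : (β X₁ + -Z)⁻¹ ∈ V₂₀ := by
    rw [hsum]
    exact hval.Y₂₀.2
  have hS₂ : (β X₁ + -Z)⁻¹ ∈ V₁₁ := by
    rw [hsum]
    exact hval.Y₁₁.2
  have hins : ∀ w ∈ V₂₀, ∃ c : Fin q → E', (∀ j, c j ∈ O₁) ∧
      w - ∑ j, β (c j) * (-Z) ^ (j : ℕ) ∈ V₂₀.nonunits := by
    intro w hw
    obtain ⟨c, hc, hwc⟩ := hval.insep₂₀β.2.1 w hw
    refine ⟨fun j => (-1) ^ (j : ℕ) * c j, fun j => ?_, ?_⟩
    · exact O₁.mul_mem _ _ (pow_mem (O₁.neg_mem _ O₁.one_mem) _) (hc j)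
    · have : ∑ j : Fin q, β ((-1) ^ (j : ℕ) * c j) * (-Z) ^ (j : ℕ)
          = ∑ j : Fin q, β (c j) * Z ^ (j : ℕ) := by
        refine Finset.sum_congr rfl fun j _ => ?_
        rw [map_mul, map_pow, map_neg, map_one, neg_pow Z (j : ℕ)]
        have h1 : ((-1 : E₀) ^ (j : ℕ)) * ((-1) ^ (j : ℕ)) = 1 := by
          rw [← mul_pow]
          simp
        calc (-1 : E₀) ^ (j : ℕ) * β (c j) * ((-1) ^ (j : ℕ) * Z ^ (j : ℕ))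
            = ((-1 : E₀) ^ (j : ℕ) * (-1) ^ (j : ℕ)) * (β (c j) * Z ^ (j : ℕ)) := by ring
          _ = β (c j) * Z ^ (j : ℕ) := by rw [h1, one_mul]
      rw [this]
      exact hwc
  have hnode'' : Y₁ * X₁ = algebraMap A E' ϖ * ψ' := by
    rw [mul_comm]
    exact hnode'
  exact regss_of_insep A E' E₀ hH ϖ hϖ hinj' y' hy' hfd' 𝔪' h𝔪' hϖ𝔪' O₁ Y₁ X₁ ψ' hreg' hψ'
    hnode'' hinj y hy hfd β hβA hβB q hq V₂₀ V₁₁ V₀₂ hV₂₀ hV₁₁ hV₀₂ hgauss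
    (rv_nonunits_comap hval.comap₂₀β) (-Z) G (neg_mem hZ) hG hrel
    hu₁ (rv_unif_neg E₀ hval.unif₁₁) hu₃ hY₂ hY₃ hZ₁ hZ₃ hS₁ hS₂ hins

end Val3

section UnitMul

variable {A : Type} [CommRing A] {E : Type} [Field E] [Algebra A E]

/-- **Change of parameters by local units** (for the chart `y⁻¹`, where the functions
`X₁, Y₁, Z` have poles at the cusps and are replaced by multiples by a power of `y⁻¹`):
regular parameters may be multiplied by units of `B_𝔪`. -/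
theorem rv_regPoint_mul {ϖ : A} {y : E} {𝔪 : Ideal (chartClosure A E y)} (h𝔪 : 𝔪.IsPrime)
    {V : ValuationSubring E} (hB : ∀ z ∈ chartClosure A E y, z ∈ V) {x₁ x₂ : E}
    (h : IsRegPoint A E ϖ y 𝔪 V x₁ x₂) (c₁ c₂ : E)
    (hc₁ : IsLocUnit A E y 𝔪 c₁) (hc₂ : IsLocUnit A E y 𝔪 c₂)
    (h₁ : c₁ * x₁ ∈ chartClosure A E y) (h₂ : c₂ * x₂ ∈ chartClosure A E y) :
    IsRegPoint A E ϖ y 𝔪 V (c₁ * x₁) (c₂ * x₂) := by
  haveI := h𝔪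
  have hc₁0 := hc₁.1
  have hc₂0 := hc₂.1
  have hx₁0 := h.unif.1
  have hc₁V : c₁ ∈ V := rs_mem_of_inLoc hB h.thru hc₁.2.1
  have hc₁iV : c₁⁻¹ ∈ V := rs_mem_of_inLoc hB h.thru hc₁.2.2
  exact
    { vert := h.vert
      thru := h.thru
      mem₁ := h₁
      mem₂ := h₂
      mem_max₂ := fun _ => by
        have h3 := rs_inLocMax_mul_mem hc₂.2.1 h.mem₂ (h.mem_max₂ h.mem₂)
        exact rg_mem_of_inLocMax (s := ⟨c₂ * x₂, h₂⟩) h3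
      unif := by
        refine ⟨mul_ne_zero hc₁0 hx₁0, rg_nu_mul_mem hc₁V h.unif.2.1, fun z hz => ?_⟩
        have e : z / (c₁ * x₁) = c₁⁻¹ * (z / x₁) := by
          field_simp
        rw [e]
        exact V.mul_mem _ _ hc₁iV (h.unif.2.2 z hz)
      prin := fun s hs => by
        have e : (s : E) / (c₁ * x₁) = c₁⁻¹ * ((s : E) / x₁) := by
          field_simp
        rw [e]
        exact rs_inLoc_mul hc₁.2.2 (h.prin s hs)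
      gen := fun s hs => by
        obtain ⟨a₁, a₂, ha₁, ha₂, hsa⟩ := h.gen s hs
        refine ⟨a₁ * c₁⁻¹, a₂ * c₂⁻¹, rs_inLoc_mul ha₁ hc₁.2.2, rs_inLoc_mul ha₂ hc₂.2.2, ?_⟩
        rw [hsa]
        field_simp }

end UnitMul

end Fermat.Agent.H93.SS2
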