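/-
helper93 (P-SS2, concrete per-point data, block (M3) of helper97's list): THE KRONECKER
RELATIONS in the shape consumed by `regss_val3_alpha`, `regss_val3_beta`, `asmThree_of_regss`
(helper93) and `asmPt_val3_below` (helper99), abstract form.

Input: the polynomials `Pα`, `Pβ` of `Fermat.Agent.H11.SS2.Val3AbsStatement` /
`Fermat.Agent.H86.SS2.ModelVal3Inputs` (`Pα(Z) = 0`, `Pβ(-Z) = 0`, with their reductions modulo
the maximal ideals of `O₁`, `O₂`), the keystone `Val3Data`, GAUSS-TOWER (`hgauss`) and LOCAL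
HARTOGS.

Output: `Gα`, `Gβ` locally integral at every closed point of the special fibre with

  `Z^(q-1) (Z + α Y₁) - α X₁ + q Gα = 0`,   `(-Z)^(q-1) (-Z + β X₁) - β Y₁ + q Gβ = 0`.

* `kr_one`       : one relation, for an embedding `φ`, a root `T` and `P ≡ X^(q-1)(X + a) - b`.
* `kr_red_of`    : the combined congruence from the two congruences of `ModelVal3Inputs`.
* `kronRel_val3` : the two relations from `Val3Data`.
-/
import Fermat.Agent.H93.SS2.RegSSVal3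
import Fermat.Agent.H45.SS.Hartogs

set_option autoImplicit false
set_option linter.style.haveILetI false
set_option linter.unusedSectionVars false

noncomputable section

namespace Fermat.Agent.H93.SS2

open Polynomial
open Fermat.Agent.H22.KL Fermat.Agent.H11.SS2 Fermat.Agent.H45

section Red

variable {F : Type} [Field F]

/-- The combined congruence `P ≡ X^(q-1) (X + a) - b` modulo `𝔪_O`, from
`P ≡ X^(q-1) (X + a)` and `b ∈ 𝔪_O`. -/
theorem kr_red_of_left (O : ValuationSubring F) (q : ℕ) (P : F[X]) (a b : F)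
    (h : ∀ i, (P - X ^ (q - 1) * (X + C a)).coeff i ∈ O.nonunits) (hb : b ∈ O.nonunits)
    (i : ℕ) : (P - (X ^ (q - 1) * (X + C a) - C b)).coeff i ∈ O.nonunits := by
  have e : P - (X ^ (q - 1) * (X + C a) - C b) = (P - X ^ (q - 1) * (X + C a)) + C b := by
    ring
  rw [e, coeff_add, coeff_C]
  refine O.nonunits.add_mem (h i) ?_
  split_ifs
  · exact hb
  · exact O.nonunits.zero_mem

/-- The combined congruence `P ≡ X^(q-1) (X + a) - b` modulo `𝔪_O`, from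
`P ≡ X^q - b` and `a ∈ 𝔪_O`. -/
theorem kr_red_of_right (O : ValuationSubring F) (q : ℕ) (hq : 1 ≤ q) (P : F[X]) (a b : F)
    (h : ∀ i, (P - (X ^ q - C b)).coeff i ∈ O.nonunits) (ha : a ∈ O.nonunits)
    (i : ℕ) : (P - (X ^ (q - 1) * (X + C a) - C b)).coeff i ∈ O.nonunits := by
  have hX : (X : F[X]) ^ q = X ^ (q - 1) * X := by
    rw [← pow_succ, Nat.sub_add_cancel hq]
  have e : P - (X ^ (q - 1) * (X + C a) - C b) = (P - (X ^ q - C b)) - C a * X ^ (q - 1) := by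
    rw [hX]
    ring
  rw [e, coeff_sub, coeff_C_mul, coeff_X_pow]
  refine O.nonunits.sub_mem (h i) ?_
  split_ifs
  · rw [mul_one]
    exact ha
  · rw [mul_zero]
    exact O.nonunits.zero_mem

end Red

section One

variable (A : Type) [CommRing A] [IsDomain A] [IsDiscreteValuationRing A]
  (F : Type) [Field F]
  (E : Type) [Field E] [Algebra A E] [CharZero E]

/-- **One Kronecker relation with a locally integral cofactor.** -/
theorem kr_one (hH : LocalHartogsStatement)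
    (hinj : Function.Injective (algebraMap A E)) (q : ℕ)
    (hϖ : Irreducible ((q : ℕ) : A))
    (x : E) (hx : Transcendental A x)
    (hfd : ∃ n : ℕ, Nonempty (Module.Basis (Fin n) (chartField A E x) E))
    (φ : F →+* E)
    (O₁ O₂ : ValuationSubring F) (hu₁ : DKUnif O₁ (q : F)) (hu₂ : DKUnif O₂ (q : F))
    (W₁ W₂ W₃ : ValuationSubring E)
    (hc₁ : W₁.comap φ = O₁ ∨ W₁.comap φ = O₂) (hc₂ : W₂.comap φ = O₁ ∨ W₂.comap φ = O₂)
    (hc₃ : W₃.comap φ = O₁ ∨ W₃.comap φ = O₂)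
    (hgauss : ∀ z : E, z ∈ W₁ → z ∈ W₂ → z ∈ W₃ → z ∈ gaussClosure A E ((q : ℕ) : A) x)
    (P : F[X]) (T : E) (hT₁ : T ∈ W₁) (hT₂ : T ∈ W₂) (hT₃ : T ∈ W₃)
    (hTB : T ∈ chartClosure A E x) (a b : F)
    (hred₁ : ∀ i, (P - (X ^ (q - 1) * (X + C a) - C b)).coeff i ∈ O₁.nonunits)
    (hred₂ : ∀ i, (P - (X ^ (q - 1) * (X + C a) - C b)).coeff i ∈ O₂.nonunits)
    (hroot : (P.map φ).eval T = 0)
    (haB : φ a ∈ chartClosure A E x) (hbB : φ b ∈ chartClosure A E x) :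
    ∃ G : E,
      (∀ 𝔫 : Ideal (chartClosure A E x), 𝔫.IsMaximal →
        algebraMap A (chartClosure A E x) ((q : ℕ) : A) ∈ 𝔫 → InLoc A E x 𝔫 G) ∧
      T ^ (q - 1) * (T + φ a) - φ b + algebraMap A E ((q : ℕ) : A) * G = 0 := by
  classical
  have hcast : algebraMap A E ((q : ℕ) : A) = (q : E) := map_natCast _ q
  have hq0 : (q : E) ≠ 0 := by
    rw [← hcast]
    intro h0
    exact hϖ.ne_zero (hinj (h0.trans (map_zero _).symm))
  set R : F[X] := P - (X ^ (q - 1) * (X + C a) - C b) with hR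
  set G : E := (R.map φ).eval T / (q : E) with hG
  -- the relation
  have hrel : T ^ (q - 1) * (T + φ a) - φ b + algebraMap A E ((q : ℕ) : A) * G = 0 := by
    have h1 : (R.map φ).eval T = - (T ^ (q - 1) * (T + φ a) - φ b) := by
      rw [hR, Polynomial.map_sub, eval_sub, hroot]
      simp
    rw [hcast, hG, mul_div_cancel₀ _ hq0, h1]
    ring
  -- the cofactor lies in the three vertical valuation rings
  have hcoef : ∀ (W : ValuationSubring E), (W.comap φ = O₁ ∨ W.comap φ = O₂) →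
      ∀ i, φ (R.coeff i) / (q : E) ∈ W := by
    intro W hW i
    have e : φ (R.coeff i) / (q : E) = φ (R.coeff i / (q : F)) := by
      rw [map_div₀, map_natCast]
    rw [e]
    rcases hW with hW | hW
    · have : R.coeff i / (q : F) ∈ W.comap φ := by
        rw [hW]
        exact hu₁.2.2 _ (hred₁ i)
      exact this
    · have : R.coeff i / (q : F) ∈ W.comap φ := by
        rw [hW]
        exact hu₂.2.2 _ (hred₂ i)
      exact this
  have hGsum : G = ∑ i ∈ Finset.range ((R.map φ).natDegree + 1),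
      φ (R.coeff i) / (q : E) * T ^ i := by
    rw [hG, eval_eq_sum_range, Finset.sum_div]
    refine Finset.sum_congr rfl fun i _ => ?_
    rw [coeff_map]
    ring
  have hGW : ∀ (W : ValuationSubring E), (W.comap φ = O₁ ∨ W.comap φ = O₂) → T ∈ W →
      G ∈ W := by
    intro W hW hT
    rw [hGsum]
    exact sum_mem fun i _ => W.mul_mem _ _ (hcoef W hW i) (pow_mem hT i)
  have hGC : G ∈ gaussClosure A E ((q : ℕ) : A) x :=
    hgauss G (hGW W₁ hc₁ hT₁) (hGW W₂ hc₂ hT₂) (hGW W₃ hc₃ hT₃)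
  refine ⟨G, fun 𝔫 h𝔫 hq𝔫 => ?_, hrel⟩
  refine hH A E hinj ((q : ℕ) : A) hϖ x hx hfd 𝔫 h𝔫 hq𝔫 G hGC fun V hV => ?_
  obtain ⟨⟨hVp, hxV⟩, -⟩ := hV
  have hAV : ∀ c : A, algebraMap A E c ∈ V := by
    intro c
    by_cases hc : c = 0
    · rw [hc, map_zero]
      exact V.zero_mem
    · exact (hVp.2.2 c hc).1
  have hBV : ∀ z ∈ chartClosure A E x, z ∈ V := fun z hz => rs_chartClosure_le hAV hxV hz
  have hqinv : (q : E)⁻¹ ∈ V := by
    rw [← hcast]
    exact (hVp.2.2 _ hϖ.ne_zero).2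
  have hGeq : G = - (T ^ (q - 1) * (T + φ a) - φ b) * (q : E)⁻¹ := by
    have h2 : (q : E) * G = - (T ^ (q - 1) * (T + φ a) - φ b) := by
      rw [← hcast]
      linear_combination hrel
    rw [← h2]
    field_simp
  rw [hGeq]
  refine mul_mem (neg_mem (sub_mem ?_ (hBV _ hbB))) hqinv
  exact mul_mem (pow_mem (hBV _ hTB) _) (add_mem (hBV _ hTB) (hBV _ haB))

end One

section Val3

variable (A : Type) [CommRing A] [IsDomain A] [IsDiscreteValuationRing A]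
  (F : Type) [Field F]
  (E : Type) [Field E] [Algebra A E] [CharZero E]

/-- **The two Kronecker relations from `Val3Data`** and the polynomials `Pα`, `Pβ`
(hypotheses in the shape of `Fermat.Agent.H86.SS2.ModelVal3Inputs`). -/
theorem kronRel_val3 (hH : LocalHartogsStatement)
    (hinj : Function.Injective (algebraMap A E)) (q : ℕ) (hq : 1 ≤ q)
    (hϖ : Irreducible ((q : ℕ) : A))
    (x : E) (hx : Transcendental A x)
    (hfd : ∃ n : ℕ, Nonempty (Module.Basis (Fin n) (chartField A E x) E))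
    (α β : F →+* E)
    (O₁ O₂ : ValuationSubring F) (hu₁ : DKUnif O₁ (q : F)) (hu₂ : DKUnif O₂ (q : F))
    (V₂₀ V₁₁ V₀₂ : ValuationSubring E) (X₁ Y₁ : F) (Z : E)
    (hval : Val3Data α β O₁ O₂ V₂₀ V₁₁ V₀₂ q Y₁ Z)
    (hgauss : ∀ z : E, z ∈ V₂₀ → z ∈ V₁₁ → z ∈ V₀₂ →
      z ∈ gaussClosure A E ((q : ℕ) : A) x)
    (hX₁ : X₁ ∈ O₁.nonunits) (hY₁ : Y₁ ∈ O₂.nonunits)
    (Pα Pβ : F[X])
    (rootα : (Pα.map α).eval Z = 0) (rootβ : (Pβ.map β).eval (-Z) = 0)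
    (redα1 : ∀ i, (Pα - X ^ (q - 1) * (X + C Y₁)).coeff i ∈ O₁.nonunits)
    (redα2 : ∀ i, (Pα - (X ^ q - C X₁)).coeff i ∈ O₂.nonunits)
    (redβ1 : ∀ i, (Pβ - X ^ (q - 1) * (X + C X₁)).coeff i ∈ O₂.nonunits)
    (redβ2 : ∀ i, (Pβ - (X ^ q - C Y₁)).coeff i ∈ O₁.nonunits)
    (hZB : Z ∈ chartClosure A E x)
    (hαX : α X₁ ∈ chartClosure A E x) (hαY : α Y₁ ∈ chartClosure A E x)
    (hβX : β X₁ ∈ chartClosure A E x) (hβY : β Y₁ ∈ chartClosure A E x) :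
    ∃ Gα Gβ : E,
      (∀ 𝔫 : Ideal (chartClosure A E x), 𝔫.IsMaximal →
        algebraMap A (chartClosure A E x) ((q : ℕ) : A) ∈ 𝔫 → InLoc A E x 𝔫 Gα) ∧
      (∀ 𝔫 : Ideal (chartClosure A E x), 𝔫.IsMaximal →
        algebraMap A (chartClosure A E x) ((q : ℕ) : A) ∈ 𝔫 → InLoc A E x 𝔫 Gβ) ∧
      Z ^ (q - 1) * (Z + α Y₁) - α X₁ + algebraMap A E ((q : ℕ) : A) * Gα = 0 ∧
      (-Z) ^ (q - 1) * (-Z + β X₁) - β Y₁ + algebraMap A E ((q : ℕ) : A) * Gβ = 0 := by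
  have hZ₂₀ : Z ∈ V₂₀ := hval.Z₂₀.1
  have hZ₀₂ : Z ∈ V₀₂ := hval.Z₀₂.1
  have hZ₁₁ : Z ∈ V₁₁ := V₁₁.nonunits_le hval.unif₁₁.2.1
  obtain ⟨Gα, hGα, hrelα⟩ := kr_one A F E hH hinj q hϖ x hx hfd α O₁ O₂ hu₁ hu₂ V₂₀ V₁₁ V₀₂
    (Or.inl hval.comap₂₀α) (Or.inl hval.comap₁₁α) (Or.inr hval.comap₀₂α) hgauss Pα Z
    hZ₂₀ hZ₁₁ hZ₀₂ hZB Y₁ X₁
    (kr_red_of_left O₁ q Pα Y₁ X₁ redα1 hX₁)
    (kr_red_of_right O₂ q hq Pα Y₁ X₁ redα2 hY₁) rootα hαY hαX
  obtain ⟨Gβ, hGβ, hrelβ⟩ := kr_one A F E hH hinj q hϖ x hx hfd β O₁ O₂ hu₁ hu₂ V₂₀ V₁₁ V₀₂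
    (Or.inl hval.comap₂₀β) (Or.inr hval.comap₁₁β) (Or.inr hval.comap₀₂β) hgauss Pβ (-Z)
    (V₂₀.neg_mem _ hZ₂₀) (V₁₁.neg_mem _ hZ₁₁) (V₀₂.neg_mem _ hZ₀₂) (neg_mem hZB) X₁ Y₁
    (kr_red_of_right O₁ q hq Pβ X₁ Y₁ redβ2 hX₁)
    (kr_red_of_left O₂ q Pβ X₁ Y₁ redβ1 hY₁) rootβ hβX hβY
  exact ⟨Gα, Gβ, hGα, hGβ, hrelα, hrelβ⟩

end Val3

end Fermat.Agent.H93.SS2

end
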