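/-
helper93 (P-SS2 row 1080, SS2-C9c VERT-IFF), part I: the abstract core.

Chart language of `Fermat.Agent.H22.KL`.  `A` a ring, `ϖ ∈ A` with `A / ϖ` a field, `E ⊇ A` a
field, `V` a valuation subring of `E` containing `A` in which `ϖ` is not a unit.

* `ResTrans ϖ V w` : `w ∈ V` and the centre of `V` on `A[X]` (through `X ↦ w`) is contained in
  `(ϖ)`: the residue class of `w` is transcendental over `A / ϖ`.
* `vi_span_C_not_isMaximal` : `(ϖ) ⊆ A[X]` is not maximal.
* `vi_isMaximal_of_notDvd` : a prime of `A[X]` containing `ϖ` and some `p ∉ (ϖ)` is maximal.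
* `vi_resTrans_of_chartClosure_eq` : if `B(x') = B(x)` then `ResTrans ϖ V x → ResTrans ϖ V x'`
  (going-up for the two integral maps `A[X] → B`).
* `vi_gauss_comap_iff` : for an `A`-embedding `φ : F → E` and `x` transcendental over `A` in
  `F`: `ϖ` is a non-unit of `V ∩ F` and `C_F(x) ⊆ V ∩ F` iff `ϖ` is a non-unit of `V`,
  `A ⊆ V` and `ResTrans ϖ V (φ x)`.
-/
import Fermat.Agent.H93.SS2.RegSSBridge
import Fermat.Agent.H87.KL.KumGauss
import Fermat.Agent.H89.KLGauss

set_option autoImplicit false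
set_option linter.style.haveILetI false
set_option linter.unusedSectionVars false

noncomputable section

namespace Fermat.Agent.H93.SS2

open Polynomial
open Fermat.Agent.H22.KL Fermat.Agent.H11.SS2 Fermat.Agent.H87.KL

section Poly

variable {A : Type} [CommRing A]

/-- `(ϖ) ⊆ A[X]` is not a maximal ideal when `ϖ` is not a unit. -/
theorem vi_span_C_not_isMaximal (ϖ : A) (hϖ : ¬ IsUnit ϖ) :
    ¬ (Ideal.span {C ϖ} : Ideal A[X]).IsMaximal := by
  intro hmax
  have hX : (X : A[X]) ∉ Ideal.span {C ϖ} := by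
    intro h
    rw [Ideal.mem_span_singleton] at h
    obtain ⟨c, hc⟩ := h
    have h1 := congrArg (fun P : A[X] => P.coeff 1) hc
    simp only [coeff_X_one, coeff_C_mul] at h1
    exact hϖ (IsUnit.of_mul_eq_one _ h1.symm)
  obtain ⟨y, i, hi, hyi⟩ := hmax.exists_inv hX
  rw [Ideal.mem_span_singleton] at hi
  obtain ⟨c, rfl⟩ := hi
  have h1 := congrArg (fun P : A[X] => P.coeff 0) hyi
  simp only [coeff_add, mul_coeff_zero, coeff_X_zero, mul_zero, zero_add,
    coeff_one_zero, coeff_C_zero] at h1
  exact hϖ (IsUnit.of_mul_eq_one _ h1)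

/-- A prime ideal of `A[X]` containing `ϖ` and a polynomial not divisible by `ϖ` is maximal
(`A / ϖ` a field). -/
theorem vi_isMaximal_of_notDvd (ϖ : A) (hmax : (Ideal.span {ϖ} : Ideal A).IsMaximal)
    (J : Ideal A[X]) [hJ : J.IsPrime] (hϖJ : C ϖ ∈ J) (p : A[X]) (hp : p ∈ J)
    (hnd : ¬ C ϖ ∣ p) : J.IsMaximal := by
  letI : Field (A ⧸ (Ideal.span {ϖ} : Ideal A)) := Ideal.Quotient.field _
  set g : A[X] →+* (A ⧸ (Ideal.span {ϖ} : Ideal A))[X] :=
    mapRingHom (Ideal.Quotient.mk (Ideal.span {ϖ} : Ideal A)) with hg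
  have hsurj : Function.Surjective g :=
    Polynomial.map_surjective _ Ideal.Quotient.mk_surjective
  have hker : RingHom.ker g = Ideal.span {C ϖ} := by
    rw [hg, ker_mapRingHom, Ideal.mk_ker, Ideal.map_span, Set.image_singleton]
  have hle : RingHom.ker g ≤ J := by
    rw [hker, Ideal.span_le, Set.singleton_subset_iff]
    exact hϖJ
  haveI hprime : (Ideal.map g J).IsPrime := Ideal.map_isPrime_of_surjective hsurj hle
  have hne : Ideal.map g J ≠ ⊥ := by
    intro h0
    have h1 : g p ∈ Ideal.map g J := Ideal.mem_map_of_mem g hp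
    rw [h0, Ideal.mem_bot] at h1
    have h2 : p ∈ RingHom.ker g := h1
    rw [hker, Ideal.mem_span_singleton] at h2
    exact hnd h2
  haveI hmaxg : (Ideal.map g J).IsMaximal := IsPrime.to_maximal_ideal hne
  have hcm : Ideal.comap g (Ideal.map g J) = J := by
    rw [Ideal.comap_map_of_surjective' g hsurj, sup_eq_left]
    exact hle
  rw [← hcm]
  exact Ideal.comap_isMaximal_of_surjective g hsurj

end Poly

section Core

variable {A : Type} [CommRing A] {E : Type} [Field E] [Algebra A E]

/-- The residue class of `w` in the residue field of `V` is transcendental over `A / ϖ`: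
`w ∈ V`, and a polynomial `p ∈ A[X]` with `p(w) ∈ 𝔪_V` is divisible by `ϖ`. -/
def ResTrans (ϖ : A) (V : ValuationSubring E) (w : E) : Prop :=
  w ∈ V ∧ ∀ p : A[X], aeval w p ∈ V.nonunits → C ϖ ∣ p

theorem vi_self_mem_chartClosure (x : E) : x ∈ chartClosure A E x :=
  Fermat.Agent.H89.klg_chartRing_le_chartClosure x (Algebra.self_mem_adjoin_singleton A x)

/-- The evaluation `A[X] → B(x)`, `X ↦ x'`, for `x' ∈ B(x)`. -/
def viEval (x x' : E) (hx' : x' ∈ chartClosure A E x) : A[X] →+* chartClosure A E x :=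
  (aeval (⟨x', hx'⟩ : chartClosure A E x) : A[X] →ₐ[A] chartClosure A E x).toRingHom

theorem vi_coe_viEval (x x' : E) (hx' : x' ∈ chartClosure A E x) (P : A[X]) :
    ((viEval x x' hx' P : chartClosure A E x) : E) = aeval x' P :=
  aeval_subalgebra_coe P (chartClosure A E x) ⟨x', hx'⟩

/-- `B(x)` is integral over `A[X]` through `X ↦ x'` when `B(x) ⊆ B(x')`. -/
theorem vi_viEval_isIntegral (x x' : E) (hx' : x' ∈ chartClosure A E x)
    (hB : ∀ z ∈ chartClosure A E x, z ∈ chartClosure A E x') :
    (viEval x x' hx').IsIntegral := by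
  intro b
  have hb : IntX (A := A) x' (b : E) := (mem_chartClosure_iff x' (b : E)).1 (hB _ b.2)
  obtain ⟨P, hP, hPb⟩ := hb
  refine ⟨P, hP, Subtype.ext ?_⟩
  have hcomp : ((chartClosure A E x).val : chartClosure A E x →+* E).comp (viEval x x' hx') =
      evX (A := A) x' := by
    apply RingHom.ext
    intro Q
    exact vi_coe_viEval x x' hx' Q
  have h1 := hom_eval₂ P (viEval x x' hx')
    ((chartClosure A E x).val : chartClosure A E x →+* E) b
  rw [hcomp] at h1
  show ((chartClosure A E x).val : chartClosure A E x →+* E) (eval₂ (viEval x x' hx') b P) =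
    ((0 : chartClosure A E x) : E)
  rw [h1]
  exact hPb

/-- **Transcendence of the residue class passes between coordinates with the same integral
closure.** -/
theorem vi_resTrans_of_chartClosure_eq (ϖ : A) (hmax : (Ideal.span {ϖ} : Ideal A).IsMaximal)
    (V : ValuationSubring E) (hA : ∀ a : A, algebraMap A E a ∈ V)
    (hϖV : algebraMap A E ϖ ∈ V.nonunits) {x x' : E}
    (hB : chartClosure A E x' = chartClosure A E x)
    (hx : ResTrans ϖ V x) : ResTrans ϖ V x' := by
  classical
  have hϖu : ¬ IsUnit ϖ := fun hu =>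
    hmax.ne_top (Ideal.span_singleton_eq_top.2 hu)
  have hxB : x ∈ chartClosure A E x := vi_self_mem_chartClosure x
  have hx'B : x' ∈ chartClosure A E x := by
    rw [← hB]
    exact vi_self_mem_chartClosure x'
  have hBV : ∀ z ∈ chartClosure A E x, z ∈ V := fun z hz => rs_chartClosure_le hA hx.1 hz
  refine ⟨hBV x' hx'B, fun p hp => ?_⟩
  by_contra hnd
  haveI h𝔭 : (rbCentre A E x V hBV).IsPrime := rb_centre_isPrime A E hBV
  have hfint : (viEval x x hxB).IsIntegral := vi_viEval_isIntegral x x hxB fun z hz => hz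
  have hf'int : (viEval x x' hx'B).IsIntegral :=
    vi_viEval_isIntegral x x' hx'B fun z hz => by rw [hB]; exact hz
  -- the centre on `A[X]` through `x` is `(ϖ)`
  have hJ : (rbCentre A E x V hBV).comap (viEval x x hxB) = Ideal.span {C ϖ} := by
    ext P
    rw [Ideal.mem_comap, rb_mem_centre, vi_coe_viEval, Ideal.mem_span_singleton]
    constructor
    · exact hx.2 P
    · rintro ⟨Q, rfl⟩
      rw [map_mul, aeval_C, mul_comm]
      refine rg_nu_mul_mem ?_ hϖV
      have : aeval x Q ∈ chartClosure A E x := by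
        rw [← vi_coe_viEval x x hxB Q]
        exact (viEval x x hxB Q).2
      exact hBV _ this
  -- the centre through `x'` contains `ϖ` and `p`
  have hp' : p ∈ (rbCentre A E x V hBV).comap (viEval x x' hx'B) := by
    rw [Ideal.mem_comap, rb_mem_centre, vi_coe_viEval]
    exact hp
  have hϖ' : C ϖ ∈ (rbCentre A E x V hBV).comap (viEval x x' hx'B) := by
    rw [Ideal.mem_comap, rb_mem_centre, vi_coe_viEval, aeval_C]
    exact hϖV
  haveI hJ'max : ((rbCentre A E x V hBV).comap (viEval x x' hx'B)).IsMaximal :=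
    vi_isMaximal_of_notDvd ϖ hmax _ hϖ' p hp' hnd
  haveI h𝔭max : (rbCentre A E x V hBV).IsMaximal :=
    Ideal.isMaximal_of_isIntegral_of_isMaximal_comap' _ hf'int _ hJ'max
  have hJmax : ((rbCentre A E x V hBV).comap (viEval x x hxB)).IsMaximal :=
    Ideal.isMaximal_comap_of_isIntegral_of_isMaximal' _ hfint _
  rw [hJ] at hJmax
  exact vi_span_C_not_isMaximal ϖ hϖu hJmax

end Core

section Comap

variable {A : Type} [CommRing A] [IsDomain A] [IsDiscreteValuationRing A] {F E : Type}
  [Field F] [Field E] [Algebra A F] [Algebra A E]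

theorem vi_nonunits_comap (φ : F →+* E) (V : ValuationSubring E) (z : F) :
    z ∈ (V.comap φ).nonunits ↔ φ z ∈ V.nonunits := by
  rw [ValuationSubring.mem_nonunits_iff_or, ValuationSubring.mem_nonunits_iff_or,
    ValuationSubring.mem_comap, map_inv₀, map_eq_zero]

/-- An `A`-linear embedding maps `B'(x)` into `B(φ x)`. -/
theorem vi_map_mem_chartClosure (φ : F →+* E)
    (hφA : ∀ a : A, φ (algebraMap A F a) = algebraMap A E a) (x : F) {z : F}
    (hz : z ∈ chartClosure A F x) : φ z ∈ chartClosure A E (φ x) := by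
  let φA : F →ₐ[A] E := { φ with commutes' := hφA }
  have hmap : ∀ c : chartRing A F x, φ (c : F) ∈ chartRing A E (φ x) := by
    rintro ⟨c, hc⟩
    have h1 : φA c ∈ (Algebra.adjoin A ({x} : Set F)).map φA :=
      ⟨c, hc, rfl⟩
    rw [AlgHom.map_adjoin, Set.image_singleton] at h1
    exact h1
  let ψ : chartRing A F x →+* chartRing A E (φ x) :=
    { toFun := fun c => ⟨φ (c : F), hmap c⟩
      map_one' := Subtype.ext (map_one φ)
      map_mul' := fun a b => Subtype.ext (map_mul φ _ _)
      map_zero' := Subtype.ext (map_zero φ)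
      map_add' := fun a b => Subtype.ext (map_add φ _ _) }
  have hz' : IsIntegral (chartRing A F x) z := hz
  exact IsIntegral.map_of_comp_eq ψ φ (by ext; rfl) hz'

theorem vi_map_aeval (φ : F →+* E) (hφA : ∀ a : A, φ (algebraMap A F a) = algebraMap A E a)
    (x : F) (P : A[X]) : φ (aeval x P) = aeval (φ x) P := by
  rw [aeval_def, aeval_def, hom_eval₂]
  congr 1
  exact RingHom.ext hφA

/-- **Verticality of the restriction along `φ` in terms of the upper field.** -/
theorem vi_gauss_comap_iff (φ : F →+* E)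
    (hφA : ∀ a : A, φ (algebraMap A F a) = algebraMap A E a) (ϖ : A) (hϖ : Irreducible ϖ)
    (x : F) (hx : Transcendental A x) (V : ValuationSubring E) :
    (algebraMap A F ϖ ∈ (V.comap φ).nonunits ∧
        ∀ z ∈ gaussClosure A F ϖ x, z ∈ V.comap φ) ↔
      (algebraMap A E ϖ ∈ V.nonunits ∧ (∀ a : A, algebraMap A E a ∈ V) ∧
        ResTrans ϖ V (φ x)) := by
  have hnu : ∀ z : F, z ∈ (V.comap φ).nonunits ↔ φ z ∈ V.nonunits :=
    vi_nonunits_comap φ V
  constructor
  · rintro ⟨hϖO, hC⟩
    have hBO : ∀ z ∈ chartClosure A F x, φ z ∈ V := fun z hz =>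
      hC z (Fermat.Agent.H89.klg_chartClosure_le_gaussClosure hϖ hx hz)
    refine ⟨?_, fun a => ?_, ?_, fun p hp => ?_⟩
    · rw [← hφA]
      exact (hnu _).1 hϖO
    · rw [← hφA]
      exact hBO _ (Subalgebra.algebraMap_mem _ a)
    · exact hBO _ (vi_self_mem_chartClosure x)
    · by_contra hnd
      rw [← vi_map_aeval φ hφA x p, ← hnu] at hp
      have h0 : aeval x p ≠ 0 := by
        intro h0
        have : p = 0 := by
          by_contra hne
          exact hx ⟨p, hne, h0⟩
        exact hnd (this ▸ dvd_zero _)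
      have hinv : (aeval x p)⁻¹ ∈ gaussClosure A F ϖ x := by
        rw [mem_gaussClosure_iff hx]
        refine ⟨p, hnd, ?_⟩
        rw [mul_inv_cancel₀ h0, ← map_one (aeval x : A[X] →ₐ[A] F)]
        exact IntX.map x 1
      have h1 : (aeval x p)⁻¹ ∈ V.comap φ := hC _ hinv
      rw [ValuationSubring.mem_nonunits_iff_or] at hp
      rcases hp with hp | hp
      · exact h0 hp
      · exact hp h1
  · rintro ⟨hϖV, hA, hw, hT⟩
    have hBV : ∀ z ∈ chartClosure A E (φ x), z ∈ V := fun z hz => rs_chartClosure_le hA hw hz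
    refine ⟨?_, fun z hz => ?_⟩
    · rw [hnu, hφA]
      exact hϖV
    · obtain ⟨H, hH, hint⟩ := (mem_gaussClosure_iff hx ϖ z).1 hz
      have hHz : aeval x H * z ∈ chartClosure A F x := (mem_chartClosure_iff x _).2 hint
      have h1 : φ (aeval x H * z) ∈ V :=
        hBV _ (vi_map_mem_chartClosure φ hφA x hHz)
      have h2 : aeval (φ x) H ∉ V.nonunits := fun h => hH (hT H h)
      have h4 : (aeval (φ x) H)⁻¹ ∈ V := (rs_inv_mem_of_notMem_nonunits h2).2
      have h0 : aeval (φ x) H ≠ 0 := (rs_inv_mem_of_notMem_nonunits h2).1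
      have h5 : φ z = (aeval (φ x) H)⁻¹ * φ (aeval x H * z) := by
        rw [map_mul, vi_map_aeval φ hφA, ← mul_assoc, inv_mul_cancel₀ h0, one_mul]
      show φ z ∈ V
      rw [h5]
      exact V.mul_mem _ _ h4 h1

end Comap

end Fermat.Agent.H93.SS2

end
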