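/-
helper93 (P-SS2, block (M3) of the concrete per-point data): THE KRONECKER RELATIONS AT THE MODEL
LEVEL.

`F = ModelField K₁ (M' q)`, `E = ModelField K₁ (M' q q)`, `α = heckeAlphaBar`, `β = heckeBetaBar`,
`O₁ = vInf`, `O₂ = vZero Wq`, chart `x = j` of `E`.

* `modelKronRel_gen` : Hauptmodul-free form.  From the polynomials `Pα`, `Pβ` with their
  reductions (the fields of `Fermat.Agent.H86.SS2.ModelVal3Inputs`), `X₁, Y₁ ∈ B'(j)`,
  CHART-EQ, `Val3Data` and GAUSS-TOWER: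
  `Z ∈ B(j)`, `β X₁ = Z + α Y₁`, and cofactors `Gα`, `Gβ`, locally integral at every closed point
  of the special fibre, with
  `Z^(q-1) (Z + α Y₁) - α X₁ + q Gα = 0`, `(-Z)^(q-1) (-Z + β X₁) - β Y₁ + q Gβ = 0`.
* `modelKronRel4` : the case of the Hauptmodul of level 4 (`q` odd, `4 ∣ M'`), from
  `ModelVal3Inputs` and `Fermat.Agent.H48.SSHaupt.modelHauptBasics`.
-/
import Fermat.Agent.H93.SS2.KronRelAbs
import Fermat.Agent.H93.SS2.VertIffAbs
import Fermat.Agent.H4.SS.Hartogs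
import Fermat.Agent.H11.SS2.ModelDefs
import Fermat.Agent.H58.KL.ModelTr
import Fermat.Agent.H57.SS.ModelFinite
import Fermat.Agent.H86.SS2.Emb3Inputs
import Fermat.Agent.H48.SS.HauptBasics

set_option autoImplicit false
set_option linter.style.haveILetI false
set_option linter.unusedSectionVars false

noncomputable section

namespace Fermat.Agent.H93.SS2

open Polynomial ModularCurve AlgebraicCurve
open Fermat.Agent.H22.KL Fermat.Agent.H82.SS Fermat.Agent.H7.SS2 Fermat.Agent.H11.SS2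
open Fermat.Agent.H45

theorem km_toRingHom_apply {R S T : Type*} [CommSemiring R] [Semiring S] [Semiring T]
    [Algebra R S] [Algebra R T] (f : S →ₐ[R] T) (z : S) : f.toRingHom z = f z := rfl

section Gen

variable (M' q : ℕ) [NeZero M'] [NeZero q]
  (K₁ : Type) [Field K₁] [Algebra ℚ K₁] [FiniteDimensional ℚ K₁]
  (A₀ : Type) [CommRing A₀] [IsDomain A₀] [IsDiscreteValuationRing A₀]
  [Algebra A₀ K₁] [IsFractionRing A₀ K₁]
  [Algebra A₀ (ModelField K₁ (M' * q))] [IsScalarTower A₀ K₁ (ModelField K₁ (M' * q))]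
  [Algebra A₀ (ModelField K₁ (M' * q * q))] [IsScalarTower A₀ K₁ (ModelField K₁ (M' * q * q))]

/-- **The Kronecker relations at the model level, Hauptmodul-free form.** -/
theorem modelKronRel_gen (hq : q.Prime) (hqM : ¬ q ∣ M') (hch : ModelChartEqStatement M' q)
    (hϖ : Irreducible ((q : ℕ) : A₀))
    (Wq : ModelField K₁ (M' * q) ≃ₐ[K₁] ModelField K₁ (M' * q))
    (hW : IsAtkinLehnerModel K₁ M' q Wq)
    (xL : ModelField K₁ (M' * q)) (hxL : (xL : LaurentSeries K₁) = coeffEmb K₁ jq)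
    (X₁ Y₁ : ModelField K₁ (M' * q)) (Z : ModelField K₁ (M' * q * q))
    (hX₁B : X₁ ∈ chartClosure A₀ (ModelField K₁ (M' * q)) xL)
    (hY₁B : Y₁ ∈ chartClosure A₀ (ModelField K₁ (M' * q)) xL)
    (hX₁O : X₁ ∈ (vInf K₁ A₀ (M' * q)).nonunits)
    (hY₁O : Y₁ ∈ (vZero K₁ A₀ (M' * q) Wq).nonunits)
    (rel : Z + (heckeAlphaBar K₁ (M' * q) q).toRingHom Y₁ =
      (heckeBetaBar K₁ (M' * q) q).toRingHom X₁)
    (Pα Pβ : Polynomial (ModelField K₁ (M' * q)))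
    (rootα : (Pα.map (heckeAlphaBar K₁ (M' * q) q).toRingHom).eval Z = 0)
    (rootβ : (Pβ.map (heckeBetaBar K₁ (M' * q) q).toRingHom).eval (-Z) = 0)
    (redα1 : ∀ i, (Pα - X ^ (q - 1) * (X + C Y₁)).coeff i ∈ (vInf K₁ A₀ (M' * q)).nonunits)
    (redα2 : ∀ i, (Pα - (X ^ q - C X₁)).coeff i ∈ (vZero K₁ A₀ (M' * q) Wq).nonunits)
    (redβ1 : ∀ i,
      (Pβ - X ^ (q - 1) * (X + C X₁)).coeff i ∈ (vZero K₁ A₀ (M' * q) Wq).nonunits)
    (redβ2 : ∀ i, (Pβ - (X ^ q - C Y₁)).coeff i ∈ (vInf K₁ A₀ (M' * q)).nonunits)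
    (x : ModelField K₁ (M' * q * q)) (hx : (x : LaurentSeries K₁) = coeffEmb K₁ jq)
    (V₂₀ V₁₁ V₀₂ : ValuationSubring (ModelField K₁ (M' * q * q)))
    (hval : Val3Data (heckeAlphaBar K₁ (M' * q) q).toRingHom
      (heckeBetaBar K₁ (M' * q) q).toRingHom (vInf K₁ A₀ (M' * q))
      (vZero K₁ A₀ (M' * q) Wq) V₂₀ V₁₁ V₀₂ q Y₁ Z)
    (hgauss : ∀ z : ModelField K₁ (M' * q * q), z ∈ V₂₀ → z ∈ V₁₁ → z ∈ V₀₂ →
      z ∈ gaussClosure A₀ (ModelField K₁ (M' * q * q)) ((q : ℕ) : A₀) x) :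
    Z ∈ chartClosure A₀ (ModelField K₁ (M' * q * q)) x ∧
    (heckeBetaBar K₁ (M' * q) q).toRingHom X₁ =
      Z + (heckeAlphaBar K₁ (M' * q) q).toRingHom Y₁ ∧
    ∃ Gα Gβ : ModelField K₁ (M' * q * q),
      (∀ 𝔫 : Ideal (chartClosure A₀ (ModelField K₁ (M' * q * q)) x), 𝔫.IsMaximal →
        algebraMap A₀ (chartClosure A₀ (ModelField K₁ (M' * q * q)) x) ((q : ℕ) : A₀) ∈ 𝔫 →
        InLoc A₀ (ModelField K₁ (M' * q * q)) x 𝔫 Gα) ∧
      (∀ 𝔫 : Ideal (chartClosure A₀ (ModelField K₁ (M' * q * q)) x), 𝔫.IsMaximal →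
        algebraMap A₀ (chartClosure A₀ (ModelField K₁ (M' * q * q)) x) ((q : ℕ) : A₀) ∈ 𝔫 →
        InLoc A₀ (ModelField K₁ (M' * q * q)) x 𝔫 Gβ) ∧
      Z ^ (q - 1) * (Z + (heckeAlphaBar K₁ (M' * q) q).toRingHom Y₁) -
          (heckeAlphaBar K₁ (M' * q) q).toRingHom X₁ +
          algebraMap A₀ (ModelField K₁ (M' * q * q)) ((q : ℕ) : A₀) * Gα = 0 ∧
      (-Z) ^ (q - 1) * (-Z + (heckeBetaBar K₁ (M' * q) q).toRingHom X₁) -
          (heckeBetaBar K₁ (M' * q) q).toRingHom Y₁ +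
          algebraMap A₀ (ModelField K₁ (M' * q * q)) ((q : ℕ) : A₀) * Gβ = 0 := by
  classical
  haveI : CharZero K₁ := charZero_of_injective_algebraMap (algebraMap ℚ K₁).injective
  haveI : CharZero (ModelField K₁ (M' * q * q)) :=
    charZero_of_injective_algebraMap (algebraMap K₁ (ModelField K₁ (M' * q * q))).injective
  haveI : CharZero (ModelField K₁ (M' * q)) :=
    charZero_of_injective_algebraMap (algebraMap K₁ (ModelField K₁ (M' * q))).injective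
  set α : ModelField K₁ (M' * q) →+* ModelField K₁ (M' * q * q) :=
    (heckeAlphaBar K₁ (M' * q) q).toRingHom with hα
  set β : ModelField K₁ (M' * q) →+* ModelField K₁ (M' * q * q) :=
    (heckeBetaBar K₁ (M' * q) q).toRingHom with hβ
  have hinj : Function.Injective (algebraMap A₀ (ModelField K₁ (M' * q * q))) := by
    rw [IsScalarTower.algebraMap_eq A₀ K₁ (ModelField K₁ (M' * q * q))]
    exact (algebraMap K₁ (ModelField K₁ (M' * q * q))).injective.comp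
      (IsFractionRing.injective A₀ K₁)
  have hT : Transcendental A₀ x :=
    Fermat.Agent.H58.modelTranscendental_jq (M' * q * q) K₁ A₀ x hx
  have hfd := Fermat.Agent.H57.SS.modelFinite (M' * q * q) K₁ A₀ x hx
  have hαA : ∀ a : A₀, α (algebraMap A₀ (ModelField K₁ (M' * q)) a) =
      algebraMap A₀ (ModelField K₁ (M' * q * q)) a := fun a => by
    rw [IsScalarTower.algebraMap_apply A₀ K₁ (ModelField K₁ (M' * q)),
      IsScalarTower.algebraMap_apply A₀ K₁ (ModelField K₁ (M' * q * q)), hα,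
      km_toRingHom_apply, AlgHom.commutes]
  have hβA : ∀ a : A₀, β (algebraMap A₀ (ModelField K₁ (M' * q)) a) =
      algebraMap A₀ (ModelField K₁ (M' * q * q)) a := fun a => by
    rw [IsScalarTower.algebraMap_apply A₀ K₁ (ModelField K₁ (M' * q)),
      IsScalarTower.algebraMap_apply A₀ K₁ (ModelField K₁ (M' * q * q)), hβ,
      km_toRingHom_apply, AlgHom.commutes]
  -- the charts
  have hαx : α xL = x := by
    apply Subtype.ext
    rw [hα, km_toRingHom_apply, coe_heckeAlphaBar, hxL, hx]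
  have hβx : ((β xL : ModelField K₁ (M' * q * q)) : LaurentSeries K₁) =
      qExpand K₁ q (coeffEmb K₁ jq) := by
    rw [hβ, km_toRingHom_apply, coe_heckeBetaBar, hxL]
  have hB : chartClosure A₀ (ModelField K₁ (M' * q * q)) (β xL) =
      chartClosure A₀ (ModelField K₁ (M' * q * q)) x :=
    hch hq hqM K₁ A₀ Wq hW x (β xL) hx hβx
  have hαB : ∀ z ∈ chartClosure A₀ (ModelField K₁ (M' * q)) xL,
      α z ∈ chartClosure A₀ (ModelField K₁ (M' * q * q)) x := fun z hz => by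
    rw [← hαx]
    exact vi_map_mem_chartClosure α hαA xL hz
  have hβB : ∀ z ∈ chartClosure A₀ (ModelField K₁ (M' * q)) xL,
      β z ∈ chartClosure A₀ (ModelField K₁ (M' * q * q)) x := fun z hz => by
    rw [← hB]
    exact vi_map_mem_chartClosure β hβA xL hz
  have hZB : Z ∈ chartClosure A₀ (ModelField K₁ (M' * q * q)) x := by
    have e : Z = β X₁ - α Y₁ := by rw [← rel]; ring
    rw [e]
    exact sub_mem (hβB _ hX₁B) (hαB _ hY₁B)
  -- the uniformisers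
  have hcastF : algebraMap A₀ (ModelField K₁ (M' * q)) ((q : ℕ) : A₀) =
      ((q : ℕ) : ModelField K₁ (M' * q)) := map_natCast _ q
  have hu₁ : DKUnif (vInf K₁ A₀ (M' * q)) ((q : ℕ) : ModelField K₁ (M' * q)) := by
    have := isUniformiser_vInf (K₁ := K₁) (A₀ := A₀) (N := M' * q) hϖ
    rw [hcastF] at this
    exact this
  have hu₂ : DKUnif (vZero K₁ A₀ (M' * q) Wq) ((q : ℕ) : ModelField K₁ (M' * q)) := by
    have := isUniformiser_vZero (K₁ := K₁) (A₀ := A₀) (N := M' * q) Wq hϖ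
    rw [hcastF] at this
    exact this
  refine ⟨hZB, rel.symm, ?_⟩
  exact kronRel_val3 A₀ (ModelField K₁ (M' * q)) (ModelField K₁ (M' * q * q))
    Fermat.Agent.H4.SS.localHartogs hinj q hq.one_lt.le hϖ x hT hfd α β
    (vInf K₁ A₀ (M' * q)) (vZero K₁ A₀ (M' * q) Wq) hu₁ hu₂ V₂₀ V₁₁ V₀₂ X₁ Y₁ Z hval hgauss
    hX₁O hY₁O Pα Pβ rootα rootβ redα1 redα2 redβ1 redβ2 hZB (hαB _ hX₁B) (hαB _ hY₁B)
    (hβB _ hX₁B) (hβB _ hY₁B)

end Gen

section Four

variable (M' q : ℕ) [NeZero M'] [NeZero q]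
  (K₁ : Type) [Field K₁] [Algebra ℚ K₁] [FiniteDimensional ℚ K₁]
  (A₀ : Type) [CommRing A₀] [IsDomain A₀] [IsDiscreteValuationRing A₀]
  [Algebra A₀ K₁] [IsFractionRing A₀ K₁]
  [Algebra A₀ (ModelField K₁ (M' * q))] [IsScalarTower A₀ K₁ (ModelField K₁ (M' * q))]
  [Algebra A₀ (ModelField K₁ (M' * q * q))] [IsScalarTower A₀ K₁ (ModelField K₁ (M' * q * q))]

open Fermat.Agent.H86.SS2 in
/-- **The Kronecker relations at the model level, Hauptmodul of level 4** (`q` odd, `4 ∣ M'`),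
from helper86's input package `ModelVal3Inputs`. -/
theorem modelKronRel4 (hq : q.Prime) (hq2 : q ≠ 2) (h4 : 4 ∣ M') (hqM : ¬ q ∣ M')
    (hch : ModelChartEqStatement M' q)
    (hϖ : Irreducible ((q : ℕ) : A₀))
    (Wq : ModelField K₁ (M' * q) ≃ₐ[K₁] ModelField K₁ (M' * q))
    (hW : IsAtkinLehnerModel K₁ M' q Wq)
    (X₁ Y₁ : ModelField K₁ (M' * q)) (Z : ModelField K₁ (M' * q * q))
    (Pα Pβ : Polynomial (ModelField K₁ (M' * q)))
    (hX₁ : (X₁ : LaurentSeries K₁) = sX1 K₁ q) (hY₁ : (Y₁ : LaurentSeries K₁) = sY1 K₁ q)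
    (hin : ModelVal3Inputs K₁ A₀ M' q Wq X₁ Y₁ Z Pα Pβ)
    (x : ModelField K₁ (M' * q * q)) (hx : (x : LaurentSeries K₁) = coeffEmb K₁ jq)
    (V₂₀ V₁₁ V₀₂ : ValuationSubring (ModelField K₁ (M' * q * q)))
    (hval : Val3Data (heckeAlphaBar K₁ (M' * q) q).toRingHom
      (heckeBetaBar K₁ (M' * q) q).toRingHom (vInf K₁ A₀ (M' * q))
      (vZero K₁ A₀ (M' * q) Wq) V₂₀ V₁₁ V₀₂ q Y₁ Z)
    (hgauss : ∀ z : ModelField K₁ (M' * q * q), z ∈ V₂₀ → z ∈ V₁₁ → z ∈ V₀₂ →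
      z ∈ gaussClosure A₀ (ModelField K₁ (M' * q * q)) ((q : ℕ) : A₀) x) :
    Z ∈ chartClosure A₀ (ModelField K₁ (M' * q * q)) x ∧
    (heckeBetaBar K₁ (M' * q) q).toRingHom X₁ =
      Z + (heckeAlphaBar K₁ (M' * q) q).toRingHom Y₁ ∧
    ∃ Gα Gβ : ModelField K₁ (M' * q * q),
      (∀ 𝔫 : Ideal (chartClosure A₀ (ModelField K₁ (M' * q * q)) x), 𝔫.IsMaximal →
        algebraMap A₀ (chartClosure A₀ (ModelField K₁ (M' * q * q)) x) ((q : ℕ) : A₀) ∈ 𝔫 →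
        InLoc A₀ (ModelField K₁ (M' * q * q)) x 𝔫 Gα) ∧
      (∀ 𝔫 : Ideal (chartClosure A₀ (ModelField K₁ (M' * q * q)) x), 𝔫.IsMaximal →
        algebraMap A₀ (chartClosure A₀ (ModelField K₁ (M' * q * q)) x) ((q : ℕ) : A₀) ∈ 𝔫 →
        InLoc A₀ (ModelField K₁ (M' * q * q)) x 𝔫 Gβ) ∧
      Z ^ (q - 1) * (Z + (heckeAlphaBar K₁ (M' * q) q).toRingHom Y₁) -
          (heckeAlphaBar K₁ (M' * q) q).toRingHom X₁ +
          algebraMap A₀ (ModelField K₁ (M' * q * q)) ((q : ℕ) : A₀) * Gα = 0 ∧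
      (-Z) ^ (q - 1) * (-Z + (heckeBetaBar K₁ (M' * q) q).toRingHom X₁) -
          (heckeBetaBar K₁ (M' * q) q).toRingHom Y₁ +
          algebraMap A₀ (ModelField K₁ (M' * q * q)) ((q : ℕ) : A₀) * Gβ = 0 := by
  classical
  have hqA : ¬ IsUnit ((q : ℕ) : A₀) := hϖ.not_isUnit
  -- the coordinate `j` of level `M' q` and the Hauptmodul
  have hjq : jq ∈ modularFunctionFieldFull (M' * q) := by
    have h1 := jqd_mem_full (M' * q) (one_dvd (M' * q))
    rwa [qExpand_one_apply] at h1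
  let xL : ModelField K₁ (M' * q) := ⟨coeffEmb K₁ jq, coeffEmb_mem_laurentBaseChange K₁ hjq⟩
  have hxL : (xL : LaurentSeries K₁) = coeffEmb K₁ jq := rfl
  obtain ⟨-, H, Hq, -, -, hH, hHq, hHB, hHqB, -, -, -, -, -, -⟩ :=
    Fermat.Agent.H48.SSHaupt.modelHauptBasics M' q h4 hq hq2 hqM K₁ A₀ hqA xL hxL Wq hW
  have eX : X₁ = Hq - H ^ q := by
    apply Subtype.ext
    rw [hX₁]
    show sX1 K₁ q = (Hq : LaurentSeries K₁) - (H : LaurentSeries K₁) ^ q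
    rw [hH, hHq]
    rfl
  have eY : Y₁ = H - Hq ^ q := by
    apply Subtype.ext
    rw [hY₁]
    show sY1 K₁ q = (H : LaurentSeries K₁) - (Hq : LaurentSeries K₁) ^ q
    rw [hH, hHq]
    rfl
  have hX₁B : X₁ ∈ chartClosure A₀ (ModelField K₁ (M' * q)) xL := by
    rw [eX]
    exact sub_mem hHqB (pow_mem hHB q)
  have hY₁B : Y₁ ∈ chartClosure A₀ (ModelField K₁ (M' * q)) xL := by
    rw [eY]
    exact sub_mem hHB (pow_mem hHqB q)
  -- `X₁ ∈ 𝔪_{O₁}`, `Y₁ ∈ 𝔪_{O₂}`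
  have hcastF : algebraMap A₀ (ModelField K₁ (M' * q)) ((q : ℕ) : A₀) =
      ((q : ℕ) : ModelField K₁ (M' * q)) := map_natCast _ q
  have hu₁ := isUniformiser_vInf (K₁ := K₁) (A₀ := A₀) (N := M' * q) hϖ
  have hu₂ := isUniformiser_vZero (K₁ := K₁) (A₀ := A₀) (N := M' * q) Wq hϖ
  rw [hcastF] at hu₁ hu₂
  have hX₁O : X₁ ∈ (vInf K₁ A₀ (M' * q)).nonunits := by
    have e : X₁ = X₁ / ((q : ℕ) : ModelField K₁ (M' * q)) *
        ((q : ℕ) : ModelField K₁ (M' * q)) := by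
      rw [div_mul_cancel₀ _ hu₁.1]
    rw [e]
    exact rg_nu_mul_mem hin.x1_O1.1 hu₁.2.1
  have hY₁O : Y₁ ∈ (vZero K₁ A₀ (M' * q) Wq).nonunits := by
    have e : Y₁ = Y₁ / ((q : ℕ) : ModelField K₁ (M' * q)) *
        ((q : ℕ) : ModelField K₁ (M' * q)) := by
      rw [div_mul_cancel₀ _ hu₂.1]
    rw [e]
    exact rg_nu_mul_mem hin.y1_O2.1 hu₂.2.1
  exact modelKronRel_gen M' q K₁ A₀ hq hqM hch hϖ Wq hW xL hxL X₁ Y₁ Z hX₁B hY₁B hX₁O hY₁O
    hin.rel Pα Pβ hin.rootα hin.rootβ hin.redα1 hin.redα2 hin.redβ1 hin.redβ2 x hx V₂₀ V₁₁ V₀₂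
    hval hgauss

end Four

end Fermat.Agent.H93.SS2

end
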