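/-
helper93 (P-SS2 row 1080, SS2-C9c VERT-IFF), part II: the concrete statement

  `modelVertIff : ModelChartEqStatement M' q → ModelVertIffStatement M' q`.

For `φ ∈ {α, β}` (the two degeneracy embeddings of the model field of level `M' q` into the one
of level `M' q q`) and a valuation subring `V` of the upper field:

  `V ∩ φ(F) ∈ {V_∞, V_0}`  ⟺  `q ∈ 𝔪_{V ∩ φ F}` and `C(j) ⊆ V ∩ φ(F)`    (`vi_model_iff`)
                            ⟺  `q ∈ 𝔪_V`, `A₀ ⊆ V`, `ResTrans q V (φ j)`   (`vi_gauss_comap_iff`),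

and `ResTrans q V (α j) ⟺ ResTrans q V (β j)` because `B(α j) = B(β j)` (CHART-EQ,
`vi_resTrans_of_chartClosure_eq`).
-/
import Fermat.Agent.H93.SS2.VertIffAbs
import Fermat.Agent.H11.SS2.ModelDefs
import Fermat.Agent.H58.KL.ModelTr

set_option autoImplicit false
set_option linter.style.haveILetI false
set_option linter.unusedSectionVars false

noncomputable section

namespace Fermat.Agent.H93.SS2

open Polynomial ModularCurve AlgebraicCurve
open Fermat.Agent.H22.KL Fermat.Agent.H82.SS Fermat.Agent.H7.SS2 Fermat.Agent.H11.SS2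

theorem vi_toRingHom_apply {R S T : Type*} [CommSemiring R] [Semiring S] [Semiring T]
    [Algebra R S] [Algebra R T] (f : S →ₐ[R] T) (z : S) : f.toRingHom z = f z := rfl

section Level

variable (M q : ℕ) [NeZero M] [NeZero q]
  (K₁ : Type) [Field K₁] [Algebra ℚ K₁] [FiniteDimensional ℚ K₁]
  (A₀ : Type) [CommRing A₀] [IsDomain A₀] [IsDiscreteValuationRing A₀]
  [Algebra A₀ K₁] [IsFractionRing A₀ K₁]
  [Algebra A₀ (ModelField K₁ (M * q))] [IsScalarTower A₀ K₁ (ModelField K₁ (M * q))]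

/-- **The two vertical valuations of level `M q`, without discreteness.** -/
theorem vi_model_iff (hq : q.Prime) (hqM : ¬ q ∣ M) (ϖ : A₀) (hϖ : Irreducible ϖ)
    (hqA : ¬ IsUnit ((q : ℕ) : A₀))
    (x : ModelField K₁ (M * q)) (hx : (x : LaurentSeries K₁) = coeffEmb K₁ jq)
    (W : ModelField K₁ (M * q) ≃ₐ[K₁] ModelField K₁ (M * q)) (hW : IsAtkinLehnerModel K₁ M q W)
    (O : ValuationSubring (ModelField K₁ (M * q))) :
    (O = vInf K₁ A₀ (M * q) ∨ O = vZero K₁ A₀ (M * q) W) ↔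
      (algebraMap A₀ (ModelField K₁ (M * q)) ϖ ∈ O.nonunits ∧
        ∀ z ∈ gaussClosure A₀ (ModelField K₁ (M * q)) ϖ x, z ∈ O) := by
  constructor
  · rintro (rfl | rfl)
    · have h := isVertical_vInf M q K₁ A₀ hqA ϖ hϖ x hx W hW
      exact ⟨h.2.2.2, h.2.2.1⟩
    · have h := isVertical_vZero M q K₁ A₀ hqA ϖ hϖ x hx W hW
      exact ⟨h.2.2.2, h.2.2.1⟩
  · rintro ⟨hϖO, hC⟩
    obtain ⟨h0, -, h2⟩ := isUniformiser_vInf (K₁ := K₁) (A₀ := A₀) (N := M * q) hϖ
    obtain ⟨-, -, h2'⟩ := isUniformiser_vZero (K₁ := K₁) (A₀ := A₀) (N := M * q) W hϖ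
    rcases le_or_le_of_inf_le (vInf K₁ A₀ (M * q)) (vZero K₁ A₀ (M * q) W) O
      (fun z hz1 hz2 => hC z
        (mem_gaussClosure_of_mem_vInf_vZero M q K₁ A₀ hqA ϖ hϖ x hx W hW hq hqM z hz1 hz2))
      with h | h
    · left
      exact eq_of_le_of_uniformiser _ _ _ h0 h2 h hϖO
    · right
      exact eq_of_le_of_uniformiser _ _ _ h0 h2' h hϖO

end Level

/-- **VERT-IFF** (row SS2-C9c): a valuation subring of the model field of level `M' q q` lies
above `V_∞` or `V_0` along `α` iff it does so along `β`. -/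
theorem modelVertIff (M' q : ℕ) [NeZero M'] [NeZero q] (h : ModelChartEqStatement M' q) :
    ModelVertIffStatement M' q := by
  intro hq hqM K₁ _ _ _ A₀ _ _ _ _ _ hϖ Wq hW V
  classical
  letI algF : Algebra A₀ (ModelField K₁ (M' * q)) :=
    ((algebraMap K₁ (ModelField K₁ (M' * q))).comp (algebraMap A₀ K₁)).toAlgebra
  haveI towF : IsScalarTower A₀ K₁ (ModelField K₁ (M' * q)) :=
    IsScalarTower.of_algebraMap_eq (fun _ => rfl)
  letI algE : Algebra A₀ (ModelField K₁ (M' * q * q)) :=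
    ((algebraMap K₁ (ModelField K₁ (M' * q * q))).comp (algebraMap A₀ K₁)).toAlgebra
  haveI towE : IsScalarTower A₀ K₁ (ModelField K₁ (M' * q * q)) :=
    IsScalarTower.of_algebraMap_eq (fun _ => rfl)
  have hqA : ¬ IsUnit ((q : ℕ) : A₀) := hϖ.not_isUnit
  -- the coordinate `j` of level `M' q`
  have hjq : jq ∈ modularFunctionFieldFull (M' * q) := by
    have h1 := jqd_mem_full (M' * q) (one_dvd (M' * q))
    rwa [qExpand_one_apply] at h1
  let xL : ModelField K₁ (M' * q) := ⟨coeffEmb K₁ jq, coeffEmb_mem_laurentBaseChange K₁ hjq⟩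
  have hxL : (xL : LaurentSeries K₁) = coeffEmb K₁ jq := rfl
  have hT : Transcendental A₀ xL :=
    Fermat.Agent.H58.modelTranscendental_jq (M' * q) K₁ A₀ xL hxL
  -- the two embeddings
  set α : ModelField K₁ (M' * q) →+* ModelField K₁ (M' * q * q) :=
    (heckeAlphaBar K₁ (M' * q) q).toRingHom with hα
  set β : ModelField K₁ (M' * q) →+* ModelField K₁ (M' * q * q) :=
    (heckeBetaBar K₁ (M' * q) q).toRingHom with hβ
  have hαA : ∀ a : A₀, α (algebraMap A₀ (ModelField K₁ (M' * q)) a) =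
      algebraMap A₀ (ModelField K₁ (M' * q * q)) a := fun a => by
    rw [IsScalarTower.algebraMap_apply A₀ K₁ (ModelField K₁ (M' * q)),
      IsScalarTower.algebraMap_apply A₀ K₁ (ModelField K₁ (M' * q * q)), hα,
      vi_toRingHom_apply, AlgHom.commutes]
  have hβA : ∀ a : A₀, β (algebraMap A₀ (ModelField K₁ (M' * q)) a) =
      algebraMap A₀ (ModelField K₁ (M' * q * q)) a := fun a => by
    rw [IsScalarTower.algebraMap_apply A₀ K₁ (ModelField K₁ (M' * q)),
      IsScalarTower.algebraMap_apply A₀ K₁ (ModelField K₁ (M' * q * q)), hβ,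
      vi_toRingHom_apply, AlgHom.commutes]
  have hαx : ((α xL : ModelField K₁ (M' * q * q)) : LaurentSeries K₁) = coeffEmb K₁ jq := by
    rw [hα, vi_toRingHom_apply, coe_heckeAlphaBar]
  have hβx : ((β xL : ModelField K₁ (M' * q * q)) : LaurentSeries K₁) =
      qExpand K₁ q (coeffEmb K₁ jq) := by
    rw [hβ, vi_toRingHom_apply, coe_heckeBetaBar]
  -- CHART-EQ
  have hB : chartClosure A₀ (ModelField K₁ (M' * q * q)) (β xL) =
      chartClosure A₀ (ModelField K₁ (M' * q * q)) (α xL) :=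
    h hq hqM K₁ A₀ Wq hW (α xL) (β xL) hαx hβx
  have hmax : (Ideal.span {((q : ℕ) : A₀)} : Ideal A₀).IsMaximal := by
    rw [← (IsDiscreteValuationRing.irreducible_iff_uniformizer _).1 hϖ]
    exact IsLocalRing.maximalIdeal.isMaximal A₀
  -- the chain of equivalences
  have key : ∀ φ : ModelField K₁ (M' * q) →+* ModelField K₁ (M' * q * q),
      (∀ a : A₀, φ (algebraMap A₀ (ModelField K₁ (M' * q)) a) =
        algebraMap A₀ (ModelField K₁ (M' * q * q)) a) →
      ((V.comap φ = vInf K₁ A₀ (M' * q) ∨ V.comap φ = vZero K₁ A₀ (M' * q) Wq) ↔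
        (algebraMap A₀ (ModelField K₁ (M' * q * q)) ((q : ℕ) : A₀) ∈ V.nonunits ∧
          (∀ a : A₀, algebraMap A₀ (ModelField K₁ (M' * q * q)) a ∈ V) ∧
          ResTrans ((q : ℕ) : A₀) V (φ xL))) := fun φ hφA =>
    (vi_model_iff M' q K₁ A₀ hq hqM _ hϖ hqA xL hxL Wq hW (V.comap φ)).trans
      (vi_gauss_comap_iff φ hφA _ hϖ xL hT V)
  rw [key α hαA, key β hβA]
  constructor
  · rintro ⟨h1, h2, h3⟩
    exact ⟨h1, h2, vi_resTrans_of_chartClosure_eq _ hmax V h2 h1 hB h3⟩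
  · rintro ⟨h1, h2, h3⟩
    exact ⟨h1, h2, vi_resTrans_of_chartClosure_eq _ hmax V h2 h1 hB.symm h3⟩

end Fermat.Agent.H93.SS2

end
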