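/-
helper93 (P-SS2 rows 1080 VERT-IFF and 1078 CHART-EQ): the UNCONDITIONAL forms.

* `modelChartEqU` : `Fermat.Agent.H11.SS2.ModelChartEqStatement M' q`, from helper35's landed
  `Fermat.Agent.H35.SS2.ss2_chartClosure_beta_eq` (`B(β j) = B(j)`).
* `modelVertIffU` : `Fermat.Agent.H11.SS2.ModelVertIffStatement M' q`.
-/
import Fermat.Agent.H93.SS2.VertIff
import Fermat.Agent.H35.SS2.ChartBeta

set_option autoImplicit false
set_option linter.style.haveILetI false
set_option linter.unusedSectionVars false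

noncomputable section

namespace Fermat.Agent.H93.SS2

open Polynomial ModularCurve AlgebraicCurve
open Fermat.Agent.H22.KL Fermat.Agent.H82.SS Fermat.Agent.H7.SS2 Fermat.Agent.H11.SS2

/-- **CHART-EQ**, unconditional. -/
theorem modelChartEqU (M' q : ℕ) [NeZero M'] [NeZero q] : ModelChartEqStatement M' q := by
  intro hq _ K₁ _ _ _ A₀ _ _ _ _ _ _ _ Wq _ x xq hx hxq
  have hjq : jq ∈ modularFunctionFieldFull (M' * q) := by
    have h1 := jqd_mem_full (M' * q) (one_dvd (M' * q))
    rwa [qExpand_one_apply] at h1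
  let y' : ModelField K₁ (M' * q) := ⟨coeffEmb K₁ jq, coeffEmb_mem_laurentBaseChange K₁ hjq⟩
  have hy' : (y' : LaurentSeries K₁) = jqModC K₁ := Fermat.Agent.H35.SS2.ss2_coeffEmb_jq K₁
  have hxq' : xq = heckeBetaBar K₁ (M' * q) q y' := by
    apply Subtype.ext
    rw [hxq, coe_heckeBetaBar]
  rw [hxq']
  exact Fermat.Agent.H35.SS2.ss2_chartClosure_beta_eq (M' * q) q hq K₁ A₀ x y'
    (hx.trans (Fermat.Agent.H35.SS2.ss2_coeffEmb_jq K₁)) hy'

/-- **VERT-IFF**, unconditional. -/
theorem modelVertIffU (M' q : ℕ) [NeZero M'] [NeZero q] : ModelVertIffStatement M' q :=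
  modelVertIff M' q (modelChartEqU M' q)

end Fermat.Agent.H93.SS2

end
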