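/-
helper93 (P-SS2, block (M3) of the concrete per-point data): THE KRONECKER RELATIONS AT THE MODEL
LEVEL, Hauptmodul of level 9 (`q ≠ 3`, `9 ∣ M'`; needed for `q = 2`).  Twin of
`Fermat.Agent.H93.SS2.modelKronRel4`; both are corollaries of `modelKronRel_gen`.
-/
import Fermat.Agent.H93.SS2.KronRelModel
import Fermat.Agent.H41.SS2N.Emb3Inputs9
import Fermat.Agent.H66.SS.HauptBasicsH9

set_option autoImplicit false
set_option linter.style.haveILetI false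
set_option linter.unusedSectionVars false

noncomputable section

namespace Fermat.Agent.H93.SS2

open Polynomial ModularCurve AlgebraicCurve
open Fermat.Agent.H22.KL Fermat.Agent.H82.SS Fermat.Agent.H7.SS2 Fermat.Agent.H11.SS2
open Fermat.Agent.H45

section Nine

variable (M' q : ℕ) [NeZero M'] [NeZero q]
  (K₁ : Type) [Field K₁] [Algebra ℚ K₁] [FiniteDimensional ℚ K₁]
  (A₀ : Type) [CommRing A₀] [IsDomain A₀] [IsDiscreteValuationRing A₀]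
  [Algebra A₀ K₁] [IsFractionRing A₀ K₁]
  [Algebra A₀ (ModelField K₁ (M' * q))] [IsScalarTower A₀ K₁ (ModelField K₁ (M' * q))]
  [Algebra A₀ (ModelField K₁ (M' * q * q))] [IsScalarTower A₀ K₁ (ModelField K₁ (M' * q * q))]

/-- **The Kronecker relations at the model level, Hauptmodul of level 9** (`q ≠ 3`,
`9 ∣ M'`), from the input package `ModelVal3Inputs` (helper86 / helper41). -/
theorem modelKronRel9 (hq : q.Prime) (hq3 : q ≠ 3) (h9 : 9 ∣ M') (hqM : ¬ q ∣ M')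
    (hch : ModelChartEqStatement M' q)
    (hϖ : Irreducible ((q : ℕ) : A₀))
    (Wq : ModelField K₁ (M' * q) ≃ₐ[K₁] ModelField K₁ (M' * q))
    (hW : IsAtkinLehnerModel K₁ M' q Wq)
    (X₁ Y₁ : ModelField K₁ (M' * q)) (Z : ModelField K₁ (M' * q * q))
    (Pα Pβ : Polynomial (ModelField K₁ (M' * q)))
    (hX₁ : (X₁ : LaurentSeries K₁) = Fermat.Agent.H41.SS2N.sX1 K₁ q)
    (hY₁ : (Y₁ : LaurentSeries K₁) = Fermat.Agent.H41.SS2N.sY1 K₁ q)
    (hin : Fermat.Agent.H86.SS2.ModelVal3Inputs K₁ A₀ M' q Wq X₁ Y₁ Z Pα Pβ)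
    (x : ModelField K₁ (M' * q * q)) (hx : (x : LaurentSeries K₁) = coeffEmb K₁ jq)
    (V₂₀ V₁₁ V₀₂ : ValuationSubring (ModelField K₁ (M' * q * q)))
    (hval : Val3Data (heckeAlphaBar K₁ (M' * q) q).toRingHom
      (heckeBetaBar K₁ (M' * q) q).toRingHom (vInf K₁ A₀ (M' * q))
      (vZero K₁ A₀ (M' * q) Wq) V₂₀ V₁₁ V₀₂ q Y₁ Z)
    (hgauss : ∀ z : ModelField K₁ (M' * q * q), z ∈ V₂₀ → z ∈ V₁₁ → z ∈ V₀₂ →
      z ∈ gaussClosure A₀ (ModelField K₁ (M' * q * q)) ((q : ℕ) : A₀) x) :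
    Z ∈ chartClosure A₀ (ModelField K₁ (M' * q * q)) x ∧
    (heckeBetaBar K₁ (M' * q) q).toRingHom X₁ =
      Z + (heckeAlphaBar K₁ (M' * q) q).toRingHom Y₁ ∧
    ∃ Gα Gβ : ModelField K₁ (M' * q * q),
      (∀ 𝔫 : Ideal (chartClosure A₀ (ModelField K₁ (M' * q * q)) x), 𝔫.IsMaximal →
        algebraMap A₀ (chartClosure A₀ (ModelField K₁ (M' * q * q)) x) ((q : ℕ) : A₀) ∈ 𝔫 →
        InLoc A₀ (ModelField K₁ (M' * q * q)) x 𝔫 Gα) ∧
      (∀ 𝔫 : Ideal (chartClosure A₀ (ModelField K₁ (M' * q * q)) x), 𝔫.IsMaximal →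
        algebraMap A₀ (chartClosure A₀ (ModelField K₁ (M' * q * q)) x) ((q : ℕ) : A₀) ∈ 𝔫 →
        InLoc A₀ (ModelField K₁ (M' * q * q)) x 𝔫 Gβ) ∧
      Z ^ (q - 1) * (Z + (heckeAlphaBar K₁ (M' * q) q).toRingHom Y₁) -
          (heckeAlphaBar K₁ (M' * q) q).toRingHom X₁ +
          algebraMap A₀ (ModelField K₁ (M' * q * q)) ((q : ℕ) : A₀) * Gα = 0 ∧
      (-Z) ^ (q - 1) * (-Z + (heckeBetaBar K₁ (M' * q) q).toRingHom X₁) -
          (heckeBetaBar K₁ (M' * q) q).toRingHom Y₁ +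
          algebraMap A₀ (ModelField K₁ (M' * q * q)) ((q : ℕ) : A₀) * Gβ = 0 := by
  classical
  have hqA : ¬ IsUnit ((q : ℕ) : A₀) := hϖ.not_isUnit
  have hjq : jq ∈ modularFunctionFieldFull (M' * q) := by
    have h1 := jqd_mem_full (M' * q) (one_dvd (M' * q))
    rwa [qExpand_one_apply] at h1
  let xL : ModelField K₁ (M' * q) := ⟨coeffEmb K₁ jq, coeffEmb_mem_laurentBaseChange K₁ hjq⟩
  have hxL : (xL : LaurentSeries K₁) = coeffEmb K₁ jq := rfl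
  obtain ⟨-, H, Hq, -, -, hH, hHq, hHB, hHqB, -, -, -, -, -, -⟩ :=
    Fermat.Agent.H66.SSHaupt9.modelHauptBasicsH9 M' q h9 hq hq3 hqM K₁ A₀ hqA xL hxL Wq hW
  have eX : X₁ = Hq - H ^ q := by
    apply Subtype.ext
    rw [hX₁]
    show Fermat.Agent.H41.SS2N.sX1 K₁ q = (Hq : LaurentSeries K₁) - (H : LaurentSeries K₁) ^ q
    rw [hH, hHq]
    rfl
  have eY : Y₁ = H - Hq ^ q := by
    apply Subtype.ext
    rw [hY₁]
    show Fermat.Agent.H41.SS2N.sY1 K₁ q = (H : LaurentSeries K₁) - (Hq : LaurentSeries K₁) ^ q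
    rw [hH, hHq]
    rfl
  have hX₁B : X₁ ∈ chartClosure A₀ (ModelField K₁ (M' * q)) xL := by
    rw [eX]
    exact sub_mem hHqB (pow_mem hHB q)
  have hY₁B : Y₁ ∈ chartClosure A₀ (ModelField K₁ (M' * q)) xL := by
    rw [eY]
    exact sub_mem hHB (pow_mem hHqB q)
  have hcastF : algebraMap A₀ (ModelField K₁ (M' * q)) ((q : ℕ) : A₀) =
      ((q : ℕ) : ModelField K₁ (M' * q)) := map_natCast _ q
  have hu₁ := isUniformiser_vInf (K₁ := K₁) (A₀ := A₀) (N := M' * q) hϖ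
  have hu₂ := isUniformiser_vZero (K₁ := K₁) (A₀ := A₀) (N := M' * q) Wq hϖ
  rw [hcastF] at hu₁ hu₂
  have hX₁O : X₁ ∈ (vInf K₁ A₀ (M' * q)).nonunits := by
    have e : X₁ = X₁ / ((q : ℕ) : ModelField K₁ (M' * q)) *
        ((q : ℕ) : ModelField K₁ (M' * q)) := by
      rw [div_mul_cancel₀ _ hu₁.1]
    rw [e]
    exact rg_nu_mul_mem hin.x1_O1.1 hu₁.2.1
  have hY₁O : Y₁ ∈ (vZero K₁ A₀ (M' * q) Wq).nonunits := by
    have e : Y₁ = Y₁ / ((q : ℕ) : ModelField K₁ (M' * q)) *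
        ((q : ℕ) : ModelField K₁ (M' * q)) := by
      rw [div_mul_cancel₀ _ hu₂.1]
    rw [e]
    exact rg_nu_mul_mem hin.y1_O2.1 hu₂.2.1
  exact modelKronRel_gen M' q K₁ A₀ hq hqM hch hϖ Wq hW xL hxL X₁ Y₁ Z hX₁B hY₁B hX₁O hY₁O
    hin.rel Pα Pβ hin.rootα hin.rootβ hin.redα1 hin.redα2 hin.redβ1 hin.redβ2 x hx V₂₀ V₁₁ V₀₂
    hval hgauss

end Nine

end Fermat.Agent.H93.SS2

end
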