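/-
helper93 (P-SS2, per-point data `hptf` of ASM-CORE, row 905 (b) / row 1058): the regular TRIPLE
points.

* `at_map_mem_chartClosure` : an `A`-linear field embedding `φ` maps `B'(y')` into `B(φ y')`.
* `at_asmBelow` : `H19.SS2.AsmBelow` along `φ` from the uniqueness clause of REGSS.
* `asmThree_of_regss` : `H19.SS2.AsmThree` at a maximal ideal `𝔪` of `B(y)` lying above a node
  `𝔪α` of level `L` along `α` and above a node `𝔪β` along `β` (both in the shape of alternative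
  (ss) of `H7.SS2.RegLAtOne`), from `Val3Data`, the verticality of the three valuations,
  GAUSS-TOWER (`hgauss`), the chart equalities `B(α y') = B(y) = B(β y')` and the two Kronecker
  relations.  The three regular-point data are the ones of `regss_val3_alpha`
  (first alternative of `AsmThree`, `z₁ = α Y₁`, `z₂ = Z`).
-/
import Fermat.Agent.H93.SS2.RegSSVal3
import Fermat.Agent.H19.SS2.AsmCoreDefs
import Fermat.Agent.H4.SS.Hartogs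
import Fermat.Agent.H89.KLGauss

set_option autoImplicit false
set_option linter.style.haveILetI false
set_option linter.unusedSectionVars false

noncomputable section

namespace Fermat.Agent.H93.SS2

open Fermat.Agent.H22.KL Fermat.Agent.H11.SS2 Fermat.Agent.H45 Fermat.Agent.H19.SS2

section Below

variable (A : Type) [CommRing A] (E' E₀ : Type) [Field E'] [Field E₀] [Algebra A E']
  [Algebra A E₀]

/-- An `A`-linear embedding maps `B'(y')` into `B(φ y')`. -/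
theorem at_map_mem_chartClosure (φ : E' →+* E₀)
    (hφA : ∀ a : A, φ (algebraMap A E' a) = algebraMap A E₀ a) (y' : E') {z : E'}
    (hz : z ∈ chartClosure A E' y') : φ z ∈ chartClosure A E₀ (φ y') := by
  let φA : E' →ₐ[A] E₀ := { φ with commutes' := hφA }
  have hmap : ∀ c : chartRing A E' y', φ (c : E') ∈ chartRing A E₀ (φ y') := by
    rintro ⟨c, hc⟩
    have h1 : φA c ∈ (Algebra.adjoin A ({y'} : Set E')).map φA :=
      ⟨c, hc, rfl⟩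
    rw [AlgHom.map_adjoin, Set.image_singleton] at h1
    exact h1
  let ψ : chartRing A E' y' →+* chartRing A E₀ (φ y') :=
    { toFun := fun c => ⟨φ (c : E'), hmap c⟩
      map_one' := Subtype.ext (map_one φ)
      map_mul' := fun a b => Subtype.ext (map_mul φ _ _)
      map_zero' := Subtype.ext (map_zero φ)
      map_add' := fun a b => Subtype.ext (map_add φ _ _) }
  have hz' : IsIntegral (chartRing A E' y') z := hz
  exact IsIntegral.map_of_comp_eq ψ φ (by ext; rfl) hz'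

/-- **`AsmBelow` from the uniqueness clause of REGSS.** -/
theorem at_asmBelow (φ : E' →+* E₀) (O₁ O₂ : ValuationSubring E') (y' : E') (y : E₀)
    (hch : chartClosure A E₀ (φ y') = chartClosure A E₀ y)
    (hφB : ∀ z ∈ chartClosure A E' y', φ z ∈ chartClosure A E₀ y)
    (𝔪' : Ideal (chartClosure A E' y')) (h𝔪' : 𝔪'.IsMaximal)
    (hO₁ : ∀ s ∈ chartClosure A E' y', s ∈ O₁) (hO₂ : ∀ s ∈ chartClosure A E' y', s ∈ O₂)
    (hT₁ : Through A E' y' 𝔪' O₁) (hT₂ : Through A E' y' 𝔪' O₂)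
    (𝔪 : Ideal (chartClosure A E₀ y)) (h𝔪 : 𝔪.IsMaximal)
    (habove : ∀ s : chartClosure A E' y', s ∈ 𝔪' →
      (⟨φ s, hφB s s.2⟩ : chartClosure A E₀ y) ∈ 𝔪)
    (huniq : ∀ 𝔪₁ 𝔪₂ : Ideal (chartClosure A E₀ y), 𝔪₁.IsMaximal → 𝔪₂.IsMaximal →
      (∀ s : chartClosure A E' y', s ∈ 𝔪' →
        (⟨φ s, hφB s s.2⟩ : chartClosure A E₀ y) ∈ 𝔪₁) →
      (∀ s : chartClosure A E' y', s ∈ 𝔪' →
        (⟨φ s, hφB s s.2⟩ : chartClosure A E₀ y) ∈ 𝔪₂) → 𝔪₁ = 𝔪₂) :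
    AsmBelow A E' E₀ φ O₁ O₂ y 𝔪 :=
  ⟨y', 𝔪', hch, h𝔪', hO₁, hO₂, hT₁, hT₂, fun 𝔫 h𝔫 hab =>
    huniq 𝔫 𝔪 h𝔫 h𝔪 (fun s hs => hab s hs _ rfl) habove⟩

end Below

section Three

variable (A : Type) [CommRing A] [IsDomain A] [IsDiscreteValuationRing A]
  (E' : Type) [Field E'] [Algebra A E'] [CharZero E']
  (E₀ : Type) [Field E₀] [Algebra A E₀] [CharZero E₀]

/-- **The regular triple points of ASM-CORE** (`AsmThree`), from REGSS along `α` and along `β`.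

`𝔪` is a maximal ideal of `B(y)` above the node `𝔪α` of level `L` along `α` and above the node
`𝔪β` along `β`; the nodes have the shape of alternative (ss) of `RegLAtOne` with the parameters
`X₁` (local equation of `O₁`) and `Y₁` (local equation of `O₂`), `X₁ Y₁ = q · unit`; `Gα`, `Gβ`
are the cofactors of the two Kronecker relations (locally integral at the points above). -/
theorem asmThree_of_regss
    (q : ℕ) (hq : 2 ≤ q) (hϖ : Irreducible ((q : ℕ) : A))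
    (hinj' : Function.Injective (algebraMap A E'))
    (y' : E') (hy' : Transcendental A y')
    (hfd' : ∃ n : ℕ, Nonempty (Module.Basis (Fin n) (chartField A E' y') E'))
    (O₁ O₂ : ValuationSubring E') (X₁ Y₁ : E')
    (𝔪α 𝔪β : Ideal (chartClosure A E' y')) (h𝔪α : 𝔪α.IsMaximal) (h𝔪β : 𝔪β.IsMaximal)
    (hnα₁ : IsRegPoint A E' ((q : ℕ) : A) y' 𝔪α O₁ X₁ Y₁)
    (hnα₂ : IsRegPoint A E' ((q : ℕ) : A) y' 𝔪α O₂ Y₁ X₁)
    (hnαu : IsLocUnit A E' y' 𝔪α (X₁ * Y₁ / algebraMap A E' ((q : ℕ) : A)))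
    (hnβ₁ : IsRegPoint A E' ((q : ℕ) : A) y' 𝔪β O₁ X₁ Y₁)
    (hnβ₂ : IsRegPoint A E' ((q : ℕ) : A) y' 𝔪β O₂ Y₁ X₁)
    (hnβu : IsLocUnit A E' y' 𝔪β (X₁ * Y₁ / algebraMap A E' ((q : ℕ) : A)))
    (hinj : Function.Injective (algebraMap A E₀))
    (y : E₀) (hy : Transcendental A y)
    (hfd : ∃ n : ℕ, Nonempty (Module.Basis (Fin n) (chartField A E₀ y) E₀))
    (α β : E' →+* E₀) (hαA : ∀ a : A, α (algebraMap A E' a) = algebraMap A E₀ a)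
    (hβA : ∀ a : A, β (algebraMap A E' a) = algebraMap A E₀ a)
    (hchα : chartClosure A E₀ (α y') = chartClosure A E₀ y)
    (hchβ : chartClosure A E₀ (β y') = chartClosure A E₀ y)
    (V₂₀ V₁₁ V₀₂ : ValuationSubring E₀) (Z : E₀)
    (hval : Val3Data α β O₁ O₂ V₂₀ V₁₁ V₀₂ q Y₁ Z)
    (hX₂ : β X₁ = Z + α Y₁)
    (hV₂₀ : IsVertical A E₀ ((q : ℕ) : A) y V₂₀) (hV₁₁ : IsVertical A E₀ ((q : ℕ) : A) y V₁₁)
    (hV₀₂ : IsVertical A E₀ ((q : ℕ) : A) y V₀₂)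
    (hgauss : ∀ z : E₀, z ∈ V₂₀ → z ∈ V₁₁ → z ∈ V₀₂ →
      z ∈ gaussClosure A E₀ ((q : ℕ) : A) y)
    (hZ : Z ∈ chartClosure A E₀ y)
    (𝔪 : Ideal (chartClosure A E₀ y)) (h𝔪 : 𝔪.IsMaximal)
    (hLα : ∀ s : chartClosure A E' y', s ∈ 𝔪α →
      ∀ t : chartClosure A E₀ y, (t : E₀) = α s → t ∈ 𝔪)
    (hLβ : ∀ s : chartClosure A E' y', s ∈ 𝔪β →
      ∀ t : chartClosure A E₀ y, (t : E₀) = β s → t ∈ 𝔪)
    (Gα Gβ : E₀)
    (hGα : ∀ 𝔫 : Ideal (chartClosure A E₀ y), 𝔫.IsMaximal →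
      (∀ s : chartClosure A E' y', s ∈ 𝔪α →
        ∀ t : chartClosure A E₀ y, (t : E₀) = α s → t ∈ 𝔫) → InLoc A E₀ y 𝔫 Gα)
    (hGβ : ∀ 𝔫 : Ideal (chartClosure A E₀ y), 𝔫.IsMaximal →
      (∀ s : chartClosure A E' y', s ∈ 𝔪β →
        ∀ t : chartClosure A E₀ y, (t : E₀) = β s → t ∈ 𝔫) → InLoc A E₀ y 𝔫 Gβ)
    (hrelα : Z ^ (q - 1) * (Z + α Y₁) - α X₁ + algebraMap A E₀ ((q : ℕ) : A) * Gα = 0)
    (hrelβ : (-Z) ^ (q - 1) * (-Z + β X₁) - β Y₁ + algebraMap A E₀ ((q : ℕ) : A) * Gβ = 0) :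
    AsmThree A E' E₀ q α β O₁ O₂ V₂₀ V₁₁ V₀₂ y 𝔪 := by
  have hH := Fermat.Agent.H4.SS.localHartogs
  have hαB : ∀ z ∈ chartClosure A E' y', α z ∈ chartClosure A E₀ y := fun z hz => by
    rw [← hchα]
    exact at_map_mem_chartClosure A E' E₀ α hαA y' hz
  have hβB : ∀ z ∈ chartClosure A E' y', β z ∈ chartClosure A E₀ y := fun z hz => by
    rw [← hchβ]
    exact at_map_mem_chartClosure A E' E₀ β hβA y' hz
  have hO₁ : ∀ s ∈ chartClosure A E' y', s ∈ O₁ := fun s hs =>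
    hnα₁.vert.2.2.1 s (Fermat.Agent.H89.klg_chartClosure_le_gaussClosure hϖ hy' hs)
  have hO₂ : ∀ s ∈ chartClosure A E' y', s ∈ O₂ := fun s hs =>
    hnα₂.vert.2.2.1 s (Fermat.Agent.H89.klg_chartClosure_le_gaussClosure hϖ hy' hs)
  have hϖα : algebraMap A (chartClosure A E' y') ((q : ℕ) : A) ∈ 𝔪α :=
    hnα₁.thru _ hnα₁.vert.2.2.2
  have hϖβ : algebraMap A (chartClosure A E' y') ((q : ℕ) : A) ∈ 𝔪β :=
    hnβ₁.thru _ hnβ₁.vert.2.2.2
  -- the unit `ψ' = X₁ Y₁ / q`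
  have hq0 : algebraMap A E' ((q : ℕ) : A) ≠ 0 := by
    intro h0
    have := hinj' (h0.trans (map_zero _).symm)
    exact hϖ.ne_zero this
  have hnode : X₁ * Y₁ = algebraMap A E' ((q : ℕ) : A) *
      (X₁ * Y₁ / algebraMap A E' ((q : ℕ) : A)) := by
    field_simp
  -- REGSS along `α` and along `β`
  have hA := regss_val3_alpha A E' E₀ hH ((q : ℕ) : A) hϖ hinj' y' hy' hfd' 𝔪α h𝔪α hϖα O₁ O₂
    X₁ Y₁ _ hnα₂ hnαu hnode hinj y hy hfd α β hαA hαB q hq V₂₀ V₁₁ V₀₂ Z hval hV₂₀ hV₁₁ hV₀₂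
    hgauss Gα hZ (fun 𝔫 h𝔫 hab => hGα 𝔫 h𝔫 (fun s hs t ht => by
      have : t = ⟨α s, hαB s s.2⟩ := Subtype.ext ht
      rw [this]
      exact hab s hs)) hrelα
  have hB := regss_val3_beta A E' E₀ hH ((q : ℕ) : A) hϖ hinj' y' hy' hfd' 𝔪β h𝔪β hϖβ O₁ O₂
    X₁ Y₁ _ hnβ₁ hnβu hnode hinj y hy hfd α β hβA hβB q hq V₂₀ V₁₁ V₀₂ Z hval hX₂ hV₂₀ hV₁₁
    hV₀₂ hgauss Gβ hZ (fun 𝔫 h𝔫 hab => hGβ 𝔫 h𝔫 (fun s hs t ht => by
      have : t = ⟨β s, hβB s s.2⟩ := Subtype.ext ht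
      rw [this]
      exact hab s hs)) hrelβ
  have habα : ∀ s : chartClosure A E' y', s ∈ 𝔪α →
      (⟨α s, hαB s s.2⟩ : chartClosure A E₀ y) ∈ 𝔪 := fun s hs => hLα s hs _ rfl
  have habβ : ∀ s : chartClosure A E' y', s ∈ 𝔪β →
      (⟨β s, hβB s s.2⟩ : chartClosure A E₀ y) ∈ 𝔪 := fun s hs => hLβ s hs _ rfl
  obtain ⟨h1, h2, h3⟩ := hA.1 𝔪 h𝔪 habα
  refine ⟨Or.inl ⟨α Y₁, Z, h1, h2, h3⟩, ?_, ?_⟩
  · exact at_asmBelow A E' E₀ α O₁ O₂ y' y hchα hαB 𝔪α h𝔪α hO₁ hO₂ hnα₁.thru hnα₂.thru 𝔪 h𝔪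
      habα hA.2
  · exact at_asmBelow A E' E₀ β O₁ O₂ y' y hchβ hβB 𝔪β h𝔪β hO₁ hO₂ hnβ₁.thru hnβ₂.thru 𝔪 h𝔪
      habβ hB.2

end Three

end Fermat.Agent.H93.SS2

end
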